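import Mathlib

/-!
# The prime zeta sum of a number field

For a number field `K`, `∑_P N(P)^{-s} = log (1/(s-1)) + O(1)` as `s → 1+`.
-/

set_option autoImplicit false

noncomputable section

open Filter Topology NumberField Asymptotics IsDedekindDomain

namespace Fermat.Agent.Density

variable (K : Type*) [Field K] [NumberField K]

/-- number of ideals of norm `n` -/
def idealCount (n : ℕ) : ℝ := Nat.card {I : Ideal (𝓞 K) // Ideal.absNorm I = n}

variable {K} in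
/-- `N(I)^{-s}` -/
def nrm (I : Ideal (𝓞 K)) (s : ℝ) : ℝ := (Ideal.absNorm I : ℝ) ^ (-s)

variable {K}

theorem nrm_nonneg (I : Ideal (𝓞 K)) (s : ℝ) : 0 ≤ nrm I s := by
  unfold nrm; positivity

theorem nrm_mul (I J : Ideal (𝓞 K)) (s : ℝ) : nrm (I * J) s = nrm I s * nrm J s := by
  unfold nrm
  rw [map_mul, Nat.cast_mul, Real.mul_rpow (by positivity) (by positivity)]

theorem nrm_one (s : ℝ) : nrm (1 : Ideal (𝓞 K)) s = 1 := by
  unfold nrm
  simp

theorem nrm_prod {ι : Type*} (T : Finset ι) (f : ι → Ideal (𝓞 K)) (s : ℝ) :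
    nrm (∏ i ∈ T, f i) s = ∏ i ∈ T, nrm (f i) s := by
  classical
  induction T using Finset.induction_on with
  | empty => rw [Finset.prod_empty, Finset.prod_empty, nrm_one]
  | insert a T ha ih => rw [Finset.prod_insert ha, Finset.prod_insert ha, nrm_mul, ih]

theorem nrm_sq (I : Ideal (𝓞 K)) (s : ℝ) : nrm (I ^ 2) s = nrm I (2 * s) := by
  unfold nrm
  rw [map_pow, Nat.cast_pow, ← Real.rpow_natCast, ← Real.rpow_mul (by positivity)]
  norm_num

theorem nrm_le_one (I : Ideal (𝓞 K)) {s : ℝ} (hs : 0 < s) : nrm I s ≤ 1 := by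
  unfold nrm
  rcases Nat.eq_zero_or_pos (Ideal.absNorm I) with h | h
  · rw [h]; simp [Real.zero_rpow (neg_ne_zero.2 hs.ne')]
  · exact Real.rpow_le_one_of_one_le_of_nonpos (by exact_mod_cast h) (by linarith)

theorem nrm_mono (I : Ideal (𝓞 K)) {s t : ℝ} (hs : 0 < s) (hst : s ≤ t) : nrm I t ≤ nrm I s := by
  unfold nrm
  rcases Nat.eq_zero_or_pos (Ideal.absNorm I) with h | h
  · rw [h]
    simp [Real.zero_rpow (neg_ne_zero.2 hs.ne'), Real.zero_rpow (neg_ne_zero.2 (hs.trans_le hst).ne')]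
  · exact Real.rpow_le_rpow_of_exponent_le (by exact_mod_cast h) (by linarith)

variable (K)

theorem finite_fiber (n : ℕ) : Finite {I : Ideal (𝓞 K) // Ideal.absNorm I = n} :=
  (Ideal.finite_setOfPred_absNorm_eq n).to_subtype

theorem sum_idealCount (n : ℕ) :
    ∑ k ∈ Finset.Icc 1 n, idealCount K k =
      (Nat.card {I : nonZeroDivisors (Ideal (𝓞 K)) // (Ideal.absNorm (I : Ideal (𝓞 K)) : ℝ) ≤ (n : ℝ)} : ℝ) := by
  unfold idealCount
  simp only [Nat.cast_le, ← Nat.cast_sum]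
  congr
  rw [← add_left_inj 1, ← Ideal.card_norm_le_eq_card_norm_le_add_one,
    show Finset.Icc 1 n = Finset.Ioc 0 n from Finset.Icc_succ_left_eq_Ioc _ _,
    show 1 = Nat.card {I : Ideal (𝓞 K) // Ideal.absNorm I = 0} by simp [Ideal.absNorm_eq_zero_iff],
    Finset.sum_Ioc_add_eq_sum_Icc (n.zero_le),
    ← Finset.card_preimage_eq_sum_card_image_eq (fun k _ ↦ Ideal.finite_setOfPred_absNorm_eq k)]
  simp [Set.coe_eq_subtype]

theorem tendsto_sum_idealCount :
    Tendsto (fun n : ℕ ↦ (∑ k ∈ Finset.Icc 1 n, idealCount K k) / (n : ℝ)) atTop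
      (𝓝 (dedekindZeta_residue K)) := by
  refine ((Ideal.tendsto_norm_le_div_atTop₀ K).comp tendsto_natCast_atTop_atTop).congr fun n ↦ ?_
  rw [sum_idealCount]
  rfl

theorem idealCount_nonneg (n : ℕ) : 0 ≤ idealCount K n := by unfold idealCount; positivity

theorem lseriesSummable {s : ℝ} (hs : 1 < s) :
    LSeriesSummable (fun n ↦ (idealCount K n : ℂ)) (s : ℂ) := by
  refine LSeriesSummable_of_sum_norm_bigO_and_nonneg (r := 1) ?_ (idealCount_nonneg K)
    zero_le_one (by simpa using hs)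
  have h := (tendsto_sum_idealCount K).isBigO_one ℝ
  have h2 : (fun n : ℕ ↦ (∑ k ∈ Finset.Icc 1 n, idealCount K k)) =ᶠ[atTop]
      (fun n : ℕ ↦ ((∑ k ∈ Finset.Icc 1 n, idealCount K k) / (n : ℝ)) * (n : ℝ)) := by
    filter_upwards [eventually_gt_atTop 0] with n hn
    have : (n : ℝ) ≠ 0 := by positivity
    field_simp
  refine h2.trans_isBigO ?_
  have h3 := h.mul (isBigO_refl (fun n : ℕ ↦ (n : ℝ)) atTop)
  simpa using h3

theorem term_eq {s : ℝ} (hs : 1 < s) (n : ℕ) :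
    LSeries.term (fun n ↦ (idealCount K n : ℂ)) (s : ℂ) n =
      ((idealCount K n * (n : ℝ) ^ (-s) : ℝ) : ℂ) := by
  rcases Nat.eq_zero_or_pos n with h | h
  · subst h
    simp [Real.zero_rpow (show -s ≠ 0 by linarith)]
  · rw [LSeries.term_of_ne_zero h.ne']
    push_cast
    rw [Complex.ofReal_cpow (by positivity), Complex.ofReal_neg, Complex.cpow_neg]
    simp [div_eq_mul_inv]

theorem summable_idealCount {s : ℝ} (hs : 1 < s) :
    Summable (fun n : ℕ ↦ idealCount K n * (n : ℝ) ^ (-s)) := by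
  have h := lseriesSummable K hs
  unfold LSeriesSummable at h
  have h2 : LSeries.term (fun n ↦ (idealCount K n : ℂ)) (s : ℂ) =
      fun n ↦ ((idealCount K n * (n : ℝ) ^ (-s) : ℝ) : ℂ) := funext (term_eq K hs)
  rw [h2] at h
  exact Complex.summable_ofReal.1 h

theorem hasSum_sigma_ideal {s : ℝ} (hs : 1 < s) :
    HasSum (fun I : Ideal (𝓞 K) ↦ nrm I s) (∑' n : ℕ, idealCount K n * (n : ℝ) ^ (-s)) := by
  have hfin := finite_fiber K
  rw [← (Equiv.sigmaFiberEquiv (fun I : Ideal (𝓞 K) ↦ Ideal.absNorm I)).hasSum_iff]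
  have hf : ∀ n : ℕ, HasSum (fun I : {I : Ideal (𝓞 K) // Ideal.absNorm I = n} ↦ nrm I.1 s)
      (idealCount K n * (n : ℝ) ^ (-s)) := by
    intro n
    have := Fintype.ofFinite {I : Ideal (𝓞 K) // Ideal.absNorm I = n}
    have h1 : ∑ I : {I : Ideal (𝓞 K) // Ideal.absNorm I = n}, nrm I.1 s =
        idealCount K n * (n : ℝ) ^ (-s) := by
      rw [Finset.sum_congr rfl (g := fun _ ↦ (n : ℝ) ^ (-s))]
      · rw [Finset.sum_const, nsmul_eq_mul, Finset.card_univ, idealCount, Nat.card_eq_fintype_card]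
      · intro I _
        unfold nrm
        rw [I.2]
    rw [← h1]
    exact hasSum_fintype _
  have hsum : Summable ((fun I : Ideal (𝓞 K) ↦ nrm I s) ∘
      (Equiv.sigmaFiberEquiv (fun I : Ideal (𝓞 K) ↦ Ideal.absNorm I))) := by
    refine (summable_sigma_of_nonneg (fun x ↦ ?_)).2 ⟨fun n ↦ (hf n).summable, ?_⟩
    · exact nrm_nonneg _ _
    refine (summable_idealCount K hs).congr fun n ↦ ?_
    exact (hf n).tsum_eq.symm
  have h := hsum.hasSum
  rw [hsum.tsum_sigma] at h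
  convert! h using 1
  exact tsum_congr fun n ↦ (hf n).tsum_eq.symm

theorem summable_nrm {s : ℝ} (hs : 1 < s) : Summable (fun I : Ideal (𝓞 K) ↦ nrm I s) :=
  (hasSum_sigma_ideal K hs).summable

/-- real Dedekind zeta -/
def zetaR (s : ℝ) : ℝ := ∑' I : Ideal (𝓞 K), nrm I s

theorem tendsto_zetaR :
    Tendsto (fun s : ℝ ↦ (s - 1) * zetaR K s) (𝓝[>] 1) (𝓝 (dedekindZeta_residue K)) := by
  have h := tendsto_sub_one_mul_dedekindZeta_nhdsGT K
  have h2 : (fun s : ℝ ↦ ((s : ℂ) - 1) * dedekindZeta K s) =ᶠ[𝓝[>] 1]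
      (fun s : ℝ ↦ (((s - 1) * zetaR K s : ℝ) : ℂ)) := by
    filter_upwards [self_mem_nhdsWithin] with s hs
    have hs : 1 < s := hs
    push_cast
    congr 1
    unfold dedekindZeta LSeries zetaR
    rw [(hasSum_sigma_ideal K hs).tsum_eq, Complex.ofReal_tsum]
    refine tsum_congr fun n ↦ ?_
    rw [← term_eq K hs]
    congr 1
  have h3 := h.congr' h2
  exact (Complex.continuous_re.tendsto _).comp h3 |>.congr fun s ↦ by simp

theorem zetaR_ge_one {s : ℝ} (hs : 1 < s) : 1 ≤ zetaR K s := by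
  have h := (summable_nrm K hs).le_tsum (1 : Ideal (𝓞 K)) (fun I _ ↦ nrm_nonneg I s)
  rwa [nrm_one] at h

theorem zetaR_pos {s : ℝ} (hs : 1 < s) : 0 < zetaR K s := zero_lt_one.trans_le (zetaR_ge_one K hs)

theorem zetaR_anti {s t : ℝ} (hs : 1 < s) (hst : s ≤ t) : zetaR K t ≤ zetaR K s :=
  (summable_nrm K (hs.trans_le hst)).tsum_le_tsum (fun I ↦ nrm_mono I (by linarith) hst)
    (summable_nrm K hs)

/-- `log ζ_K(s) = log(1/(s-1)) + O(1)`. -/
theorem log_zetaR_isBigO :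
    (fun s : ℝ ↦ Real.log (zetaR K s) - Real.log (1 / (s - 1))) =O[𝓝[>] 1]
      (fun _ ↦ (1 : ℝ)) := by
  have h := (tendsto_zetaR K).log (dedekindZeta_residue_ne_zero K)
  refine (h.isBigO_one ℝ).congr' ?_ EventuallyEq.rfl
  filter_upwards [self_mem_nhdsWithin] with s hs
  have hs : 1 < s := hs
  rw [Real.log_mul (by linarith) (zetaR_pos K hs).ne', one_div, Real.log_inv]
  ring

/-! ### primes -/

theorem nrm_prime_pos (P : HeightOneSpectrum (𝓞 K)) (s : ℝ) : 0 < nrm P.asIdeal s := by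
  unfold nrm
  have h : 0 < Ideal.absNorm P.asIdeal := Nat.pos_of_ne_zero fun h ↦
    P.ne_bot (Ideal.absNorm_eq_zero_iff.1 h)
  positivity

theorem prod_primes_injective :
    Function.Injective (fun U : Finset (HeightOneSpectrum (𝓞 K)) ↦ ∏ P ∈ U, P.asIdeal) := by
  have key : ∀ (U : Finset (HeightOneSpectrum (𝓞 K))) (P : HeightOneSpectrum (𝓞 K)),
      P ∈ U ↔ P.asIdeal ∣ ∏ Q ∈ U, Q.asIdeal := by
    intro U P
    constructor
    · intro h
      exact Finset.dvd_prod_of_mem _ h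
    · intro h
      have hP : Prime P.asIdeal := P.prime
      obtain ⟨Q, hQ, hPQ⟩ := (hP.dvd_finsetProd_iff _).1 h
      have h1 : Associated P.asIdeal Q.asIdeal := (hP.dvd_prime_iff_associated Q.prime).1 hPQ
      have h2 : P = Q := HeightOneSpectrum.ext (associated_iff_eq.1 h1)
      rwa [h2]
  intro U V h
  ext P
  simp only at h
  rw [key U P, key V P, h]

theorem summable_nrm_primes {s : ℝ} (hs : 1 < s) :
    Summable (fun P : HeightOneSpectrum (𝓞 K) ↦ nrm P.asIdeal s) :=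
  (summable_nrm K hs).comp_injective (i := fun P : HeightOneSpectrum (𝓞 K) ↦ P.asIdeal)
    (fun _ _ h ↦ HeightOneSpectrum.ext h)

/-- prime zeta sum over all primes -/
def pzeta (s : ℝ) : ℝ := ∑' P : HeightOneSpectrum (𝓞 K), nrm P.asIdeal s

theorem pzeta_nonneg (s : ℝ) : 0 ≤ pzeta K s := tsum_nonneg fun _ ↦ nrm_nonneg _ _

theorem pzeta_anti {s t : ℝ} (hs : 1 < s) (hst : s ≤ t) : pzeta K t ≤ pzeta K s :=
  (summable_nrm_primes K (hs.trans_le hst)).tsum_le_tsum (fun I ↦ nrm_mono _ (by linarith) hst)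
    (summable_nrm_primes K hs)

theorem prod_one_add_le {s : ℝ} (hs : 1 < s) (T : Finset (HeightOneSpectrum (𝓞 K))) :
    ∏ P ∈ T, (1 + nrm P.asIdeal s) ≤ zetaR K s := by
  classical
  rw [Finset.prod_one_add]
  have h1 : ∑ U ∈ T.powerset, ∏ P ∈ U, nrm P.asIdeal s =
      ∑ I ∈ T.powerset.image (fun U ↦ ∏ P ∈ U, P.asIdeal), nrm I s := by
    rw [Finset.sum_image (fun U _ V _ h ↦ prod_primes_injective K h)]
    exact Finset.sum_congr rfl fun U _ ↦ (nrm_prod U _ s).symm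
  rw [h1]
  exact (summable_nrm K hs).sum_le_tsum _ (fun _ _ ↦ nrm_nonneg _ _)

theorem sum_log_le {s : ℝ} (hs : 1 < s) (T : Finset (HeightOneSpectrum (𝓞 K))) :
    ∑ P ∈ T, Real.log (1 + nrm P.asIdeal s) ≤ Real.log (zetaR K s) := by
  rw [← Real.log_prod (fun P _ ↦ by have := nrm_nonneg P.asIdeal s; positivity)]
  exact Real.log_le_log (Finset.prod_pos fun P _ ↦ by
    have := nrm_nonneg P.asIdeal s; positivity) (prod_one_add_le K hs T)

theorem sub_sq_le_log {x : ℝ} (hx : 0 ≤ x) : x - x ^ 2 ≤ Real.log (1 + x) := by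
  have h1 : 1 - (1 + x)⁻¹ ≤ Real.log (1 + x) := Real.one_sub_inv_le_log_of_pos (by linarith)
  have h2 : x - x ^ 2 ≤ 1 - (1 + x)⁻¹ := by
    have h3 : 1 - (1 + x)⁻¹ = x / (1 + x) := by field_simp; ring
    rw [h3, le_div_iff₀ (by linarith)]
    nlinarith [pow_nonneg hx 3, pow_nonneg hx 2]
  linarith

/-- upper bound for the prime zeta sum -/
theorem pzeta_le {s : ℝ} (hs : 1 < s) :
    pzeta K s ≤ Real.log (zetaR K s) + pzeta K 2 := by
  refine Real.tsum_le_of_sum_le (fun _ ↦ nrm_nonneg _ _) fun T ↦ ?_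
  have h1 := sum_log_le K hs T
  have h2 : ∑ P ∈ T, nrm P.asIdeal s - ∑ P ∈ T, (nrm P.asIdeal s) ^ 2 ≤
      ∑ P ∈ T, Real.log (1 + nrm P.asIdeal s) := by
    rw [← Finset.sum_sub_distrib]
    exact Finset.sum_le_sum fun P _ ↦ sub_sq_le_log (nrm_nonneg _ _)
  have h3 : ∑ P ∈ T, (nrm P.asIdeal s) ^ 2 ≤ pzeta K 2 := by
    have h4 : ∑ P ∈ T, (nrm P.asIdeal s) ^ 2 ≤ ∑ P ∈ T, nrm P.asIdeal 2 := by
      refine Finset.sum_le_sum fun P _ ↦ ?_
      have h5 : (nrm P.asIdeal s) ^ 2 = nrm P.asIdeal (2 * s) := by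
        rw [sq, ← nrm_mul, ← sq, nrm_sq]
      rw [h5]
      exact nrm_mono _ (by norm_num) (by linarith)
    exact h4.trans ((summable_nrm_primes K (by norm_num : (1 : ℝ) < 2)).sum_le_tsum _
      (fun _ _ ↦ nrm_nonneg _ _))
  linarith

theorem exists_squarefree_decomp (I : Ideal (𝓞 K)) (hI : I ≠ 0) :
    ∃ x : Finset (HeightOneSpectrum (𝓞 K)) × Ideal (𝓞 K),
      I = (∏ P ∈ x.1, P.asIdeal) * x.2 ^ 2 := by
  classical
  induction I using UniqueFactorizationMonoid.induction_on_prime with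
  | h₁ => exact absurd rfl hI
  | h₂ x hx =>
    refine ⟨(∅, 1), ?_⟩
    rw [isUnit_iff_eq_one.1 hx, Finset.prod_empty, one_pow, one_mul]
  | h₃ a p ha hp ih =>
    obtain ⟨⟨U, B⟩, h⟩ := ih ha
    have hp0 : p ≠ ⊥ := hp.ne_zero
    set P : HeightOneSpectrum (𝓞 K) := ⟨p, Ideal.isPrime_of_prime hp, hp0⟩ with hPdef
    by_cases hPU : P ∈ U
    · refine ⟨(U.erase P, p * B), ?_⟩
      simp only at h ⊢
      rw [h, ← Finset.mul_prod_erase U _ hPU]
      ring
    · refine ⟨(insert P U, B), ?_⟩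
      simp only at h ⊢
      rw [Finset.prod_insert hPU, h]
      ring

theorem sum_prod_le {s : ℝ} (hs : 1 < s) (F : Finset (Finset (HeightOneSpectrum (𝓞 K)))) :
    ∑ U ∈ F, ∏ P ∈ U, nrm P.asIdeal s ≤ Real.exp (pzeta K s) := by
  classical
  set T := F.biUnion id with hT
  have h1 : F ⊆ T.powerset := by
    intro U hU
    rw [Finset.mem_powerset]
    exact Finset.subset_biUnion_of_mem id hU
  calc ∑ U ∈ F, ∏ P ∈ U, nrm P.asIdeal s
      ≤ ∑ U ∈ T.powerset, ∏ P ∈ U, nrm P.asIdeal s :=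
        Finset.sum_le_sum_of_subset_of_nonneg h1
          (fun U _ _ ↦ Finset.prod_nonneg fun _ _ ↦ nrm_nonneg _ _)
    _ = ∏ P ∈ T, (1 + nrm P.asIdeal s) := (Finset.prod_one_add T).symm
    _ ≤ ∏ P ∈ T, Real.exp (nrm P.asIdeal s) :=
        Finset.prod_le_prod (fun P _ ↦ by have := nrm_nonneg P.asIdeal s; positivity)
          (fun P _ ↦ by rw [add_comm]; exact Real.add_one_le_exp _)
    _ = Real.exp (∑ P ∈ T, nrm P.asIdeal s) := (Real.exp_sum _ _).symm
    _ ≤ Real.exp (pzeta K s) := Real.exp_le_exp.2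
        ((summable_nrm_primes K hs).sum_le_tsum _ (fun _ _ ↦ nrm_nonneg _ _))

theorem zetaR_le {s : ℝ} (hs : 1 < s) :
    zetaR K s ≤ Real.exp (pzeta K s) * zetaR K (2 * s) := by
  classical
  have hsum1 : Summable (fun U : Finset (HeightOneSpectrum (𝓞 K)) ↦ ∏ P ∈ U, nrm P.asIdeal s) :=
    summable_of_sum_le (fun U ↦ Finset.prod_nonneg fun _ _ ↦ nrm_nonneg _ _) (sum_prod_le K hs)
  have hsum2 : Summable (fun I : Ideal (𝓞 K) ↦ nrm I (2 * s)) := summable_nrm K (by linarith)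
  have hprod : Summable (fun x : Finset (HeightOneSpectrum (𝓞 K)) × Ideal (𝓞 K) ↦
      (∏ P ∈ x.1, nrm P.asIdeal s) * nrm x.2 (2 * s)) :=
    hsum1.mul_of_nonneg hsum2 (fun U ↦ Finset.prod_nonneg fun _ _ ↦ nrm_nonneg _ _)
      (fun _ ↦ nrm_nonneg _ _)
  choose φ hφ using exists_squarefree_decomp K
  refine Real.tsum_le_of_sum_le (fun _ ↦ nrm_nonneg _ _) fun F ↦ ?_
  have h0 : ∑ I ∈ F, nrm I s = ∑ I ∈ F.filter (· ≠ 0), nrm I s := by
    rw [Finset.sum_filter]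
    refine Finset.sum_congr rfl fun I _ ↦ ?_
    split_ifs with h
    · rfl
    · rw [not_not] at h
      rw [h]
      unfold nrm
      simp [Real.zero_rpow (show -s ≠ 0 by linarith)]
  rw [h0]
  have h1 : ∑ I ∈ F.filter (· ≠ 0), nrm I s =
      ∑ I ∈ (F.filter (· ≠ 0)).attach, nrm I.1 s := (Finset.sum_attach _ (fun I ↦ nrm I s)).symm
  rw [h1]
  set ψ : {I // I ∈ F.filter (· ≠ 0)} → Finset (HeightOneSpectrum (𝓞 K)) × Ideal (𝓞 K) :=
    fun I ↦ φ I.1 (Finset.mem_filter.1 I.2).2 with hψ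
  have hψinj : Function.Injective ψ := by
    intro I J h
    apply Subtype.ext
    rw [hφ I.1 (Finset.mem_filter.1 I.2).2, hφ J.1 (Finset.mem_filter.1 J.2).2]
    change (∏ P ∈ (ψ I).1, P.asIdeal) * (ψ I).2 ^ 2 = (∏ P ∈ (ψ J).1, P.asIdeal) * (ψ J).2 ^ 2
    rw [h]
  have h2 : ∑ I ∈ (F.filter (· ≠ 0)).attach, nrm I.1 s =
      ∑ x ∈ (F.filter (· ≠ 0)).attach.image ψ,
        (∏ P ∈ x.1, nrm P.asIdeal s) * nrm x.2 (2 * s) := by
    rw [Finset.sum_image (fun I _ J _ h ↦ hψinj h)]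
    refine Finset.sum_congr rfl fun I _ ↦ ?_
    conv_lhs => rw [hφ I.1 (Finset.mem_filter.1 I.2).2]
    rw [nrm_mul, nrm_prod, nrm_sq]
  rw [h2]
  calc ∑ x ∈ (F.filter (· ≠ 0)).attach.image ψ, (∏ P ∈ x.1, nrm P.asIdeal s) * nrm x.2 (2 * s)
      ≤ ∑' x : Finset (HeightOneSpectrum (𝓞 K)) × Ideal (𝓞 K),
        (∏ P ∈ x.1, nrm P.asIdeal s) * nrm x.2 (2 * s) :=
        hprod.sum_le_tsum _ (fun x _ ↦ mul_nonneg
          (Finset.prod_nonneg fun _ _ ↦ nrm_nonneg _ _) (nrm_nonneg _ _))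
    _ = (∑' U : Finset (HeightOneSpectrum (𝓞 K)), ∏ P ∈ U, nrm P.asIdeal s) *
        ∑' I : Ideal (𝓞 K), nrm I (2 * s) := (hsum1.tsum_mul_tsum hsum2 hprod).symm
    _ ≤ Real.exp (pzeta K s) * zetaR K (2 * s) :=
        mul_le_mul_of_nonneg_right
          (Real.tsum_le_of_sum_le (fun U ↦ Finset.prod_nonneg fun _ _ ↦ nrm_nonneg _ _)
            (sum_prod_le K hs)) (zetaR_pos K (by linarith)).le

/-- lower bound for the prime zeta sum -/
theorem le_pzeta {s : ℝ} (hs : 1 < s) :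
    Real.log (zetaR K s) - Real.log (zetaR K 2) ≤ pzeta K s := by
  have h1 := Real.log_le_log (zetaR_pos K hs) (zetaR_le K hs)
  rw [Real.log_mul (Real.exp_pos _).ne' (zetaR_pos K (by linarith)).ne', Real.log_exp] at h1
  have h2 : Real.log (zetaR K (2 * s)) ≤ Real.log (zetaR K 2) :=
    Real.log_le_log (zetaR_pos K (by linarith)) (zetaR_anti K (by norm_num) (by linarith))
  linarith

/-- **The prime zeta sum of a number field**: `∑_P N(P)^{-s} = log (1/(s-1)) + O(1)`. -/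
theorem pzeta_isBigO :
    (fun s : ℝ ↦ pzeta K s - Real.log (1 / (s - 1))) =O[𝓝[>] 1] (fun _ ↦ (1 : ℝ)) := by
  have h1 : (fun s : ℝ ↦ pzeta K s - Real.log (zetaR K s)) =O[𝓝[>] 1] (fun _ ↦ (1 : ℝ)) := by
    refine IsBigO.of_bound (pzeta K 2 + |Real.log (zetaR K 2)|) ?_
    filter_upwards [self_mem_nhdsWithin] with s hs
    have hs : 1 < s := hs
    have h2 := pzeta_le K hs
    have h3 := le_pzeta K hs
    have h4 := le_abs_self (Real.log (zetaR K 2))
    have h5 := abs_nonneg (Real.log (zetaR K 2))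
    have h6 := pzeta_nonneg K 2
    rw [Real.norm_eq_abs, norm_one, mul_one, abs_le]
    constructor <;> linarith
  have h := h1.add (log_zetaR_isBigO K)
  refine h.congr_left fun s ↦ by ring

end Fermat.Agent.Density
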