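import Mathlib
import Fermat.Agent.Density.PrimeZeta

/-!
# Prime zeta sums in an extension of number fields
-/

set_option autoImplicit false

noncomputable section

open Filter Topology NumberField Asymptotics IsDedekindDomain

namespace Fermat.Agent.Density

variable (K E : Type*) [Field K] [NumberField K] [Field E] [NumberField E] [Algebra K E]

variable {E} in
/-- The prime below. -/
def below (Q : HeightOneSpectrum (𝓞 E)) : HeightOneSpectrum (𝓞 K) where
  asIdeal := Q.asIdeal.under (𝓞 K)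
  isPrime := inferInstance
  ne_bot := mt Ideal.eq_bot_of_comap_eq_bot Q.ne_bot

variable {K}

/-- fiber over `P` -/
abbrev Above (P : HeightOneSpectrum (𝓞 K)) : Type _ :=
  {Q : HeightOneSpectrum (𝓞 E) // below K Q = P}

theorem liesOver {P : HeightOneSpectrum (𝓞 K)} (Q : Above E P) :
    Q.1.asIdeal.LiesOver P.asIdeal :=
  ⟨(congrArg HeightOneSpectrum.asIdeal Q.2).symm⟩

/-- the fiber is `primesOver` -/
def aboveEquiv (P : HeightOneSpectrum (𝓞 K)) : Above E P ≃ P.asIdeal.primesOver (𝓞 E) where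
  toFun Q := ⟨Q.1.asIdeal, Q.1.isPrime, liesOver E Q⟩
  invFun Q := ⟨⟨Q.1, Q.2.1, by
      have := Q.2.2
      exact Ideal.ne_bot_of_liesOver_of_ne_bot P.ne_bot Q.1⟩, by
      apply HeightOneSpectrum.ext
      exact Q.2.2.over.symm⟩
  left_inv Q := rfl
  right_inv Q := rfl

instance (P : HeightOneSpectrum (𝓞 K)) : Finite (Above E P) := by
  have := P.isPrime.isMaximal P.ne_bot
  have : Finite (P.asIdeal.primesOver (𝓞 E)) := (IsDedekindDomain.primesOver_finite P.asIdeal (𝓞 E)).to_subtype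
  exact Finite.of_equiv _ (aboveEquiv E P).symm

instance (P : HeightOneSpectrum (𝓞 K)) : Fintype (Above E P) := Fintype.ofFinite _

theorem sum_e_f (P : HeightOneSpectrum (𝓞 K)) :
    ∑ Q : Above E P, Q.1.asIdeal.ramificationIdx (𝓞 K) * Q.1.asIdeal.inertiaDeg (𝓞 K) =
      Module.finrank K E := by
  have := P.isPrime
  have : Finite (P.asIdeal.primesOver (𝓞 E)) := Finite.of_equiv _ (aboveEquiv E P)
  have := Fintype.ofFinite (P.asIdeal.primesOver (𝓞 E))
  have h := Ideal.sum_ramification_inertia_eq_finrank P.asIdeal (𝓞 E)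
  have h2 : Module.finrank (𝓞 K) (𝓞 E) = Module.finrank K E :=
    (IsFractionRing.finrank_eq (𝓞 K) K (𝓞 E) E).symm
  rw [← h2, ← h]
  exact (aboveEquiv E P).sum_comp (fun q : P.asIdeal.primesOver (𝓞 E) ↦
    q.1.ramificationIdx (𝓞 K) * q.1.inertiaDeg (𝓞 K))

theorem e_pos {P : HeightOneSpectrum (𝓞 K)} (Q : Above E P) :
    0 < Q.1.asIdeal.ramificationIdx (𝓞 K) := Ideal.ramificationIdx_pos _ _

theorem f_pos {P : HeightOneSpectrum (𝓞 K)} (Q : Above E P) :
    0 < Q.1.asIdeal.inertiaDeg (𝓞 K) := Ideal.inertiaDeg_pos _ _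

theorem card_above_le (P : HeightOneSpectrum (𝓞 K)) :
    Fintype.card (Above E P) ≤ Module.finrank K E := by
  rw [← sum_e_f E P, Fintype.card, Finset.card_eq_sum_ones]
  exact Finset.sum_le_sum fun Q _ ↦ Nat.mul_pos (e_pos E Q) (f_pos E Q)

theorem nrm_above {P : HeightOneSpectrum (𝓞 K)} (Q : Above E P) (s : ℝ) :
    nrm Q.1.asIdeal s = nrm P.asIdeal (Q.1.asIdeal.inertiaDeg (𝓞 K) * s) := by
  have := liesOver E Q
  have h := Ideal.absNorm_pow_inertiaDeg P.asIdeal Q.1.asIdeal
  unfold nrm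
  rw [← h, Nat.cast_pow, ← Real.rpow_natCast, ← Real.rpow_mul (by positivity)]
  congr 1
  ring

/-- the sum over the primes above `P` -/
def csum (P : HeightOneSpectrum (𝓞 K)) (s : ℝ) : ℝ := ∑ Q : Above E P, nrm Q.1.asIdeal s

theorem csum_nonneg (P : HeightOneSpectrum (𝓞 K)) (s : ℝ) : 0 ≤ csum E P s :=
  Finset.sum_nonneg fun _ _ ↦ nrm_nonneg _ _

theorem csum_le (P : HeightOneSpectrum (𝓞 K)) {s : ℝ} (hs : 0 < s) :
    csum E P s ≤ Module.finrank K E := by
  calc csum E P s ≤ ∑ Q : Above E P, (1 : ℝ) := Finset.sum_le_sum fun Q _ ↦ nrm_le_one _ hs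
    _ = Fintype.card (Above E P) := by simp
    _ ≤ Module.finrank K E := by exact_mod_cast card_above_le E P

/-- all primes above `P` have residue degree `≥ 2` -/
theorem csum_le_of_two_le (P : HeightOneSpectrum (𝓞 K)) {s : ℝ} (hs : 1 < s)
    (hf : ∀ Q : Above E P, 2 ≤ Q.1.asIdeal.inertiaDeg (𝓞 K)) :
    csum E P s ≤ Module.finrank K E * nrm P.asIdeal 2 := by
  calc csum E P s ≤ ∑ Q : Above E P, nrm P.asIdeal 2 := by
        refine Finset.sum_le_sum fun Q _ ↦ ?_
        rw [nrm_above]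
        refine nrm_mono _ (by norm_num) ?_
        have h : (2 : ℝ) ≤ Q.1.asIdeal.inertiaDeg (𝓞 K) := by exact_mod_cast hf Q
        nlinarith
    _ = Fintype.card (Above E P) * nrm P.asIdeal 2 := by simp
    _ ≤ Module.finrank K E * nrm P.asIdeal 2 :=
        mul_le_mul_of_nonneg_right (by exact_mod_cast card_above_le E P) (nrm_nonneg _ _)

/-- `P` splits completely -/
theorem csum_eq_of_split (P : HeightOneSpectrum (𝓞 K)) (s : ℝ)
    (he : ∀ Q : Above E P, Q.1.asIdeal.ramificationIdx (𝓞 K) = 1)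
    (hf : ∀ Q : Above E P, Q.1.asIdeal.inertiaDeg (𝓞 K) = 1) :
    csum E P s = Module.finrank K E * nrm P.asIdeal s := by
  have h1 : (Fintype.card (Above E P) : ℕ) = Module.finrank K E := by
    rw [← sum_e_f E P, Fintype.card, Finset.card_eq_sum_ones]
    refine Finset.sum_congr rfl fun Q _ ↦ ?_
    rw [he Q, hf Q]
  unfold csum
  rw [Finset.sum_congr rfl (g := fun _ ↦ nrm P.asIdeal s)]
  · rw [Finset.sum_const, Finset.card_univ, h1, nsmul_eq_mul]
  · intro Q _
    rw [nrm_above, hf Q, Nat.cast_one, one_mul]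

theorem hasSum_csum {s : ℝ} (hs : 1 < s) :
    HasSum (fun P : HeightOneSpectrum (𝓞 K) ↦ csum E P s) (pzeta E s) := by
  have hsum : Summable ((fun Q : HeightOneSpectrum (𝓞 E) ↦ nrm Q.asIdeal s) ∘
      (Equiv.sigmaFiberEquiv (below K (E := E)))) :=
    (Equiv.summable_iff _).2 (summable_nrm_primes E hs)
  have h1 := hsum.hasSum.sigma (g := fun P : HeightOneSpectrum (𝓞 K) ↦ csum E P s)
    (fun P ↦ hasSum_fintype _)
  convert h1 using 1
  exact ((Equiv.sigmaFiberEquiv (below K (E := E))).tsum_eq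
    (fun Q : HeightOneSpectrum (𝓞 E) ↦ nrm Q.asIdeal s)).symm

/-- partial prime zeta sum -/
def pzetaOn (T : Set (HeightOneSpectrum (𝓞 K))) (s : ℝ) : ℝ :=
  ∑' P : HeightOneSpectrum (𝓞 K), T.indicator (fun P ↦ nrm P.asIdeal s) P

theorem summable_pzetaOn (T : Set (HeightOneSpectrum (𝓞 K))) {s : ℝ} (hs : 1 < s) :
    Summable (T.indicator (fun P : HeightOneSpectrum (𝓞 K) ↦ nrm P.asIdeal s)) :=
  (summable_nrm_primes K hs).indicator T

theorem pzetaOn_nonneg (T : Set (HeightOneSpectrum (𝓞 K))) (s : ℝ) : 0 ≤ pzetaOn T s :=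
  tsum_nonneg fun P ↦ Set.indicator_nonneg (fun _ _ ↦ nrm_nonneg _ _) P

theorem pzetaOn_le_of_finite {T : Set (HeightOneSpectrum (𝓞 K))} (hT : T.Finite) {s : ℝ}
    (hs : 0 < s) : pzetaOn T s ≤ T.ncard := by
  have := hT.fintype
  unfold pzetaOn
  rw [tsum_eq_sum (s := T.toFinset) (fun P hP ↦ by
    simp only [Set.mem_toFinset] at hP
    exact Set.indicator_of_notMem hP _)]
  calc ∑ P ∈ T.toFinset, T.indicator (fun P ↦ nrm P.asIdeal s) P
      ≤ ∑ P ∈ T.toFinset, (1 : ℝ) := Finset.sum_le_sum fun P _ ↦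
        (Set.indicator_le_self' (fun _ _ ↦ nrm_nonneg _ _) P).trans (nrm_le_one _ hs)
    _ = T.ncard := by
        rw [Set.ncard_eq_toFinset_card', Finset.sum_const, nsmul_eq_mul, mul_one]

/-- The basic density computation in an extension `E/K`. -/
theorem pzetaOn_isBigO (T : Set (HeightOneSpectrum (𝓞 K))) (B : Set (HeightOneSpectrum (𝓞 K)))
    (hB : B.Finite)
    (h1 : ∀ P ∈ T, P ∉ B → ∀ Q : Above E P, Q.1.asIdeal.ramificationIdx (𝓞 K) = 1 ∧
      Q.1.asIdeal.inertiaDeg (𝓞 K) = 1)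
    (h2 : ∀ P ∉ T, P ∉ B → ∀ Q : Above E P, 2 ≤ Q.1.asIdeal.inertiaDeg (𝓞 K)) :
    (fun s : ℝ ↦ pzetaOn T s - (1 / (Module.finrank K E : ℝ)) * Real.log (1 / (s - 1)))
      =O[𝓝[>] 1] (fun _ ↦ (1 : ℝ)) := by
  classical
  have hd : (0 : ℝ) < Module.finrank K E := by exact_mod_cast Module.finrank_pos
  have key : (fun s : ℝ ↦ (Module.finrank K E : ℝ) * pzetaOn T s - pzeta E s)
      =O[𝓝[>] 1] (fun _ ↦ (1 : ℝ)) := by
    refine IsBigO.of_bound (Module.finrank K E * pzeta K 2 + Module.finrank K E * B.ncard) ?_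
    filter_upwards [self_mem_nhdsWithin] with s hs
    have hs : 1 < s := hs
    rw [norm_one, mul_one, Real.norm_eq_abs]
    have hsum := (hasSum_csum (K := K) E hs)
    have hsumT := ((summable_pzetaOn T hs).mul_left (Module.finrank K E : ℝ)).hasSum
    rw [tsum_mul_left] at hsumT
    have hdiff := hsumT.sub hsum
    have hB1 : Summable (B.indicator (fun P : HeightOneSpectrum (𝓞 K) ↦
        (Module.finrank K E : ℝ))) := by
      refine summable_of_hasFiniteSupport ?_
      exact hB.subset (Set.support_indicator_subset)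
    have h2s := (summable_nrm_primes K (by norm_num : (1 : ℝ) < 2)).mul_left (Module.finrank K E : ℝ)
    have hbound : ∀ P : HeightOneSpectrum (𝓞 K),
        |(Module.finrank K E : ℝ) * T.indicator (fun P ↦ nrm P.asIdeal s) P - csum E P s| ≤
        (Module.finrank K E : ℝ) * nrm P.asIdeal 2 +
          B.indicator (fun P : HeightOneSpectrum (𝓞 K) ↦ (Module.finrank K E : ℝ)) P := by
      intro P
      have hc0 := csum_nonneg E P s
      have hn2 := nrm_nonneg P.asIdeal 2
      have hns := nrm_nonneg P.asIdeal s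
      by_cases hPB : P ∈ B
      · rw [Set.indicator_of_mem hPB]
        have h3 := csum_le E P (by linarith : 0 < s)
        have h4 : T.indicator (fun P ↦ nrm P.asIdeal s) P ≤ 1 :=
          (Set.indicator_le_self' (fun _ _ ↦ nrm_nonneg _ _) P).trans (nrm_le_one _ (by linarith))
        have h5 : 0 ≤ T.indicator (fun P ↦ nrm P.asIdeal s) P :=
          Set.indicator_nonneg (fun _ _ ↦ nrm_nonneg _ _) P
        rw [abs_le]
        constructor
        · nlinarith
        · nlinarith
      · rw [Set.indicator_of_notMem hPB, add_zero]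
        by_cases hPT : P ∈ T
        · rw [Set.indicator_of_mem hPT, csum_eq_of_split E P s (fun Q ↦ (h1 P hPT hPB Q).1)
            (fun Q ↦ (h1 P hPT hPB Q).2), sub_self, abs_zero]
          positivity
        · rw [Set.indicator_of_notMem hPT, mul_zero, zero_sub, abs_neg, abs_of_nonneg hc0]
          exact csum_le_of_two_le E P hs (h2 P hPT hPB)
    have habs := (h2s.add hB1)
    have h6 : |(Module.finrank K E : ℝ) * pzetaOn T s - pzeta E s| ≤
        ∑' P : HeightOneSpectrum (𝓞 K), ((Module.finrank K E : ℝ) * nrm P.asIdeal 2 +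
          B.indicator (fun P : HeightOneSpectrum (𝓞 K) ↦ (Module.finrank K E : ℝ)) P) := by
      rw [← Real.norm_eq_abs]
      change ‖(Module.finrank K E : ℝ) * (∑' P : HeightOneSpectrum (𝓞 K),
        T.indicator (fun P ↦ nrm P.asIdeal s) P) - pzeta E s‖ ≤ _
      rw [← hdiff.tsum_eq]
      exact tsum_of_norm_bounded habs.hasSum (fun P ↦ by rw [Real.norm_eq_abs]; exact hbound P)
    refine h6.trans ?_
    rw [h2s.tsum_add hB1, tsum_mul_left]
    have h7 : ∑' P : HeightOneSpectrum (𝓞 K),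
        B.indicator (fun P : HeightOneSpectrum (𝓞 K) ↦ (Module.finrank K E : ℝ)) P =
        Module.finrank K E * B.ncard := by
      have := hB.fintype
      rw [tsum_eq_sum (s := B.toFinset) (fun P hP ↦ by
        simp only [Set.mem_toFinset] at hP
        exact Set.indicator_of_notMem hP _)]
      rw [Finset.sum_congr rfl (g := fun _ ↦ (Module.finrank K E : ℝ))]
      · rw [Set.ncard_eq_toFinset_card', Finset.sum_const, nsmul_eq_mul, mul_comm]
      · intro P hP
        rw [Set.mem_toFinset] at hP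
        exact Set.indicator_of_mem hP _
    rw [h7]
    rfl
  have h := (key.add (pzeta_isBigO E)).const_mul_left (1 / (Module.finrank K E : ℝ))
  refine h.congr_left fun s ↦ ?_
  field_simp
  ring

end Fermat.Agent.Density
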