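import Mathlib
import Fermat.Agent.Density.Extension

/-!
# Frobenius density in abelian/cyclic extensions of number fields
-/

set_option autoImplicit false
set_option linter.unusedSectionVars false

noncomputable section

open Filter Topology NumberField Asymptotics IsDedekindDomain

namespace Fermat.Agent.Density

section ramified

variable (K L : Type*) [Field K] [NumberField K] [Field L] [NumberField L] [Algebra K L]

/-- The primes of `K` which ramify in `L`. -/
def ramSet : Set (HeightOneSpectrum (𝓞 K)) :=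
  {P | ∃ Q : Above L P, ¬ Algebra.IsUnramifiedAt (𝓞 K) Q.1.asIdeal}

theorem ramSet_finite : (ramSet K L).Finite := by
  have h0 : differentIdeal (𝓞 K) (𝓞 L) ≠ ⊥ := differentIdeal_ne_bot
  have h1 : {Q : HeightOneSpectrum (𝓞 L) | Q.asIdeal ∣ differentIdeal (𝓞 K) (𝓞 L)}.Finite :=
    Ideal.finite_factors h0
  refine (h1.image (below K)).subset ?_
  rintro P ⟨Q, hQ⟩
  refine ⟨Q.1, ?_, Q.2⟩
  exact dvd_differentIdeal_iff.2 hQ

end ramified

section tower

variable (K L : Type*) [Field K] [NumberField K] [Field L] [NumberField L] [Algebra K L]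

/-- transitivity of `below` -/
theorem below_below (E : Type*) [Field E] [NumberField E] [Algebra K E] [Algebra E L]
    [IsScalarTower K E L] (Q : HeightOneSpectrum (𝓞 L)) : below K (below E Q) = below K Q := by
  apply HeightOneSpectrum.ext
  exact Ideal.under_under Q.asIdeal

theorem exists_above (Q' : HeightOneSpectrum (𝓞 K)) : ∃ Q : HeightOneSpectrum (𝓞 L),
    below K Q = Q' := by
  have := Q'.isPrime.isMaximal Q'.ne_bot
  obtain ⟨Q, hQ1, hQ2⟩ := Ideal.exists_maximal_ideal_liesOver_of_isIntegral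
    (S := 𝓞 L) Q'.asIdeal
  refine ⟨⟨Q, hQ1.isPrime, Ideal.ne_bot_of_liesOver_of_ne_bot Q'.ne_bot Q⟩, ?_⟩
  apply HeightOneSpectrum.ext
  exact hQ2.over.symm

theorem unramified_of_notMem_ramSet (E : Type*) [Field E] [NumberField E] [Algebra K E]
    [Algebra E L] [IsScalarTower K E L] {P : HeightOneSpectrum (𝓞 K)} (hP : P ∉ ramSet K L)
    (Q' : Above E P) : Algebra.IsUnramifiedAt (𝓞 K) Q'.1.asIdeal := by
  obtain ⟨Q, hQ⟩ := exists_above E L Q'.1
  have h1 : below K Q = P := by rw [← below_below K L E, hQ, Q'.2]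
  have h2 : Algebra.IsUnramifiedAt (𝓞 K) Q.asIdeal := by
    by_contra h
    exact hP ⟨⟨Q, h1⟩, h⟩
  have h3 : Q.asIdeal.LiesOver Q'.1.asIdeal := liesOver L ⟨Q, hQ⟩
  exact Algebra.IsUnramifiedAt.of_liesOver (𝓞 K) Q'.1.asIdeal Q.asIdeal

theorem ramIdx_eq_one (E : Type*) [Field E] [NumberField E] [Algebra K E]
    [Algebra E L] [IsScalarTower K E L] {P : HeightOneSpectrum (𝓞 K)} (hP : P ∉ ramSet K L)
    (Q' : Above E P) : Q'.1.asIdeal.ramificationIdx (𝓞 K) = 1 := by
  have := unramified_of_notMem_ramSet K L E hP Q'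
  exact Ideal.ramificationIdx_eq_one_iff.2 this

end tower

section frob

variable {K L : Type*} [Field K] [NumberField K] [Field L] [NumberField L] [Algebra K L]
variable (G : Type*) [CommGroup G] [Finite G] [MulSemiringAction G L] [IsGaloisGroup G K L]

instance (Q : HeightOneSpectrum (𝓞 L)) : Finite (𝓞 L ⧸ Q.asIdeal) :=
  Ring.HasFiniteQuotients.finiteQuotient Q.ne_bot

variable (L) in
/-- chosen prime above -/
def chosenAbove (P : HeightOneSpectrum (𝓞 K)) : HeightOneSpectrum (𝓞 L) :=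
  (exists_above K L P).choose

theorem below_chosenAbove (P : HeightOneSpectrum (𝓞 K)) : below K (chosenAbove L P) = P :=
  (exists_above K L P).choose_spec

variable (L) in
/-- the Frobenius -/
def frob (P : HeightOneSpectrum (𝓞 K)) : G :=
  arithFrobAt (𝓞 K) G (chosenAbove L P).asIdeal

/-- In the abelian case `frob` is a Frobenius at every prime above. -/
theorem frob_spec (P : HeightOneSpectrum (𝓞 K)) (Q : Above L P) :
    IsArithFrobAt (𝓞 K) (frob L G P) Q.1.asIdeal := by
  have h1 : IsArithFrobAt (𝓞 K) (frob L G P) (chosenAbove L P).asIdeal :=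
    IsArithFrobAt.arithFrobAt (𝓞 K) G _
  have h2 : (chosenAbove L P).asIdeal.under (𝓞 K) = Q.1.asIdeal.under (𝓞 K) := by
    have h3 := congrArg HeightOneSpectrum.asIdeal (below_chosenAbove (L := L) P)
    have h4 := congrArg HeightOneSpectrum.asIdeal Q.2
    exact h3.trans h4.symm
  obtain ⟨τ, hτ⟩ := Algebra.IsInvariant.exists_smul_of_under_eq (𝓞 K) (𝓞 L) G _ _ h2
  have h5 := h1.conj τ
  rw [← hτ, mul_comm τ, mul_inv_cancel_right] at h5
  exact h5

theorem card_quot (P : HeightOneSpectrum (𝓞 K)) (Q : Above L P) :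
    Nat.card (𝓞 K ⧸ Q.1.asIdeal.under (𝓞 K)) = Ideal.absNorm P.asIdeal := by
  have h4 := congrArg HeightOneSpectrum.asIdeal Q.2
  change Q.1.asIdeal.under (𝓞 K) = P.asIdeal at h4
  rw [h4]
  rfl

theorem frob_spec' (P : HeightOneSpectrum (𝓞 K)) (Q : Above L P) (x : 𝓞 L) :
    frob L G P • x - x ^ (Ideal.absNorm P.asIdeal) ∈ Q.1.asIdeal := by
  have h := frob_spec G P Q x
  rw [card_quot] at h
  exact h

variable (H : Subgroup G)

variable (K L) in
/-- fixed field -/
abbrev fixF : IntermediateField K L := FixedPoints.intermediateField H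

local notation "E" => fixF K L G H

theorem inertiaDeg_eq_one_of_frob_mem (P : HeightOneSpectrum (𝓞 K))
    (hσ : frob L G P ∈ H) (Q' : Above (fixF K L G H) P) :
    Q'.1.asIdeal.inertiaDeg (𝓞 K) = 1 := by
  obtain ⟨Q, hQ⟩ := exists_above E L Q'.1
  have h1 : below K Q = P := by rw [← below_below K L E, hQ, Q'.2]
  have hlies : Q.asIdeal.LiesOver Q'.1.asIdeal := liesOver L ⟨Q, hQ⟩
  set q := Ideal.absNorm P.asIdeal with hq
  have hq2 : 1 < q := by
    have h0 : q ≠ 0 := fun h ↦ P.ne_bot (Ideal.absNorm_eq_zero_iff.1 h)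
    have h1 : q ≠ 1 := fun h ↦ P.isPrime.ne_top (Ideal.absNorm_eq_one_iff.1 h)
    omega
  have key : ∀ x : 𝓞 E, x - x ^ q ∈ Q'.1.asIdeal := by
    intro x
    have h2 := frob_spec' G P ⟨Q, h1⟩ (algebraMap (𝓞 E) (𝓞 L) x)
    have h3 : frob L G P • (algebraMap (𝓞 E) (𝓞 L) x) = algebraMap (𝓞 E) (𝓞 L) x := by
      apply RingOfIntegers.coe_injective
      have h4 : algebraMap (𝓞 L) L (frob L G P • (algebraMap (𝓞 E) (𝓞 L) x)) =
        frob L G P • algebraMap (𝓞 L) L (algebraMap (𝓞 E) (𝓞 L) x) := algebraMap.smul' _ _ _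
      rw [h4]
      exact (x : E).2 ⟨_, hσ⟩
    rw [h3, ← map_pow, ← map_sub] at h2
    rw [hlies.over]
    exact h2
  have : Q'.1.asIdeal.IsMaximal := Q'.1.isPrime.isMaximal Q'.1.ne_bot
  let : Field (𝓞 E ⧸ Q'.1.asIdeal) := Ideal.Quotient.field _
  have hroots : ∀ y : 𝓞 E ⧸ Q'.1.asIdeal, y ^ q = y := by
    intro y
    obtain ⟨x, rfl⟩ := Ideal.Quotient.mk_surjective y
    rw [← map_pow, eq_comm, Ideal.Quotient.eq]
    exact key x
  have hcard : Nat.card (𝓞 E ⧸ Q'.1.asIdeal) ≤ q := by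
    classical
    have hfin : Finite (𝓞 E ⧸ Q'.1.asIdeal) := inferInstance
    have := Fintype.ofFinite (𝓞 E ⧸ Q'.1.asIdeal)
    set f : Polynomial (𝓞 E ⧸ Q'.1.asIdeal) := Polynomial.X ^ q - Polynomial.X with hf
    have hf0 : f ≠ 0 := FiniteField.X_pow_card_sub_X_ne_zero _ hq2
    have h5 : (Finset.univ : Finset (𝓞 E ⧸ Q'.1.asIdeal)) ⊆ f.roots.toFinset := by
      intro y _
      rw [Multiset.mem_toFinset, Polynomial.mem_roots hf0]
      simp [f, hroots y]
    rw [Nat.card_eq_fintype_card, ← Finset.card_univ]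
    calc Finset.card Finset.univ ≤ f.roots.toFinset.card := Finset.card_le_card h5
      _ ≤ Multiset.card f.roots := Multiset.toFinset_card_le _
      _ ≤ f.natDegree := Polynomial.card_roots' _
      _ = q := FiniteField.X_pow_card_sub_X_natDegree_eq _ hq2
  have hlies' : Q'.1.asIdeal.LiesOver P.asIdeal := liesOver E Q'
  have h6 := Ideal.absNorm_pow_inertiaDeg P.asIdeal Q'.1.asIdeal
  have h7 : Ideal.absNorm Q'.1.asIdeal ≤ q := hcard
  rw [← h6, ← hq] at h7
  have h8 := f_pos E Q'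
  have h9 : Q'.1.asIdeal.inertiaDeg (𝓞 K) ≤ 1 := by
    by_contra hcon
    push Not at hcon
    have h10 : q ^ 1 < q ^ (Q'.1.asIdeal.inertiaDeg (𝓞 K)) := Nat.pow_lt_pow_right hq2 hcon
    rw [pow_one] at h10
    omega
  omega

theorem smul_mem_fixF (σ : G) (x : L) (hx : x ∈ fixF K L G H) : σ • x ∈ fixF K L G H := by
  intro h
  have h1 := hx h
  change (h : G) • x = x at h1
  change (h : G) • σ • x = σ • x
  rw [smul_smul, mul_comm, ← smul_smul, h1]

variable (K L) in
/-- restriction of `σ` to the fixed field -/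
def restr (σ : G) : fixF K L G H →ₐ[K] fixF K L G H :=
  AlgHom.codRestrict (((MulSemiringAction.toAlgHom K L σ)).comp (fixF K L G H).val)
    (fixF K L G H).toSubalgebra (fun x ↦ smul_mem_fixF G H σ x.1 x.2)

theorem coe_restr (σ : G) (x : fixF K L G H) : ((restr K L G H σ x : fixF K L G H) : L) = σ • (x : L) :=
  rfl

theorem frob_mem_of_inertiaDeg_eq_one (P : HeightOneSpectrum (𝓞 K)) (hP : P ∉ ramSet K L)
    (Q' : Above (fixF K L G H) P) (hf : Q'.1.asIdeal.inertiaDeg (𝓞 K) = 1) :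
    frob L G P ∈ H := by
  obtain ⟨Q, hQ⟩ := exists_above E L Q'.1
  have h1 : below K Q = P := by rw [← below_below K L E, hQ, Q'.2]
  have hlies : Q.asIdeal.LiesOver Q'.1.asIdeal := liesOver L ⟨Q, hQ⟩
  set q := Ideal.absNorm P.asIdeal with hq
  set σ := frob L G P with hσ
  set φ : 𝓞 E →ₐ[𝓞 K] 𝓞 E := RingOfIntegers.mapAlgHom (restr K L G H σ) with hφ
  have hφσ : ∀ x : 𝓞 E, algebraMap (𝓞 E) (𝓞 L) (φ x) = σ • algebraMap (𝓞 E) (𝓞 L) x := by
    intro x
    apply RingOfIntegers.coe_injective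
    have h4 : algebraMap (𝓞 L) L (σ • (algebraMap (𝓞 E) (𝓞 L) x)) =
        σ • algebraMap (𝓞 L) L (algebraMap (𝓞 E) (𝓞 L) x) := algebraMap.smul' _ _ _
    rw [h4]
    rfl
  have hcardq : Nat.card (𝓞 K ⧸ Q'.1.asIdeal.under (𝓞 K)) = q := card_quot P Q'
  have hφF : φ.IsArithFrobAt Q'.1.asIdeal := by
    intro x
    rw [hcardq, hlies.over]
    change algebraMap (𝓞 E) (𝓞 L) (φ x - x ^ q) ∈ Q.asIdeal
    rw [map_sub, map_pow, hφσ]
    exact frob_spec' G P ⟨Q, h1⟩ (algebraMap (𝓞 E) (𝓞 L) x)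
  have : Q'.1.asIdeal.IsMaximal := Q'.1.isPrime.isMaximal Q'.1.ne_bot
  let : Field (𝓞 E ⧸ Q'.1.asIdeal) := Ideal.Quotient.field _
  have hlies' : Q'.1.asIdeal.LiesOver P.asIdeal := liesOver E Q'
  have h6 := Ideal.absNorm_pow_inertiaDeg P.asIdeal Q'.1.asIdeal
  rw [hf, pow_one] at h6
  have hid : (AlgHom.id (𝓞 K) (𝓞 E)).IsArithFrobAt Q'.1.asIdeal := by
    intro x
    rw [hcardq]
    have hfin : Finite (𝓞 E ⧸ Q'.1.asIdeal) := inferInstance
    have := Fintype.ofFinite (𝓞 E ⧸ Q'.1.asIdeal)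
    have h7 : Fintype.card (𝓞 E ⧸ Q'.1.asIdeal) = q := by
      rw [← Nat.card_eq_fintype_card]
      exact h6.symm
    have h8 := FiniteField.pow_card (Ideal.Quotient.mk Q'.1.asIdeal x)
    rw [h7, ← map_pow, eq_comm, Ideal.Quotient.eq] at h8
    exact h8
  have := unramified_of_notMem_ramSet K L E hP Q'
  have heq : φ = AlgHom.id (𝓞 K) (𝓞 E) :=
    hφF.eq_of_isUnramifiedAt hid (Q'.1.asIdeal.primeCompl_le_nonZeroDivisors)
  have hfix : σ ∈ fixingSubgroup G ((E : IntermediateField K L) : Set L) := by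
    rw [mem_fixingSubgroup_iff]
    intro y hy
    obtain ⟨a, b, hb, hab⟩ := IsFractionRing.div_surjective (A := 𝓞 E) (⟨y, hy⟩ : E)
    have h9 : ∀ x : 𝓞 E, σ • ((x : E) : L) = ((x : E) : L) := by
      intro x
      have h10 := hφσ x
      rw [heq] at h10
      have h11 := congrArg (algebraMap (𝓞 L) L) h10
      have h4 : algebraMap (𝓞 L) L (σ • (algebraMap (𝓞 E) (𝓞 L) x)) =
        σ • algebraMap (𝓞 L) L (algebraMap (𝓞 E) (𝓞 L) x) := algebraMap.smul' _ _ _
      rw [h4] at h11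
      exact h11.symm
    have h12 : y = ((a : E) : L) / ((b : E) : L) := by
      have := congrArg (fun z : E ↦ (z : L)) hab
      simpa using this.symm
    rw [h12, smul_div₀', h9 a, h9 b]
  rwa [IsGaloisGroup.fixingSubgroup_fixedPoints] at hfix

/-- density of the primes whose Frobenius lies in `H` -/
theorem density_frob_mem :
    (fun s : ℝ ↦ pzetaOn {P : HeightOneSpectrum (𝓞 K) | frob L G P ∈ H} s -
      (1 / (H.index : ℝ)) * Real.log (1 / (s - 1))) =O[𝓝[>] 1] (fun _ ↦ (1 : ℝ)) := by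
  have hidx : Module.finrank K E = H.index := by
    have h1 : Module.finrank K E * Module.finrank E L = Module.finrank K L :=
      Module.finrank_mul_finrank K E L
    rw [IsGaloisGroup.finrank_fixedPoints_eq_card_subgroup, ← IsGaloisGroup.card_eq_finrank G K L,
      ← H.card_mul_index, mul_comm] at h1
    exact Nat.eq_of_mul_eq_mul_left Nat.card_pos h1
  rw [← hidx]
  refine pzetaOn_isBigO E _ (ramSet K L) (ramSet_finite K L) ?_ ?_
  · intro P hP hPB Q'
    exact ⟨ramIdx_eq_one K L E hPB Q', inertiaDeg_eq_one_of_frob_mem G H P hP Q'⟩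
  · intro P hP hPB Q'
    have h1 := f_pos E Q'
    by_contra hcon
    push Not at hcon
    exact hP (frob_mem_of_inertiaDeg_eq_one G H P hPB Q' (by omega))

end frob

section moebius

open ArithmeticFunction

open scoped ArithmeticFunction.Moebius

theorem sum_moebius_dvd {n a : ℕ} (hn : 0 < n) (ha : a ∣ n) :
    ∑ d ∈ n.divisors, (μ d : ℝ) * (if a ∣ n / d then 1 else 0) = if a = n then 1 else 0 := by
  have ha0 : 0 < a := Nat.pos_of_dvd_of_pos ha hn
  have h1 : ∑ d ∈ n.divisors, (μ d : ℝ) * (if a ∣ n / d then 1 else 0) =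
      ∑ d ∈ (n / a).divisors, (μ d : ℝ) := by
    have h2 : (n / a).divisors = n.divisors.filter (fun d ↦ a ∣ n / d) := by
      ext d
      simp only [Nat.mem_divisors, Finset.mem_filter]
      constructor
      · rintro ⟨hd, h0⟩
        refine ⟨⟨hd.trans (Nat.div_dvd_of_dvd ha), hn.ne'⟩, ?_⟩
        obtain ⟨m, rfl⟩ := ha
        rw [Nat.mul_div_cancel_left _ ha0] at hd
        obtain ⟨k, rfl⟩ := hd
        have hd0 : 0 < d := Nat.pos_of_ne_zero (by rintro rfl; simp at hn)
        refine ⟨k, ?_⟩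
        rw [show a * (d * k) = d * (a * k) by ring, Nat.mul_div_cancel_left _ hd0]
      · rintro ⟨⟨hd, h0⟩, had⟩
        have hd0 : 0 < d := Nat.pos_of_dvd_of_pos hd hn
        obtain ⟨m, rfl⟩ := hd
        rw [Nat.mul_div_cancel_left _ hd0] at had
        obtain ⟨k, rfl⟩ := had
        rw [show d * (a * k) = a * (d * k) by ring, Nat.mul_div_cancel_left _ ha0]
        refine ⟨dvd_mul_right _ _, ?_⟩
        rintro h
        rw [show d * (a * k) = a * (d * k) by ring, h] at hn
        simp at hn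
    rw [h2, Finset.sum_filter]
    refine Finset.sum_congr rfl fun d _ ↦ ?_
    split_ifs <;> simp
  rw [h1]
  have h3 : (∑ d ∈ (n / a).divisors, (μ d : ℤ)) = if n / a = 1 then 1 else 0 := by
    have h4 := congrArg (fun f : ArithmeticFunction ℤ ↦ f (n / a)) moebius_mul_coe_zeta
    simp only [coe_mul_zeta_apply, one_apply] at h4
    exact h4
  have h5 : (∑ d ∈ (n / a).divisors, (μ d : ℝ)) = if n / a = 1 then 1 else 0 := by
    have := congrArg (Int.cast : ℤ → ℝ) h3
    push_cast at this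
    simpa using this
  rw [h5]
  have h6 : n / a = 1 ↔ a = n := by
    constructor
    · intro h
      exact (Nat.eq_of_dvd_of_div_eq_one ha h)
    · rintro rfl
      exact Nat.div_self ha0
  simp only [h6]

theorem sum_moebius_div {n : ℕ} (hn : 0 < n) :
    ∑ d ∈ n.divisors, (μ d : ℝ) * (1 / (d : ℝ)) = n.totient / n := by
  have h1 : ∀ n > 0, ∑ x ∈ n.divisorsAntidiagonal, (μ x.fst : ℝ) * (fun n : ℕ ↦ (n : ℝ)) x.snd =
      (fun n : ℕ ↦ (n.totient : ℝ)) n := by
    rw [← sum_eq_iff_sum_mul_moebius_eq]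
    intro n _
    exact_mod_cast Nat.sum_totient n
  have h2 := h1 n hn
  simp only at h2
  rw [Nat.sum_divisorsAntidiagonal (f := fun a b ↦ (μ a : ℝ) * (b : ℝ))] at h2
  rw [← h2, Finset.sum_div]
  refine Finset.sum_congr rfl fun d hd ↦ ?_
  have hd' := Nat.dvd_of_mem_divisors hd
  have hd0 : (d : ℝ) ≠ 0 := by
    have := Nat.pos_of_dvd_of_pos hd' hn
    positivity
  have hn0 : (n : ℝ) ≠ 0 := by positivity
  rw [Nat.cast_div hd' hd0]
  field_simp

end moebius

section cyclic

open scoped ArithmeticFunction.Moebius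

variable {K L : Type*} [Field K] [NumberField K] [Field L] [NumberField L] [Algebra K L]
variable (G : Type*) [CommGroup G] [Finite G] [IsCyclic G] [MulSemiringAction G L]
  [IsGaloisGroup G K L]

/-- density of the primes whose Frobenius generates the cyclic group `G`. -/
theorem density_frob_gen :
    (fun s : ℝ ↦ pzetaOn {P : HeightOneSpectrum (𝓞 K) | orderOf (frob L G P) = Nat.card G} s -
      ((Nat.card G).totient / (Nat.card G) : ℝ) * Real.log (1 / (s - 1)))
      =O[𝓝[>] 1] (fun _ ↦ (1 : ℝ)) := by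
  classical
  set n := Nat.card G with hn
  have hn0 : 0 < n := Nat.card_pos
  have h1 : ∀ d ∈ n.divisors, (fun s : ℝ ↦
      (μ d : ℝ) * (pzetaOn {P : HeightOneSpectrum (𝓞 K) |
        frob L G P ∈ (powMonoidHom (n / d) : G →* G).ker} s -
      (1 / (d : ℝ)) * Real.log (1 / (s - 1)))) =O[𝓝[>] 1] (fun _ ↦ (1 : ℝ)) := by
    intro d hd
    have hd' := Nat.dvd_of_mem_divisors hd
    have h2 := density_frob_mem (K := K) (L := L) G (powMonoidHom (n / d) : G →* G).ker
    have h3 : (powMonoidHom (n / d) : G →* G).ker.index = d := by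
      rw [IsCyclic.index_powMonoidHom_ker, ← hn, Nat.gcd_eq_right (Nat.div_dvd_of_dvd hd'),
        Nat.div_div_self hd' hn0.ne']
    rw [h3] at h2
    exact h2.const_mul_left _
  have h4 := IsBigO.sum h1
  refine h4.congr' ?_ EventuallyEq.rfl
  filter_upwards [self_mem_nhdsWithin] with s hs
  have hs : 1 < s := hs
  rw [← sum_moebius_div hn0, Finset.sum_mul, Finset.sum_apply]
  simp only [mul_sub, Finset.sum_sub_distrib]
  congr 1
  · unfold pzetaOn
    simp only [← tsum_mul_left]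
    rw [← Summable.tsum_finsetSum (fun d _ ↦ (summable_pzetaOn _ hs).mul_left _)]
    refine tsum_congr fun P ↦ ?_
    have h5 := sum_moebius_dvd hn0 (orderOf_dvd_natCard (frob L G P))
    have h6 : ∀ d ∈ n.divisors, (μ d : ℝ) *
        {P : HeightOneSpectrum (𝓞 K) | frob L G P ∈ (powMonoidHom (n / d) : G →* G).ker}.indicator
          (fun P ↦ nrm P.asIdeal s) P =
        ((μ d : ℝ) * (if orderOf (frob L G P) ∣ n / d then 1 else 0)) * nrm P.asIdeal s := by
      intro d _
      rw [Set.indicator_apply]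
      have h7 : P ∈ {P : HeightOneSpectrum (𝓞 K) |
          frob L G P ∈ (powMonoidHom (n / d) : G →* G).ker} ↔ orderOf (frob L G P) ∣ n / d := by
        rw [Set.mem_ofPred_eq, MonoidHom.mem_ker, powMonoidHom_apply, orderOf_dvd_iff_pow_eq_one]
      simp only [h7]
      split_ifs <;> ring
    rw [Finset.sum_congr rfl h6, ← Finset.sum_mul, h5, Set.indicator_apply]
    simp only [Set.mem_ofPred_eq]
    split_ifs <;> simp
  · refine Finset.sum_congr rfl fun d _ ↦ ?_
    ring

end cyclic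

section degree

theorem absNorm_prime_of_rat (p : HeightOneSpectrum (𝓞 ℚ)) :
    (Ideal.absNorm p.asIdeal).Prime := by
  set e : 𝓞 ℚ ≃+* ℤ := Rat.ringOfIntegersEquiv
  set J : Ideal ℤ := p.asIdeal.map e with hJ
  have h1 : Ideal.absNorm J = Ideal.absNorm p.asIdeal := by
    rw [Ideal.absNorm_apply, Ideal.absNorm_apply, Submodule.cardQuot_apply,
      Submodule.cardQuot_apply]
    exact (Nat.card_congr (Ideal.quotientEquiv p.asIdeal J e rfl).toEquiv).symm
  rw [← h1, Int.prime_absNorm]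
  have := p.isPrime
  have hJ0 : J ≠ ⊥ := fun h ↦ p.ne_bot ((Ideal.map_eq_bot_iff_of_injective e.injective).1 h)
  exact (Ideal.prime_iff_isPrime hJ0).2 (Ideal.map_isPrime_of_equiv e)

variable (K : Type*) [Field K] [NumberField K]

theorem summable_below : Summable (fun P : HeightOneSpectrum (𝓞 K) ↦
    nrm (below ℚ P).asIdeal 2) := by
  have h : Summable ((fun P : HeightOneSpectrum (𝓞 K) ↦ nrm (below ℚ P).asIdeal 2) ∘
      (Equiv.sigmaFiberEquiv (below ℚ (E := K)))) := by
    refine (summable_sigma_of_nonneg (fun x ↦ nrm_nonneg _ _)).2 ⟨fun p ↦ ?_, ?_⟩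
    · exact Summable.of_finite
    · have h2 := (summable_nrm_primes ℚ (by norm_num : (1 : ℝ) < 2)).mul_left
        (Module.finrank ℚ K : ℝ)
      refine Summable.of_nonneg_of_le (fun p ↦ tsum_nonneg fun _ ↦ nrm_nonneg _ _)
        (fun p ↦ ?_) h2
      rw [tsum_fintype]
      calc ∑ Q : Above K p, nrm (below ℚ Q.1).asIdeal 2 = ∑ Q : Above K p, nrm p.asIdeal 2 :=
            Finset.sum_congr rfl fun Q _ ↦ by rw [Q.2]
        _ = Fintype.card (Above K p) * nrm p.asIdeal 2 := by
            rw [Finset.sum_const, nsmul_eq_mul, Finset.card_univ]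
        _ ≤ _ := mul_le_mul_of_nonneg_right (by exact_mod_cast card_above_le K p)
            (nrm_nonneg _ _)
  exact (Equiv.summable_iff _).1 h

theorem nrm_le_below (P : HeightOneSpectrum (𝓞 K)) (hP : ¬ (Ideal.absNorm P.asIdeal).Prime)
    {s : ℝ} (hs : 1 < s) : nrm P.asIdeal s ≤ nrm (below ℚ P).asIdeal 2 := by
  have h1 := nrm_above K (P := below ℚ P) ⟨P, rfl⟩ s
  simp only at h1
  rw [h1]
  refine nrm_mono _ (by norm_num) ?_
  have h2 : 2 ≤ P.asIdeal.inertiaDeg (𝓞 ℚ) := by
    have h3 := f_pos K (P := below ℚ P) ⟨P, rfl⟩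
    simp only at h3
    by_contra hcon
    push Not at hcon
    have h4 : P.asIdeal.inertiaDeg (𝓞 ℚ) = 1 := by omega
    have hlies : P.asIdeal.LiesOver (below ℚ P).asIdeal := liesOver K (P := below ℚ P) ⟨P, rfl⟩
    have h5 := Ideal.absNorm_pow_inertiaDeg (below ℚ P).asIdeal P.asIdeal
    rw [h4, pow_one] at h5
    rw [← h5] at hP
    exact hP (absNorm_prime_of_rat _)
  have h3 : (2 : ℝ) ≤ P.asIdeal.inertiaDeg (𝓞 ℚ) := by exact_mod_cast h2
  nlinarith

theorem pzetaOn_not_prime_le {s : ℝ} (hs : 1 < s) :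
    pzetaOn {P : HeightOneSpectrum (𝓞 K) | ¬ (Ideal.absNorm P.asIdeal).Prime} s ≤
      ∑' P : HeightOneSpectrum (𝓞 K), nrm (below ℚ P).asIdeal 2 := by
  refine (summable_pzetaOn _ hs).tsum_le_tsum (fun P ↦ ?_) (summable_below K)
  by_cases h : P ∈ {P : HeightOneSpectrum (𝓞 K) | ¬ (Ideal.absNorm P.asIdeal).Prime}
  · rw [Set.indicator_of_mem h]
    exact nrm_le_below K P h hs
  · rw [Set.indicator_of_notMem h]
    exact nrm_nonneg _ _

variable {K}

theorem tendsto_log_inv : Tendsto (fun s : ℝ ↦ Real.log (1 / (s - 1))) (𝓝[>] 1) atTop := by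
  have h1 : Tendsto (fun s : ℝ ↦ 1 / (s - 1)) (𝓝[>] 1) atTop := by
    have h2 : Tendsto (fun s : ℝ ↦ s - 1) (𝓝[>] 1) (𝓝[>] 0) := by
      refine tendsto_nhdsWithin_iff.2 ⟨?_, ?_⟩
      · have h3 : Tendsto (fun s : ℝ ↦ s - 1) (𝓝 1) (𝓝 (1 - 1)) :=
          (continuous_id.sub continuous_const).tendsto 1
        rw [sub_self] at h3
        exact h3.mono_left nhdsWithin_le_nhds
      · filter_upwards [self_mem_nhdsWithin] with s hs
        have hs : 1 < s := hs
        exact sub_pos.2 hs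
    refine (tendsto_inv_nhdsGT_zero.comp h2).congr fun s ↦ ?_
    rw [Function.comp_apply, one_div]
  exact Real.tendsto_log_atTop.comp h1

/-- A set of primes with positive (log-)density contains infinitely many primes of degree one. -/
theorem exists_prime_of_density (T : Set (HeightOneSpectrum (𝓞 K))) {δ : ℝ} (hδ : 0 < δ)
    (hT : (fun s : ℝ ↦ pzetaOn T s - δ * Real.log (1 / (s - 1))) =O[𝓝[>] 1] (fun _ ↦ (1 : ℝ)))
    (B : Set (HeightOneSpectrum (𝓞 K))) (hB : B.Finite) :
    ∃ P ∈ T, P ∉ B ∧ (Ideal.absNorm P.asIdeal).Prime := by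
  by_contra hcon
  push Not at hcon
  set C := ∑' P : HeightOneSpectrum (𝓞 K), nrm (below ℚ P).asIdeal 2 with hC
  have h1 : ∀ s : ℝ, 1 < s → pzetaOn T s ≤ B.ncard + C := by
    intro s hs
    have h2 : pzetaOn T s ≤ pzetaOn B s +
        pzetaOn {P : HeightOneSpectrum (𝓞 K) | ¬ (Ideal.absNorm P.asIdeal).Prime} s := by
      unfold pzetaOn
      rw [← (summable_pzetaOn B hs).tsum_add (summable_pzetaOn _ hs)]
      refine (summable_pzetaOn T hs).tsum_le_tsum (fun P ↦ ?_)
        ((summable_pzetaOn B hs).add (summable_pzetaOn _ hs))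
      have h3 : ∀ U : Set (HeightOneSpectrum (𝓞 K)),
          0 ≤ U.indicator (fun P : HeightOneSpectrum (𝓞 K) ↦ nrm P.asIdeal s) P :=
        fun U ↦ Set.indicator_nonneg (fun _ _ ↦ nrm_nonneg _ _) P
      by_cases hPT : P ∈ T
      · rw [Set.indicator_of_mem hPT]
        by_cases hPB : P ∈ B
        · rw [Set.indicator_of_mem hPB]
          linarith [h3 {P : HeightOneSpectrum (𝓞 K) | ¬ (Ideal.absNorm P.asIdeal).Prime}]
        · have h4 : P ∈ {P : HeightOneSpectrum (𝓞 K) | ¬ (Ideal.absNorm P.asIdeal).Prime} :=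
            hcon P hPT hPB
          rw [Set.indicator_of_mem h4]
          linarith [h3 B]
      · rw [Set.indicator_of_notMem hPT]
        exact add_nonneg (h3 _) (h3 _)
    have h5 := pzetaOn_le_of_finite hB (by linarith : 0 < s)
    have h6 := pzetaOn_not_prime_le K hs
    linarith
  obtain ⟨c, hc⟩ := hT.bound
  have h7 : ∀ᶠ s in 𝓝[>] (1 : ℝ), δ * Real.log (1 / (s - 1)) ≤ c + (B.ncard + C) := by
    filter_upwards [hc, self_mem_nhdsWithin] with s hs1 hs2
    have hs2 : 1 < s := hs2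
    rw [norm_one, mul_one, Real.norm_eq_abs] at hs1
    have h8 := (abs_le.1 hs1).1
    have h9 := h1 s hs2
    linarith
  have h10 : Tendsto (fun s : ℝ ↦ δ * Real.log (1 / (s - 1))) (𝓝[>] 1) atTop :=
    tendsto_log_inv.const_mul_atTop hδ
  have h11 := h10.eventually_gt_atTop (c + (B.ncard + C))
  obtain ⟨s, hs1, hs2⟩ := (h7.and h11).exists
  linarith

end degree

end Fermat.Agent.Density
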