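import Mathlib
import Fermat.Agent.Density.Cyclic

/-!
# The Frobenius density theorem over `ℚ`
-/

set_option autoImplicit false
set_option linter.unusedSectionVars false

noncomputable section

open Filter Topology NumberField Asymptotics IsDedekindDomain

namespace Fermat.Agent.Density

theorem finite_primes_over_nat (K : Type*) [Field K] [NumberField K] (S : Set ℕ) (hS : S.Finite) :
    {P : HeightOneSpectrum (𝓞 K) | ∃ q ∈ S, q ≠ 0 ∧ (q : 𝓞 K) ∈ P.asIdeal}.Finite := by
  have h1 : {P : HeightOneSpectrum (𝓞 K) | ∃ q ∈ S, q ≠ 0 ∧ (q : 𝓞 K) ∈ P.asIdeal} ⊆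
      ⋃ q ∈ {q ∈ S | q ≠ 0}, {P : HeightOneSpectrum (𝓞 K) | P.asIdeal ∣ Ideal.span {(q : 𝓞 K)}} := by
    rintro P ⟨q, hq, hq0, hqP⟩
    simp only [Set.mem_iUnion]
    refine ⟨q, ⟨hq, hq0⟩, ?_⟩
    exact Ideal.dvd_span_singleton.2 hqP
  refine Set.Finite.subset ?_ h1
  refine Set.Finite.biUnion (hS.subset (fun q hq ↦ hq.1)) ?_
  rintro q ⟨_, hq0⟩
  refine Ideal.finite_factors ?_
  intro h
  rw [Submodule.zero_eq_bot, Ideal.span_singleton_eq_bot] at h
  exact hq0 (by exact_mod_cast h)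

/-- **Frobenius density theorem** (weak form of Chebotarev): for every element `g` of the Galois
group of a Galois number field `L/ℚ` and every finite set `S` of primes, there are a prime
`p ∉ S`, a prime `Q` of `L` over `p`, unramified over `ℤ`, and a Frobenius element `σ` at `Q`
generating the same cyclic group as `g`. -/
theorem frobenius_density (L : Type*) [Field L] [NumberField L] [IsGalois ℚ L] (g : L ≃ₐ[ℚ] L)
    (S : Set ℕ) (hS : S.Finite) :
    ∃ p : ℕ, p.Prime ∧ p ∉ S ∧ ∃ Q : HeightOneSpectrum (𝓞 L), (p : 𝓞 L) ∈ Q.asIdeal ∧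
      Algebra.IsUnramifiedAt ℤ Q.asIdeal ∧
      ∃ σ : L ≃ₐ[ℚ] L, (∀ x : 𝓞 L, σ • x - x ^ p ∈ Q.asIdeal) ∧
        Subgroup.zpowers σ = Subgroup.zpowers g := by
  set K : IntermediateField ℚ L := FixedPoints.intermediateField (Subgroup.zpowers g) with hK
  let : CommGroup (Subgroup.zpowers g) :=
    { (inferInstance : Group (Subgroup.zpowers g)) with
      mul_comm := fun a b ↦ by
        obtain ⟨a, ⟨i, rfl⟩⟩ := a
        obtain ⟨b, ⟨j, rfl⟩⟩ := b
        apply Subtype.ext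
        change g ^ i * g ^ j = g ^ j * g ^ i
        rw [← zpow_add, ← zpow_add, add_comm] }
  have : IsGaloisGroup (Subgroup.zpowers g) K L := IsGaloisGroup.subgroup _ ℚ L _
  have hdens := density_frob_gen (K := K) (L := L) (Subgroup.zpowers g)
  have hn0 : 0 < Nat.card (Subgroup.zpowers g) := Nat.card_pos
  have hδ : (0 : ℝ) < ((Nat.card (Subgroup.zpowers g)).totient /
      (Nat.card (Subgroup.zpowers g)) : ℝ) := by
    have := Nat.totient_pos.2 hn0
    positivity
  set B1 : Set (HeightOneSpectrum (𝓞 L)) := {Q | Q.asIdeal ∣ differentIdeal ℤ (𝓞 L)} with hB1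
  have hB1f : B1.Finite := Ideal.finite_factors differentIdeal_ne_bot
  set B2 : Set (HeightOneSpectrum (𝓞 K)) := {P | ∃ q ∈ S, q ≠ 0 ∧ (q : 𝓞 K) ∈ P.asIdeal} with hB2
  have hB2f : B2.Finite := finite_primes_over_nat K S hS
  obtain ⟨P, hPT, hPB, hPp⟩ := exists_prime_of_density _ hδ hdens (B2 ∪ below K '' B1)
    (hB2f.union (hB1f.image _))
  obtain ⟨Q, hQ⟩ := exists_above K L P
  set p := Ideal.absNorm P.asIdeal with hp
  have hpP : (p : 𝓞 K) ∈ P.asIdeal := Ideal.absNorm_mem _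
  refine ⟨p, hPp, fun hpS ↦ hPB (Or.inl ⟨p, hpS, hPp.ne_zero, hpP⟩), Q,
    ?_, ?_, (frob L (Subgroup.zpowers g) P : Subgroup.zpowers g).1, ?_, ?_⟩
  · have h1 : P.asIdeal = Q.asIdeal.under (𝓞 K) := congrArg HeightOneSpectrum.asIdeal hQ.symm
    rw [h1] at hpP
    have h2 : algebraMap (𝓞 K) (𝓞 L) (p : 𝓞 K) ∈ Q.asIdeal := hpP
    rwa [map_natCast] at h2
  · by_contra hun
    have := Q.isPrime
    exact hPB (Or.inr ⟨Q, dvd_differentIdeal_iff.2 hun, hQ⟩)
  · intro x
    exact frob_spec' (Subgroup.zpowers g) P ⟨Q, hQ⟩ x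
  · have h3 : orderOf (frob L (Subgroup.zpowers g) P) = Nat.card (Subgroup.zpowers g) := hPT
    apply le_antisymm
    · rw [Subgroup.zpowers_le]
      exact (frob L (Subgroup.zpowers g) P).2
    · have h4 : Subgroup.zpowers (frob L (Subgroup.zpowers g) P) = ⊤ :=
        Subgroup.eq_top_of_card_eq _ (by rw [Nat.card_zpowers, h3])
      rw [Subgroup.zpowers_le]
      have h5 : (⟨g, Subgroup.mem_zpowers g⟩ : Subgroup.zpowers g) ∈
          Subgroup.zpowers (frob L (Subgroup.zpowers g) P) := by rw [h4]; trivial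
      obtain ⟨k, hk⟩ := h5
      refine ⟨k, ?_⟩
      have := congrArg Subtype.val hk
      exact this

end Fermat.Agent.Density
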