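import Mathlib

/-!
# Chebotarev's crossing argument, step 3: group theory and the auxiliary cyclotomic field
-/

set_option autoImplicit false

open NumberField

namespace Fermat.Agent.Density.Crossing

/-! ### counting elements of order not divisible by `n` in a cyclic group -/

theorem mul_pow_dvd_of_not_dvd {n k N o : ℕ} (hn : 0 < n) (hk : 0 < k) (hN : 0 < N)
    (h : n ^ k ∣ N) (ho : o ∣ N) (hno : ¬ n ∣ o) :
    ∃ p ∈ n.primeFactors, o ∣ N / p ^ k := by
  have ho0 : o ≠ 0 := fun h0 ↦ by
    rw [h0, zero_dvd_iff] at ho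
    omega
  rw [← Nat.factorization_prime_le_iff_dvd hn.ne' ho0] at hno
  push Not at hno
  obtain ⟨p, hp, hlt⟩ := hno
  have hpn : p ∣ n := by
    by_contra hc
    rw [Nat.factorization_eq_zero_of_not_dvd hc] at hlt
    omega
  refine ⟨p, Nat.mem_primeFactors.mpr ⟨hp, hpn, hn.ne'⟩, ?_⟩
  have hpk : p ^ k ∣ N := (pow_dvd_pow_of_dvd hpn k).trans h
  rw [Nat.dvd_div_iff_mul_dvd hpk]
  rw [← Nat.factorization_prime_le_iff_dvd (mul_ne_zero (pow_ne_zero _ hp.ne_zero) ho0) hN.ne']
  intro q hq
  rw [Nat.factorization_mul (pow_ne_zero _ hp.ne_zero) ho0, Finsupp.add_apply, hp.factorization_pow]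
  have h1 : o.factorization q ≤ N.factorization q :=
    (Nat.factorization_prime_le_iff_dvd ho0 hN.ne').mpr ho q hq
  have h2 : (n ^ k).factorization p ≤ N.factorization p :=
    (Nat.factorization_prime_le_iff_dvd (pow_ne_zero _ hn.ne') hN.ne').mpr h p hp
  rw [Nat.factorization_pow, Finsupp.smul_apply, smul_eq_mul] at h2
  by_cases hqp : q = p
  · subst hqp
    rw [Finsupp.single_eq_same]
    obtain ⟨e, he⟩ : ∃ e, n.factorization q = e + 1 := ⟨n.factorization q - 1, by omega⟩
    obtain ⟨j, hj⟩ : ∃ j, k = j + 1 := ⟨k - 1, by omega⟩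
    rw [he] at h2 hlt
    subst hj
    nlinarith
  · rw [Finsupp.single_eq_of_ne hqp, zero_add]
    exact h1

open Classical in
theorem card_not_dvd_orderOf_le {H : Type*} [Group H] [Fintype H] [IsCyclic H] {n k : ℕ}
    (hn : 0 < n) (hk : 0 < k) (h : n ^ k ∣ Fintype.card H) :
    (Finset.univ.filter fun a : H ↦ ¬ n ∣ orderOf a).card * 2 ^ k ≤ n * Fintype.card H := by
  set N := Fintype.card H with hNdef
  have hN : 0 < N := Fintype.card_pos
  have h1 : (Finset.univ.filter fun a : H ↦ ¬ n ∣ orderOf a) ⊆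
      n.primeFactors.biUnion fun p ↦ Finset.univ.filter fun a : H ↦ a ^ (N / p ^ k) = 1 := by
    intro a ha
    rw [Finset.mem_filter] at ha
    obtain ⟨p, hp, hdvd⟩ := mul_pow_dvd_of_not_dvd hn hk hN h (orderOf_dvd_card (x := a)) ha.2
    rw [Finset.mem_biUnion]
    refine ⟨p, hp, ?_⟩
    rw [Finset.mem_filter]
    exact ⟨Finset.mem_univ _, orderOf_dvd_iff_pow_eq_one.mp hdvd⟩
  have h2 : (Finset.univ.filter fun a : H ↦ ¬ n ∣ orderOf a).card ≤
      ∑ p ∈ n.primeFactors, N / p ^ k := by
    refine (Finset.card_le_card h1).trans (Finset.card_biUnion_le.trans ?_)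
    refine Finset.sum_le_sum fun p hp ↦ ?_
    have hpp := Nat.prime_of_mem_primeFactors hp
    have hpk : p ^ k ∣ N := (pow_dvd_pow_of_dvd (Nat.dvd_of_mem_primeFactors hp) k).trans h
    have hpos : 0 < N / p ^ k := Nat.div_pos (Nat.le_of_dvd hN hpk) (pow_pos hpp.pos _)
    exact IsCyclic.card_pow_eq_one_le hpos
  calc _ ≤ (∑ p ∈ n.primeFactors, N / p ^ k) * 2 ^ k := Nat.mul_le_mul_right _ h2
    _ = ∑ p ∈ n.primeFactors, (N / p ^ k) * 2 ^ k := Finset.sum_mul ..
    _ ≤ ∑ p ∈ n.primeFactors, N := by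
        refine Finset.sum_le_sum fun p hp ↦ ?_
        have hpp := Nat.prime_of_mem_primeFactors hp
        calc (N / p ^ k) * 2 ^ k ≤ (N / p ^ k) * p ^ k :=
              Nat.mul_le_mul_left _ (Nat.pow_le_pow_left hpp.two_le k)
          _ ≤ N := Nat.div_mul_le_self _ _
    _ = n.primeFactors.card * N := by rw [Finset.sum_const, smul_eq_mul]
    _ ≤ n * N := by
        refine Nat.mul_le_mul_right _ ?_
        have : n.primeFactors ⊆ Finset.Icc 1 n := by
          intro p hp
          rw [Finset.mem_Icc]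
          exact ⟨(Nat.prime_of_mem_primeFactors hp).one_le,
            Nat.le_of_dvd hn (Nat.dvd_of_mem_primeFactors hp)⟩
        calc n.primeFactors.card ≤ (Finset.Icc 1 n).card := Finset.card_le_card this
          _ = n := by simp

/-! ### the auxiliary field `K(ζ_r)` -/

section Aux

universe u

variable (K : Type u) [Field K] [NumberField K] [IsGalois ℚ K]
variable (M : Type u) [Field M] [NumberField M] [Algebra K M]
variable {r : ℕ} [NeZero r] [IsCyclotomicExtension {r} K M]

include K in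
theorem isGalois_of_cyclotomic (r : ℕ) [NeZero r] [IsCyclotomicExtension {r} K M] : IsGalois ℚ M := by
  obtain ⟨p, hp, hsp⟩ := IsGalois.is_separable_splitting_field ℚ K
  have h1 : Polynomial.IsSplittingField K M
      ((Polynomial.cyclotomic r ℚ).map (algebraMap ℚ K)) := by
    rw [Polynomial.map_cyclotomic]
    exact IsCyclotomicExtension.splitting_field_cyclotomic r K M
  have h2 : Polynomial.IsSplittingField ℚ M (p * Polynomial.cyclotomic r ℚ) :=
    Polynomial.IsSplittingField.mul (K := K) M p _ hp.ne_zero (Polynomial.cyclotomic_ne_zero r ℚ)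
  have h3 : Normal ℚ M := Normal.of_isSplittingField (p * Polynomial.cyclotomic r ℚ)
  exact ⟨⟩

theorem finrank_eq_of_not_dvd_discr {r : ℕ} (hr : r.Prime) [NeZero r]
    [IsCyclotomicExtension {r} K M]
    (hd : ¬ (r : ℤ) ∣ discr K) : Module.finrank K M = r - 1 := by
  have hζ := IsCyclotomicExtension.zeta_spec r K M
  set ζ := IsCyclotomicExtension.zeta r K M
  let K' : IntermediateField ℚ M := (IsScalarTower.toAlgHom ℚ K M).fieldRange
  let K₁ : IntermediateField ℚ M := IntermediateField.adjoin ℚ {ζ}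
  have hc1 : IsCyclotomicExtension {r} ℚ K₁ := hζ.intermediateField_adjoin_isCyclotomicExtension ℚ
  have hg1 : IsGalois ℚ K₁ := IsCyclotomicExtension.isGalois {r} ℚ K₁
  let e : K ≃ₐ[ℚ] K' := AlgEquiv.ofInjectiveField (IsScalarTower.toAlgHom ℚ K M)
  have hdisc : discr K' = discr K := (discr_eq_discr_of_algEquiv K e).symm
  have hcop : IsCoprime (discr K₁) (discr K') := by
    rw [hdisc, Int.isCoprime_iff_nat_coprime, IsCyclotomicExtension.Rat.natAbs_discr r K₁]
    refine Nat.Coprime.coprime_div_left ?_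
      (Nat.prod_primeFactors_pow_totient_ediv_dvd (NeZero.pos _))
    apply Nat.Coprime.pow_left
    rw [Nat.Prime.coprime_iff_not_dvd hr]
    intro h
    exact hd (Int.natCast_dvd.mpr h)
  have hdisj : K₁.LinearDisjoint K' := linearDisjoint_of_isGalois_isCoprime_discr _ _ _ hcop
  have hsup : K₁ ⊔ K' = ⊤ := by
    rw [eq_top_iff]
    intro y _
    have h1 : y ∈ Algebra.adjoin K {ζ} := by
      rw [IsCyclotomicExtension.adjoin_primitive_root_eq_top hζ]
      exact Algebra.mem_top
    induction h1 using Algebra.adjoin_induction with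
    | mem x hx =>
      rw [Set.mem_singleton_iff] at hx
      rw [hx]
      exact (le_sup_left : K₁ ≤ K₁ ⊔ K') (IntermediateField.mem_adjoin_simple_self ℚ ζ)
    | algebraMap a => exact (le_sup_right : K' ≤ K₁ ⊔ K') ⟨a, rfl⟩
    | add x y _ _ hx hy => exact add_mem (hx trivial) (hy trivial)
    | mul x y _ _ hx hy => exact mul_mem (hx trivial) (hy trivial)
  have h2 : Module.finrank K' M = Module.finrank ℚ K₁ := hdisj.finrank_right_eq_finrank hsup
  have h3 : Module.finrank ℚ K₁ = r.totient := IsCyclotomicExtension.Rat.finrank r K₁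
  rw [Nat.totient_prime hr] at h3
  have h4 := Module.finrank_mul_finrank ℚ K M
  have h5 := Module.finrank_mul_finrank ℚ K' M
  have h6 : Module.finrank ℚ K' = Module.finrank ℚ K := e.toLinearEquiv.finrank_eq.symm
  rw [h6, ← h4, h2, h3] at h5
  exact (Nat.eq_of_mul_eq_mul_left Module.finrank_pos h5).symm

variable {M}

/-- restriction to `K` and the action on `ζ` -/
noncomputable def pairHom {ζ : M} (hζ : IsPrimitiveRoot ζ r) :
    (M ≃ₐ[ℚ] M) →* (K ≃ₐ[ℚ] K) × (ZMod r)ˣ :=
  (AlgEquiv.restrictNormalHom K).prod (hζ.autToPow ℚ)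

theorem pairHom_injective {ζ : M} (hζ : IsPrimitiveRoot ζ r) :
    Function.Injective (pairHom K hζ) := by
  rw [injective_iff_map_eq_one]
  intro γ hγ
  have h1 : AlgEquiv.restrictNormalHom K γ = 1 := congrArg Prod.fst hγ
  have h2 : hζ.autToPow ℚ γ = 1 := congrArg Prod.snd hγ
  have h3 : γ ζ = ζ := by
    rw [← hζ.autToPow_spec ℚ γ, h2]
    rcases Nat.lt_or_ge 1 r with h | h
    · have : Fact (1 < r) := ⟨h⟩
      simp [ZMod.val_one]
    · have hr1 : r = 1 := by
        have := NeZero.pos r
        omega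
      subst hr1
      have : ζ = 1 := by simpa using hζ.pow_eq_one
      rw [this, one_pow]
  ext y
  have h4 : y ∈ Algebra.adjoin K {ζ} := by
    rw [IsCyclotomicExtension.adjoin_primitive_root_eq_top hζ]
    exact Algebra.mem_top
  induction h4 using Algebra.adjoin_induction with
  | mem x hx =>
    rw [Set.mem_singleton_iff] at hx
    rw [hx]
    exact h3
  | algebraMap a =>
    have h5 := AlgEquiv.restrictNormal_commutes γ K a
    have h6 : AlgEquiv.restrictNormal γ K = 1 := h1
    rw [h6] at h5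
    exact h5.symm
  | add x y _ _ hx hy => rw [map_add, hx, hy]; rfl
  | mul x y _ _ hx hy => rw [map_mul, hx, hy]; rfl

theorem pairHom_bijective [IsGalois ℚ M] (hr : r.Prime) (hd : ¬ (r : ℤ) ∣ discr K)
    {ζ : M} (hζ : IsPrimitiveRoot ζ r) : Function.Bijective (pairHom K hζ) := by
  classical
  rw [Fintype.bijective_iff_injective_and_card]
  refine ⟨pairHom_injective K hζ, ?_⟩
  rw [Fintype.card_prod, ZMod.card_units_eq_totient, Nat.totient_prime hr,
    ← Nat.card_eq_fintype_card, ← Nat.card_eq_fintype_card, IsGalois.card_aut_eq_finrank,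
    IsGalois.card_aut_eq_finrank, ← finrank_eq_of_not_dvd_discr K M hr hd,
    Module.finrank_mul_finrank]

end Aux

end Fermat.Agent.Density.Crossing
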