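import Mathlib
import Fermat.Agent.FrobeniusDensityNF

/-!
# Chebotarev's crossing argument, step 1

`M / ℚ` finite Galois, `γ ∈ Gal(M/ℚ)`, `ζ ∈ M` a primitive `m`-th root of unity such that no
nontrivial power of `γ` fixes `ζ` (i.e. `M = M^γ(ζ)`).  Then, assuming the density statement for
degree-one primes in arithmetic progressions (`CycloPrimeDensity`), the primes of `M` with
Frobenius *equal to* `γ` have weighted density `1`.
-/

set_option autoImplicit false

open NumberField IsDedekindDomain Filter Topology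

namespace Fermat.Agent.Density.Crossing

open Fermat.Agent.DedekindEuler Fermat.Agent.FrobDensity
open scoped Pointwise

universe u

/-- The analytic input of Chebotarev's theorem: for every cyclotomic extension `M = E(ζ)` of number
fields and `τ ∈ Gal(M/E)`, the degree-one primes `v` of `E` with `τ ζ = ζ ^ (N v)` satisfy
`∑ (N v)⁻ˢ = [M:E]⁻¹ log (1/(s-1)) + O(1)`. -/
def CycloPrimeDensity : Prop :=
  ∀ (E : Type u) [Field E] [NumberField E] (M : Type u) [Field M] [NumberField M] [Algebra E M]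
    (m : ℕ) [NeZero m] [IsCyclotomicExtension {m} E M] (ζ : M) (_ : IsPrimitiveRoot ζ m)
    (τ : M ≃ₐ[E] M) (B : Finset ℕ),
    ∃ C : ℝ, ∀ᶠ s : ℝ in 𝓝[>] 1,
      |∑' v : HeightOneSpectrum (𝓞 E),
          {v | v ∈ goodSet E B ∧ τ ζ = ζ ^ (Ideal.absNorm v.asIdeal)}.indicator (x s) v
        - (Module.finrank E M : ℝ)⁻¹ * Real.log (1 / (s - 1))| ≤ C

variable {M : Type u} [Field M] [NumberField M] [IsGalois ℚ M]

/-- Frobenius acts on roots of unity by the `ℓ`-th power map. -/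
theorem frob_apply_root {m : ℕ} {ζ : M} (hζ : ζ ^ m = 1)
    (P : HeightOneSpectrum (𝓞 M)) (hP : ¬ below P ∣ m) :
    frob P ζ = ζ ^ below P := by
  rcases Nat.eq_zero_or_pos m with rfl | hm
  · exact absurd (dvd_zero _) hP
  have hint : IsIntegral ℤ ζ := IsIntegral.of_pow hm (by rw [hζ]; exact isIntegral_one)
  let z : 𝓞 M := ⟨ζ, hint⟩
  have hz : z ^ m = 1 := by
    apply FaithfulSMul.algebraMap_injective (𝓞 M) M
    rw [map_pow, map_one]
    exact hζ
  have hPp := P.isPrime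
  have h1 := (isArithFrobAt_frob P).apply_of_pow_eq_one hz
    (by rw [natCast_mem_iff]; exact hP)
  rw [card_quot_under] at h1
  have h2 := congrArg (algebraMap (𝓞 M) M) h1
  rw [map_pow] at h2
  exact h2

section Cross

variable (γ : M ≃ₐ[ℚ] M)

/-- the fixed field of `γ` -/
abbrev fixedE : IntermediateField ℚ M :=
  FixedPoints.intermediateField (Subgroup.zpowers γ)

variable {γ}

theorem isCyclotomicExtension_fixedE {m : ℕ} [NeZero m] {ζ : M} (hζ : IsPrimitiveRoot ζ m)
    (hγ : ∀ k : ℕ, (γ ^ k) ζ = ζ → γ ^ k = 1) : IsCyclotomicExtension {m} (fixedE γ) M := by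
  have h1 : IsCyclotomicExtension {m} (fixedE γ) (IntermediateField.adjoin (fixedE γ) {ζ}) :=
    hζ.intermediateField_adjoin_isCyclotomicExtension (fixedE γ)
  have h2 : IntermediateField.adjoin (fixedE γ) {ζ} = ⊤ := by
    have hgal : IsGalois (fixedE γ) M := inferInstance
    rw [← IsGalois.fixedField_fixingSubgroup (IntermediateField.adjoin (fixedE γ) {ζ})]
    rw [← IntermediateField.fixedField_bot]
    congr 1
    rw [eq_bot_iff]
    intro σ hσ
    rw [Subgroup.mem_bot]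
    -- `σ` is a power of `γ`
    obtain ⟨δ, hδ⟩ := (IsGaloisGroup.mulEquivAlgEquiv (Subgroup.zpowers γ) (fixedE γ) M).surjective σ
    obtain ⟨δ, hδm⟩ := δ
    rw [← mem_powers_iff_mem_zpowers] at hδm
    obtain ⟨k, hk⟩ := hδm
    have h3 : σ ζ = (γ ^ k) ζ := by
      rw [← hδ]
      simp only at hk
      subst hk
      rfl
    have h4 : σ ζ = ζ := hσ ⟨ζ, IntermediateField.mem_adjoin_simple_self _ ζ⟩
    have h5 := hγ k (h3.symm.trans h4)
    rw [← hδ]
    simp only at hk
    subst hk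
    ext y
    change (γ ^ k) y = y
    rw [h5]
    rfl
  rw [h2] at h1
  exact h1.equiv _ _ _ IntermediateField.topEquiv

variable (γ)

theorem indicator_singleton {m : ℕ} {ζ : M} (hζ : IsPrimitiveRoot ζ m)
    (hγ : ∀ k : ℕ, (γ ^ k) ζ = ζ → γ ^ k = 1) {B : Finset ℕ}
    (hmB : ∀ p : ℕ, p.Prime → p ∣ m → p ∈ B) (s : ℝ) (v : HeightOneSpectrum (𝓞 (fixedE γ)))
    (P : {P : HeightOneSpectrum (𝓞 M) // underE (fixedE γ) P = v}) :
    (frobSet B {γ}).indicator (w s) P.1 =
      {v | γ ζ = ζ ^ below v}.indicator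
        (fun _ ↦ (frobSet B ((Subgroup.zpowers γ : Subgroup (M ≃ₐ[ℚ] M)) : Set (M ≃ₐ[ℚ] M))).indicator
          (w s) P.1) v := by
  classical
  obtain ⟨P, rfl⟩ := P
  simp only
  by_cases h1 : P ∈ frobSet B ((Subgroup.zpowers γ : Subgroup (M ≃ₐ[ℚ] M)) : Set (M ≃ₐ[ℚ] M))
  · have hPm : ¬ below P ∣ m := fun h ↦ h1.1 (hmB _ (below_prime P) h)
    have h2 := frob_apply_root hζ.pow_eq_one P hPm
    have h3 : P ∈ frobSet B {γ} ↔ γ ζ = ζ ^ below (underE (fixedE γ) P) := by
      rw [below_underE]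
      constructor
      · intro h
        have : frob P = γ := h.2
        rw [← this, h2]
      · intro h
        refine ⟨h1.1, ?_⟩
        obtain ⟨k, hk⟩ := (mem_powers_iff_mem_zpowers.mpr h1.2 : frob P ∈ Submonoid.powers γ)
        simp only at hk
        -- `γ^k ζ = γ ζ` so `γ^(k + ord - 1) ζ = ζ`
        have h4 : (γ ^ (k + (orderOf γ - 1))) ζ = ζ := by
          have h5 : (γ ^ k) ζ = γ ζ := by rw [hk, h2, h]
          have hpos : 0 < orderOf γ := orderOf_pos γ
          rw [add_comm, pow_add]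
          change (γ ^ (orderOf γ - 1)) ((γ ^ k) ζ) = ζ
          rw [h5]
          change (γ ^ (orderOf γ - 1) * γ) ζ = ζ
          rw [← pow_succ, Nat.sub_add_cancel hpos, pow_orderOf_eq_one]
          rfl
        have h6 := hγ _ h4
        have hpos : 0 < orderOf γ := orderOf_pos γ
        have h7 : γ ^ k = γ := by
          have h8 : γ ^ (k + (orderOf γ - 1)) * γ = γ := by rw [h6, one_mul]
          rw [← pow_succ, add_assoc, Nat.sub_add_cancel hpos, pow_add, pow_orderOf_eq_one, mul_one] at h8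
          exact h8
        change frob P = γ
        rw [← hk, h7]
    by_cases h4 : γ ζ = ζ ^ below (underE (fixedE γ) P)
    · rw [Set.indicator_of_mem (h3.mpr h4), Set.indicator_of_mem (by exact h4),
        Set.indicator_of_mem h1]
    · rw [Set.indicator_of_notMem (fun h ↦ h4 (h3.mp h)), Set.indicator_of_notMem (by exact h4)]
  · have h2 : P ∉ frobSet B {γ} := by
      intro h
      refine h1 ⟨h.1, ?_⟩
      have : frob P = γ := h.2
      rw [SetLike.mem_coe, this]
      exact Subgroup.mem_zpowers γ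
    rw [Set.indicator_of_notMem h2, Set.indicator_of_notMem h1]
    simp

theorem tsum_singleton {m : ℕ} {ζ : M} (hζ : IsPrimitiveRoot ζ m)
    (hγ : ∀ k : ℕ, (γ ^ k) ζ = ζ → γ ^ k = 1) {B : Finset ℕ}
    (hB : ∀ P : HeightOneSpectrum (𝓞 M), below P ∉ B →
      ∀ σ : M ≃ₐ[ℚ] M, σ ∈ P.asIdeal.inertia (M ≃ₐ[ℚ] M) → σ = 1)
    (hmB : ∀ p : ℕ, p.Prime → p ∣ m → p ∈ B) {s : ℝ} (hs : 1 < s) :
    ∑' P : HeightOneSpectrum (𝓞 M), (frobSet B {γ}).indicator (w s) P =
      (Nat.card (Subgroup.zpowers γ) : ℝ) * ∑' v : HeightOneSpectrum (𝓞 (fixedE γ)),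
        {v | v ∈ goodSet (fixedE γ) B ∧ γ ζ = ζ ^ (Ideal.absNorm v.asIdeal)}.indicator (x s) v := by
  classical
  set D := Subgroup.zpowers γ with hD
  let e := Equiv.sigmaFiberEquiv (underE (L := M) (fixedE γ))
  let f : HeightOneSpectrum (𝓞 M) → ℝ := fun P ↦ (frobSet B {γ}).indicator (w s) P
  have hf : ∀ P, 0 ≤ f P := fun P ↦ Set.indicator_nonneg (fun P _ ↦ w_nonneg s P) P
  have hsum : ∀ v : HeightOneSpectrum (𝓞 (fixedE γ)),
      ∑' P : {P : HeightOneSpectrum (𝓞 M) // underE (fixedE γ) P = v}, f P.1 =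
      (Nat.card D : ℝ) *
        {v | v ∈ goodSet (fixedE γ) B ∧ γ ζ = ζ ^ (Ideal.absNorm v.asIdeal)}.indicator (x s) v := by
    intro v
    have h1 := sum_fiber (fixedE γ) D hB s v
    rw [tsum_congr (fun P ↦ indicator_singleton γ hζ hγ hmB s v P)]
    by_cases hv : γ ζ = ζ ^ below v
    · have h2 : ∀ P : {P : HeightOneSpectrum (𝓞 M) // underE (fixedE γ) P = v},
        {v | γ ζ = ζ ^ below v}.indicator
        (fun _ ↦ (frobSet B ((Subgroup.zpowers γ : Subgroup (M ≃ₐ[ℚ] M)) : Set (M ≃ₐ[ℚ] M))).indicator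
          (w s) P.1) v = (frobSet B (D : Set (M ≃ₐ[ℚ] M))).indicator (w s) P.1 :=
        fun P ↦ Set.indicator_of_mem (by exact hv) _
      rw [tsum_congr h2]
      have h3 : ∑' P : {P : HeightOneSpectrum (𝓞 M) // underE (fixedE γ) P = v},
          (frobSet B (D : Set (M ≃ₐ[ℚ] M))).indicator (w s) P.1 =
          (Nat.card D : ℝ) * (goodSet (fixedE γ) B).indicator (x s) v := h1
      rw [h3]
      congr 1
      by_cases hg : v ∈ goodSet (fixedE γ) B
      · rw [Set.indicator_of_mem hg, Set.indicator_of_mem]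
        refine ⟨hg, ?_⟩
        rw [← below_eq_absNorm hg.1]
        exact hv
      · rw [Set.indicator_of_notMem hg, Set.indicator_of_notMem (fun h ↦ hg h.1)]
    · have h2 : ∀ P : {P : HeightOneSpectrum (𝓞 M) // underE (fixedE γ) P = v},
        {v | γ ζ = ζ ^ below v}.indicator
        (fun _ ↦ (frobSet B ((Subgroup.zpowers γ : Subgroup (M ≃ₐ[ℚ] M)) : Set (M ≃ₐ[ℚ] M))).indicator
          (w s) P.1) v = 0 :=
        fun P ↦ Set.indicator_of_notMem (by exact hv) _
      rw [tsum_congr h2, tsum_zero, Set.indicator_of_notMem, mul_zero]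
      rintro ⟨hg, h3⟩
      apply hv
      rw [below_eq_absNorm hg.1]
      exact h3
  have hsx : Summable ({v | v ∈ goodSet (fixedE γ) B ∧
      γ ζ = ζ ^ (Ideal.absNorm v.asIdeal)}.indicator (x s)) := summable_indicator hs _
  have hS : Summable (f ∘ e) := by
    rw [summable_sigma_of_nonneg (f := f ∘ e) (fun x ↦ hf _)]
    refine ⟨fun v ↦ ?_, ?_⟩
    · have := finite_fiber (L := M) (fixedE γ) v
      exact Summable.of_finite
    · refine (hsx.mul_left (Nat.card D : ℝ)).congr fun v ↦ ?_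
      rw [← hsum v]
      rfl
  change ∑' P, f P = _
  rw [← Equiv.tsum_eq e]
  change ∑' c, (f ∘ e) c = _
  rw [hS.tsum_sigma' (fun v ↦ ?_), ← tsum_mul_left]
  · exact tsum_congr fun v ↦ hsum v
  · have := finite_fiber (L := M) (fixedE γ) v
    exact Summable.of_finite

/-- **Crossing step.** If no nontrivial power of `γ` fixes `ζ`, then the primes with Frobenius equal
to `γ` have (weighted) density `1`. -/
theorem tendsto_singleton (hA2 : CycloPrimeDensity.{u}) {m : ℕ} [NeZero m] {ζ : M}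
    (hζ : IsPrimitiveRoot ζ m)
    (hγ : ∀ k : ℕ, (γ ^ k) ζ = ζ → γ ^ k = 1) {B : Finset ℕ}
    (hB : ∀ P : HeightOneSpectrum (𝓞 M), below P ∉ B →
      ∀ σ : M ≃ₐ[ℚ] M, σ ∈ P.asIdeal.inertia (M ≃ₐ[ℚ] M) → σ = 1)
    (hmB : ∀ p : ℕ, p.Prime → p ∣ m → p ∈ B) :
    Tendsto (fun s : ℝ ↦ (∑' P : HeightOneSpectrum (𝓞 M), (frobSet B {γ}).indicator (w s) P) /
      Real.log (1 / (s - 1))) (𝓝[>] 1) (𝓝 1) := by
  have hcyc := isCyclotomicExtension_fixedE hζ hγ
  let τ : M ≃ₐ[fixedE γ] M :=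
    IsGaloisGroup.mulEquivAlgEquiv (Subgroup.zpowers γ) (fixedE γ) M ⟨γ, Subgroup.mem_zpowers γ⟩
  have hτ : τ ζ = γ ζ := rfl
  obtain ⟨C, hC⟩ := hA2 (fixedE γ) M m ζ hζ τ B
  have hcard : (Nat.card (Subgroup.zpowers γ) : ℝ) = (Module.finrank (fixedE γ) M : ℝ) := by
    exact_mod_cast IsGaloisGroup.card_eq_finrank (Subgroup.zpowers γ) (fixedE γ) M
  have hpos : (0 : ℝ) < (Module.finrank (fixedE γ) M : ℝ) := by
    exact_mod_cast Module.finrank_pos
  refine tendsto_div_log_of_bounded (C := (Module.finrank (fixedE γ) M : ℝ) * C) ?_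
  filter_upwards [hC, self_mem_nhdsWithin] with s hs hs1
  rw [tsum_singleton γ hζ hγ hB hmB hs1, hcard]
  rw [hτ] at hs
  have h1 : ∀ a b : ℝ, (Module.finrank (fixedE γ) M : ℝ) * a - b =
      (Module.finrank (fixedE γ) M : ℝ) * (a - (Module.finrank (fixedE γ) M : ℝ)⁻¹ * b) := by
    intro a b
    field_simp
  rw [h1, abs_mul, abs_of_pos hpos]
  exact mul_le_mul_of_nonneg_left hs hpos.le

end Cross

end Fermat.Agent.Density.Crossing
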