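import Mathlib
import Fermat.Agent.FrobeniusDensityNF

/-!
# Chebotarev's crossing argument, step 2: comparison between `M` and a Galois subfield `K`
-/

set_option autoImplicit false

open NumberField IsDedekindDomain Filter Topology

namespace Fermat.Agent.Density.Crossing

open Fermat.Agent.DedekindEuler Fermat.Agent.FrobDensity
open scoped Pointwise

universe u v

/-- `B` contains all rational primes having a nontrivial inertia group in `L`. -/
def BadFor (L : Type*) [Field L] [NumberField L] (B : Finset ℕ) : Prop :=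
  ∀ P : HeightOneSpectrum (𝓞 L), below P ∉ B →
    ∀ σ : L ≃ₐ[ℚ] L, σ ∈ P.asIdeal.inertia (L ≃ₐ[ℚ] L) → σ = 1

theorem BadFor.mono {L : Type*} [Field L] [NumberField L] {B B' : Finset ℕ} (hB : BadFor L B)
    (h : B ⊆ B') : BadFor L B' := fun P hP ↦ hB P (fun h' ↦ hP (h h'))

section Summable

variable {M : Type u} [Field M] [NumberField M] [IsGalois ℚ M]

theorem summable_frobSet {B : Finset ℕ} (hB : BadFor M B) {s : ℝ} (hs : 1 < s)
    (X : Set (M ≃ₐ[ℚ] M)) : Summable ((frobSet B X).indicator (w s)) := by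
  have h1 := (summable_and_tsum_frobSet
    (FixedPoints.intermediateField (⊤ : Subgroup (M ≃ₐ[ℚ] M)) : IntermediateField ℚ M)
    (⊤ : Subgroup (M ≃ₐ[ℚ] M)) hB hs).1
  refine Summable.of_nonneg_of_le (fun P ↦ Set.indicator_nonneg (fun P _ ↦ w_nonneg s P) P)
    (fun P ↦ ?_) h1
  refine Set.indicator_le_indicator_of_subset ?_ (fun P ↦ w_nonneg s P) P
  intro P hP
  exact ⟨hP.1, Set.mem_univ _⟩

theorem tsum_frobSet_nonneg (B : Finset ℕ) (s : ℝ) (X : Set (M ≃ₐ[ℚ] M)) :
    0 ≤ ∑' P : HeightOneSpectrum (𝓞 M), (frobSet B X).indicator (w s) P :=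
  tsum_nonneg fun P ↦ Set.indicator_nonneg (fun P _ ↦ w_nonneg s P) P

theorem tsum_frobSet_mono {B : Finset ℕ} (hB : BadFor M B) {s : ℝ} (hs : 1 < s)
    {X Y : Set (M ≃ₐ[ℚ] M)} (h : X ⊆ Y) :
    ∑' P : HeightOneSpectrum (𝓞 M), (frobSet B X).indicator (w s) P ≤
      ∑' P : HeightOneSpectrum (𝓞 M), (frobSet B Y).indicator (w s) P := by
  refine (summable_frobSet hB hs X).tsum_le_tsum (fun P ↦ ?_) (summable_frobSet hB hs Y)
  refine Set.indicator_le_indicator_of_subset ?_ (fun P ↦ w_nonneg s P) P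
  intro P hP
  exact ⟨hP.1, h hP.2⟩

open Classical in
theorem indicator_frobSet_finset (B : Finset ℕ) (s : ℝ) (X : Finset (M ≃ₐ[ℚ] M))
    (P : HeightOneSpectrum (𝓞 M)) :
    (frobSet B (X : Set (M ≃ₐ[ℚ] M))).indicator (w s) P =
      ∑ g ∈ X, (frobSet B {g}).indicator (w s) P := by
  by_cases hb : below P ∉ B
  · have h1 : ∀ Y : Set (M ≃ₐ[ℚ] M), (frobSet B Y).indicator (w s) P =
      if frob P ∈ Y then w s P else 0 := by
      intro Y
      by_cases hY : frob P ∈ Y
      · rw [Set.indicator_of_mem (by exact ⟨hb, hY⟩), if_pos hY]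
      · rw [Set.indicator_of_notMem (fun h ↦ hY h.2), if_neg hY]
    rw [h1, Finset.sum_congr rfl (fun g _ ↦ h1 {g})]
    simp only [Set.mem_singleton_iff, Finset.mem_coe]
    rw [Finset.sum_ite_eq]
  · have h1 : ∀ Y : Set (M ≃ₐ[ℚ] M), (frobSet B Y).indicator (w s) P = 0 :=
      fun Y ↦ Set.indicator_of_notMem (fun h ↦ hb h.1) _
    rw [h1, Finset.sum_congr rfl (fun g _ ↦ h1 {g}), Finset.sum_const_zero]

theorem tsum_frobSet_finset {B : Finset ℕ} (hB : BadFor M B) {s : ℝ} (hs : 1 < s)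
    (X : Finset (M ≃ₐ[ℚ] M)) :
    ∑' P : HeightOneSpectrum (𝓞 M), (frobSet B (X : Set (M ≃ₐ[ℚ] M))).indicator (w s) P =
      ∑ g ∈ X, ∑' P : HeightOneSpectrum (𝓞 M), (frobSet B {g}).indicator (w s) P := by
  rw [tsum_congr (indicator_frobSet_finset B s X), Summable.tsum_finsetSum]
  intro g _
  exact summable_frobSet hB hs {g}

end Summable

section Push

variable {M : Type u} [Field M] [NumberField M] [IsGalois ℚ M]
variable (K : Type v) [Field K] [NumberField K] [IsGalois ℚ K] [Algebra K M]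

/-- the Frobenius of `P` restricts to the Frobenius of the prime below. -/
theorem restrictNormal_frob {B : Finset ℕ} (hB : BadFor K B)
    (P : HeightOneSpectrum (𝓞 M)) (hP : below P ∉ B) :
    AlgEquiv.restrictNormal (frob P) K = frob (underE K P) := by
  refine eq_frob hB (by rwa [below_underE]) ?_
  intro y
  have h1 := isArithFrobAt_frob P (algebraMap (𝓞 K) (𝓞 M) y)
  rw [card_quot_under] at h1
  rw [card_quot_under, below_underE]
  change algebraMap (𝓞 K) (𝓞 M) _ ∈ P.asIdeal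
  rw [map_sub, map_pow]
  convert h1 using 2
  apply FaithfulSMul.algebraMap_injective (𝓞 M) M
  have h2 := AlgEquiv.restrictNormal_commutes (frob P) K (algebraMap (𝓞 K) K y)
  exact h2

omit [IsGalois ℚ M] [IsGalois ℚ K] in
theorem tsum_fiber_w (D : Subgroup (M ≃ₐ[ℚ] M)) [IsGaloisGroup D K M] {B : Finset ℕ}
    (hB : BadFor M B) (s : ℝ) (v : HeightOneSpectrum (𝓞 K)) (hv : below v ∉ B) :
    ∑' P : {P : HeightOneSpectrum (𝓞 M) // underE K P = v}, w s P.1 =
      (Module.finrank K M : ℝ) * w s v := by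
  classical
  have hvp := v.isPrime
  have hvm : v.asIdeal.IsMaximal := v.isMaximal
  obtain ⟨⟨Q, hQ, hQv⟩⟩ : Nonempty (v.asIdeal.primesOver (𝓞 M)) := inferInstance
  have hQne : Q ≠ ⊥ := Ideal.ne_bot_of_mem_primesOver v.ne_bot ⟨hQ, hQv⟩
  let P₀ : HeightOneSpectrum (𝓞 M) := ⟨Q, hQ, hQne⟩
  have hP₀ : underE K P₀ = v := HeightOneSpectrum.ext hQv.over.symm
  have hbP : ∀ P : {P : HeightOneSpectrum (𝓞 M) // underE K P = v}, below P.1 = below v := fun P ↦ by
    rw [← below_underE K P.1, P.2]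
  have hfP : ∀ P : {P : HeightOneSpectrum (𝓞 M) // underE K P = v},
      P.1.asIdeal.inertiaDeg ℤ = v.asIdeal.inertiaDeg ℤ * Q.inertiaDeg (𝓞 K) := fun P ↦ by
    have h2 : P.1.asIdeal.LiesOver v.asIdeal := liesOver_fiber K v P
    have := P.1.isPrime
    rw [Ideal.inertiaDeg_tower (R := ℤ) v.asIdeal P.1.asIdeal]
    congr 1
    exact Ideal.inertiaDeg_eq_of_isGaloisGroup v.asIdeal _ _ D
  have hconst : ∀ P : {P : HeightOneSpectrum (𝓞 M) // underE K P = v},
      w s P.1 = (Q.inertiaDeg (𝓞 K) : ℝ) * w s v := fun P ↦ by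
    unfold w
    rw [hfP, hbP]
    push_cast
    ring
  rw [tsum_congr hconst]
  have := finite_fiber (L := M) K v
  rw [tsum_const, nsmul_eq_mul, ← mul_assoc]
  congr 1
  have hcard : Nat.card {P : HeightOneSpectrum (𝓞 M) // underE K P = v} =
      (v.asIdeal.primesOver (𝓞 M)).ncard := by
    rw [← Nat.card_coe_set_eq]
    refine Nat.card_congr ⟨fun P ↦ ⟨P.1.asIdeal, P.1.isPrime, liesOver_fiber K v P⟩,
      fun P ↦ ⟨⟨P.1, P.2.1, Ideal.ne_bot_of_mem_primesOver v.ne_bot P.2⟩,
        HeightOneSpectrum.ext P.2.2.over.symm⟩,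
      fun P ↦ rfl, fun P ↦ rfl⟩
  rw [hcard]
  have hPF : PerfectField v.asIdeal.ResidueField := by
    have : Finite (𝓞 K ⧸ v.asIdeal) := Ideal.finiteQuotientOfFreeOfNeBot _ v.ne_bot
    have hs : Function.Surjective (algebraMap (𝓞 K ⧸ v.asIdeal) v.asIdeal.ResidueField) :=
      (Ideal.bijective_algebraMap_quotient_residueField v.asIdeal).2
    have : Finite v.asIdeal.ResidueField := Finite.of_surjective _ hs
    infer_instance
  have key := Ideal.ncard_primesOver_mul_card_inertia_mul_finrank (G := D) v.asIdeal Q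
  have hin : Nat.card (Q.inertia D) = 1 := by
    rw [Nat.card_eq_one_iff_unique]
    refine ⟨⟨fun a b ↦ ?_⟩, ⟨1⟩⟩
    have hP₀B : below P₀ ∉ B := by
      rw [← below_underE K P₀, hP₀]
      exact hv
    have h3 : ∀ a : Q.inertia D, (a.1 : D) = 1 := fun a ↦ by
      have := hB P₀ hP₀B (a.1 : M ≃ₐ[ℚ] M) (fun y ↦ a.2 y)
      exact Subtype.ext this
    apply Subtype.ext
    rw [h3 a, h3 b]
  rw [hin, mul_one] at key
  have hD : Nat.card D = Module.finrank K M := IsGaloisGroup.card_eq_finrank D K M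
  rw [hD] at key
  exact_mod_cast key

theorem tsum_push {B : Finset ℕ} (hBM : BadFor M B) (hBK : BadFor K B) {s : ℝ} (hs : 1 < s)
    (X : Set (K ≃ₐ[ℚ] K)) :
    ∑' P : HeightOneSpectrum (𝓞 M),
        (frobSet B {γ : M ≃ₐ[ℚ] M | AlgEquiv.restrictNormal γ K ∈ X}).indicator (w s) P =
      (Module.finrank K M : ℝ) *
        ∑' Q : HeightOneSpectrum (𝓞 K), (frobSet B X).indicator (w s) Q := by
  classical
  let D : Subgroup (M ≃ₐ[ℚ] M) := fixingSubgroup (M ≃ₐ[ℚ] M) (Set.range (algebraMap K M))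
  have hD : IsGaloisGroup D K M := IsGaloisGroup.of_isScalarTower (M ≃ₐ[ℚ] M) ℚ M K
  let e := Equiv.sigmaFiberEquiv (underE (L := M) K)
  set Y : Set (M ≃ₐ[ℚ] M) := {γ : M ≃ₐ[ℚ] M | AlgEquiv.restrictNormal γ K ∈ X} with hY
  let f : HeightOneSpectrum (𝓞 M) → ℝ := fun P ↦ (frobSet B Y).indicator (w s) P
  have hsumm : Summable f := summable_frobSet hBM hs Y
  have hmem : ∀ P : HeightOneSpectrum (𝓞 M), P ∈ frobSet B Y ↔ underE K P ∈ frobSet B X := by
    intro P
    constructor
    · rintro ⟨h1, h2⟩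
      refine ⟨by rwa [below_underE], ?_⟩
      rw [← restrictNormal_frob K hBK P h1]
      exact h2
    · rintro ⟨h1, h2⟩
      rw [below_underE] at h1
      refine ⟨h1, ?_⟩
      change AlgEquiv.restrictNormal (frob P) K ∈ X
      rw [restrictNormal_frob K hBK P h1]
      exact h2
  have hsum : ∀ v : HeightOneSpectrum (𝓞 K),
      ∑' P : {P : HeightOneSpectrum (𝓞 M) // underE K P = v}, f P.1 =
      (Module.finrank K M : ℝ) * (frobSet B X).indicator (w s) v := by
    intro v
    by_cases hv : v ∈ frobSet B X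
    · rw [Set.indicator_of_mem hv, ← tsum_fiber_w K D hBM s v hv.1]
      refine tsum_congr fun P ↦ ?_
      refine Set.indicator_of_mem ?_ _
      rw [hmem, P.2]
      exact hv
    · rw [Set.indicator_of_notMem hv, mul_zero]
      have h2 : ∀ P : {P : HeightOneSpectrum (𝓞 M) // underE K P = v}, f P.1 = 0 := by
        intro P
        have h3 : P.1 ∉ frobSet B Y := by
          rw [hmem, P.2]
          exact hv
        exact Set.indicator_of_notMem h3 _
      rw [tsum_congr h2, tsum_zero]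
  change ∑' P, f P = _
  rw [← Equiv.tsum_eq e]
  have hS : Summable (f ∘ e) := (Equiv.summable_iff e).mpr hsumm
  change ∑' c, (f ∘ e) c = _
  rw [hS.tsum_sigma' (fun v ↦ ?_), ← tsum_mul_left]
  · exact tsum_congr fun v ↦ hsum v
  · have := finite_fiber (L := M) K v
    exact Summable.of_finite

end Push

end Fermat.Agent.Density.Crossing
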