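import Mathlib
import Fermat.Agent.Density.CrossStep
import Fermat.Agent.Density.PushStep
import Fermat.Agent.Density.CountStep

/-!
# Chebotarev's density theorem over `ℚ` (finite level), from `CycloPrimeDensity`
-/

set_option autoImplicit false

open NumberField IsDedekindDomain Filter Topology

namespace Fermat.Agent.Density.Crossing

open Fermat.Agent.DedekindEuler Fermat.Agent.FrobDensity
open scoped Pointwise

universe u

variable (K : Type u) [Field K] [NumberField K] [IsGalois ℚ K]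

/-- the weighted sum over the primes with Frobenius in `X`, divided by `log (1/(s-1))`. -/
noncomputable def dens (B : Finset ℕ) (X : Set (K ≃ₐ[ℚ] K)) (s : ℝ) : ℝ :=
  (∑' P : HeightOneSpectrum (𝓞 K), (frobSet B X).indicator (w s) P) / Real.log (1 / (s - 1))

variable {K}

theorem dens_finset {B : Finset ℕ} (hB : BadFor K B) {s : ℝ} (hs : 1 < s)
    (X : Finset (K ≃ₐ[ℚ] K)) :
    dens K B (X : Set (K ≃ₐ[ℚ] K)) s = ∑ g ∈ X, dens K B {g} s := by
  unfold dens
  rw [tsum_frobSet_finset hB hs, Finset.sum_div]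

theorem eventually_log_pos : ∀ᶠ s : ℝ in 𝓝[>] 1, 0 < Real.log (1 / (s - 1)) :=
  tendsto_log_atTop.eventually_gt_atTop 0

open Classical in
/-- the elements of `Gal(M/ℚ)` restricting to `g`, acting on `ζ` through an element of order
divisible by `n`. -/
noncomputable def goodLifts {M : Type u} [Field M] [NumberField M] [Algebra K M] {r : ℕ} [NeZero r]
    {ζ : M} (hζ : IsPrimitiveRoot ζ r) (g : K ≃ₐ[ℚ] K) : Finset (M ≃ₐ[ℚ] M) :=
  Finset.univ.filter fun γ ↦ AlgEquiv.restrictNormal γ K = g ∧ orderOf g ∣ orderOf (hζ.autToPow ℚ γ)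

theorem goodLifts_spec {M : Type u} [Field M] [NumberField M] [Algebra K M] {r : ℕ} [NeZero r]
    [IsCyclotomicExtension {r} K M]
    {ζ : M} (hζ : IsPrimitiveRoot ζ r) (g : K ≃ₐ[ℚ] K) {γ : M ≃ₐ[ℚ] M} (hγ : γ ∈ goodLifts hζ g)
    (k : ℕ) (hk : (γ ^ k) ζ = ζ) : γ ^ k = 1 := by
  classical
  unfold goodLifts at hγ
  rw [Finset.mem_filter] at hγ
  obtain ⟨-, h1, h2⟩ := hγ
  apply pairHom_injective K hζ
  rw [map_one]
  have h3 : hζ.autToPow ℚ (γ ^ k) = 1 := by
    have h4 := hζ.autToPow_spec ℚ (γ ^ k)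
    rw [hk] at h4
    rcases Nat.lt_or_ge 1 r with h | h
    · have h6 := hζ.pow_inj (ZMod.val_lt _) h (h4.trans (pow_one ζ).symm)
      apply Units.ext
      have : Fact (1 < r) := ⟨h⟩
      apply ZMod.val_injective
      rw [h6, Units.val_one, ZMod.val_one]
    · have hr1 : r = 1 := by
        have := NeZero.pos r
        omega
      subst hr1
      exact Subsingleton.elim _ _
  rw [map_pow] at h3
  have h4 : orderOf g ∣ k := h2.trans (orderOf_dvd_of_pow_eq_one h3)
  have h5 : g ^ k = 1 := orderOf_dvd_iff_pow_eq_one.mp h4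
  refine Prod.ext ?_ ?_
  · change AlgEquiv.restrictNormalHom K (γ ^ k) = 1
    rw [map_pow]
    change (AlgEquiv.restrictNormal γ K) ^ k = 1
    rw [h1, h5]
  · change hζ.autToPow ℚ (γ ^ k) = 1
    rw [map_pow]
    exact h3

open Classical in
theorem card_goodLifts_ge {M : Type u} [Field M] [NumberField M] [Algebra K M] [IsGalois ℚ M]
    {r : ℕ} [NeZero r]
    [IsCyclotomicExtension {r} K M] (hr : r.Prime) (hd : ¬ (r : ℤ) ∣ discr K)
    {ζ : M} (hζ : IsPrimitiveRoot ζ r) (g : K ≃ₐ[ℚ] K) :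
    (Finset.univ.filter fun a : (ZMod r)ˣ ↦ orderOf g ∣ orderOf a).card ≤ (goodLifts hζ g).card := by
  let e := Equiv.ofBijective _ (pairHom_bijective K hr hd hζ)
  refine Finset.card_le_card_of_injOn (fun a ↦ e.symm (g, a)) ?_ ?_
  · intro a ha
    rw [Finset.mem_coe, Finset.mem_filter] at ha
    rw [Finset.mem_coe]
    unfold goodLifts
    rw [Finset.mem_filter]
    have h1 : pairHom K hζ (e.symm (g, a)) = (g, a) := e.apply_symm_apply (g, a)
    refine ⟨Finset.mem_univ _, congrArg Prod.fst h1, ?_⟩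
    have h2 : hζ.autToPow ℚ (e.symm (g, a)) = a := congrArg Prod.snd h1
    rw [h2]
    exact ha.2
  · intro a _ b _ hab
    have h1 := e.symm.injective hab
    exact congrArg Prod.snd h1

/-- lower bound for the density of `{P | frob P = g}`. -/
theorem eventually_lt_dens (hA2 : CycloPrimeDensity.{u}) {B : Finset ℕ} (hB : BadFor K B)
    (g : K ≃ₐ[ℚ] K) {a : ℝ} (ha : a < 1) : ∀ᶠ s : ℝ in 𝓝[>] 1, a < dens K B {g} s := by
  classical
  set n := orderOf g with hn
  have hnpos : 0 < n := orderOf_pos g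
  -- choose `k`
  obtain ⟨k, hk⟩ : ∃ k : ℕ, (n : ℝ) / 2 ^ (k + 1) < 1 - a := by
    have h1 : Tendsto (fun k : ℕ ↦ (n : ℝ) * ((1 / 2 : ℝ) ^ (k + 1))) atTop (𝓝 ((n : ℝ) * 0)) := by
      refine Tendsto.const_mul _ ?_
      exact (tendsto_pow_atTop_nhds_zero_of_lt_one (by norm_num) (by norm_num)).comp
        (tendsto_add_atTop_nat 1)
    rw [mul_zero] at h1
    obtain ⟨k, hk⟩ := (h1.eventually_lt_const (show (0 : ℝ) < 1 - a by linarith)).exists
    refine ⟨k, ?_⟩
    calc (n : ℝ) / 2 ^ (k + 1) = (n : ℝ) * ((1 / 2 : ℝ) ^ (k + 1)) := by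
          rw [one_div, inv_pow, div_eq_mul_inv]
      _ < 1 - a := hk
  -- choose `r`
  obtain ⟨r, hr, hrgt, hrmod⟩ := Nat.exists_prime_gt_modEq_one (k := n ^ (k + 1)) (discr K).natAbs
    (pow_ne_zero _ hnpos.ne')
  have hne : NeZero r := ⟨hr.ne_zero⟩
  have hd : ¬ (r : ℤ) ∣ discr K := by
    intro h
    have h1 := Int.natCast_dvd.mp h
    have h2 : 0 < (discr K).natAbs := Int.natAbs_pos.mpr (discr_ne_zero K)
    exact absurd (Nat.le_of_dvd h2 h1) (by omega)
  have hdvd : n ^ (k + 1) ∣ r - 1 := (Nat.modEq_iff_dvd' hr.one_lt.le).mp hrmod.symm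
  -- the field `M = K(ζ_r)`
  let M := CyclotomicField r K
  have hNF : NumberField M := IsCyclotomicExtension.numberField {r} K M
  have hGal : IsGalois ℚ M := isGalois_of_cyclotomic K M r
  have hζ := IsCyclotomicExtension.zeta_spec r K M
  set ζ := IsCyclotomicExtension.zeta r K M
  obtain ⟨B', hBB', hB'⟩ := exists_bad M (insert r B)
  have hBM : BadFor M B' := hB'
  have hBK : BadFor K B' := hB.mono ((Finset.subset_insert r B).trans hBB')
  have hrB : ∀ p : ℕ, p.Prime → p ∣ r → p ∈ B' := by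
    intro p hp hpr
    rw [(Nat.prime_dvd_prime_iff_eq hp hr).mp hpr]
    exact hBB' (Finset.mem_insert_self r B)
  have hfin : Module.finrank K M = r - 1 := finrank_eq_of_not_dvd_discr K M hr hd
  -- the sum over good lifts
  set X := goodLifts hζ g with hX
  have hlim : Tendsto (fun s ↦ dens M B' (X : Set (M ≃ₐ[ℚ] M)) s) (𝓝[>] 1) (𝓝 (X.card : ℝ)) := by
    have h1 : Tendsto (fun s ↦ ∑ γ ∈ X, dens M B' {γ} s) (𝓝[>] 1) (𝓝 (∑ γ ∈ X, (1 : ℝ))) := by
      refine tendsto_finsetSum _ fun γ hγ ↦ ?_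
      exact tendsto_singleton γ hA2 hζ (fun k hk ↦ goodLifts_spec hζ g hγ k hk) hBM hrB
    rw [Finset.sum_const, nsmul_eq_mul, mul_one] at h1
    refine h1.congr' ?_
    filter_upwards [self_mem_nhdsWithin] with s hs
    exact (dens_finset hBM hs X).symm
  have hfinpos : (0 : ℝ) < (Module.finrank K M : ℝ) := by exact_mod_cast Module.finrank_pos
  have hXcard : a * (Module.finrank K M : ℝ) < (X.card : ℝ) := by
    have hcyc : Fact r.Prime := ⟨hr⟩
    have h1 := card_goodLifts_ge hr hd hζ g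
    have hcardU : Fintype.card (ZMod r)ˣ = r - 1 := by
      rw [ZMod.card_units_eq_totient, Nat.totient_prime hr]
    have h2 := card_not_dvd_orderOf_le (H := (ZMod r)ˣ) (n := n) (k := k + 1) hnpos (Nat.succ_pos k)
      (by rw [hcardU]; exact hdvd)
    rw [hcardU] at h2
    have h3 := Finset.card_filter_add_card_filter_not (s := (Finset.univ : Finset (ZMod r)ˣ))
      (fun a ↦ n ∣ orderOf a)
    rw [Finset.card_univ, hcardU] at h3
    rw [hfin]
    have hr1 : (0 : ℝ) < ((r - 1 : ℕ) : ℝ) := by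
      rw [hfin] at hfinpos
      exact hfinpos
    have h4 : ((Finset.univ.filter fun a : (ZMod r)ˣ ↦ n ∣ orderOf a).card : ℝ) +
      ((Finset.univ.filter fun a : (ZMod r)ˣ ↦ ¬ n ∣ orderOf a).card : ℝ) = ((r - 1 : ℕ) : ℝ) := by
      exact_mod_cast h3
    have h5 : ((Finset.univ.filter fun a : (ZMod r)ˣ ↦ ¬ n ∣ orderOf a).card : ℝ) * 2 ^ (k + 1) ≤
        (n : ℝ) * ((r - 1 : ℕ) : ℝ) := by
      exact_mod_cast h2
    have h6 : ((Finset.univ.filter fun a : (ZMod r)ˣ ↦ ¬ n ∣ orderOf a).card : ℝ) ≤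
        (n : ℝ) / 2 ^ (k + 1) * ((r - 1 : ℕ) : ℝ) := by
      rw [div_mul_eq_mul_div, le_div_iff₀ (by positivity)]
      exact h5
    have h7 : ((Finset.univ.filter fun a : (ZMod r)ˣ ↦ n ∣ orderOf a).card : ℝ) ≤ (X.card : ℝ) := by
      exact_mod_cast h1
    have h8 : (n : ℝ) / 2 ^ (k + 1) * ((r - 1 : ℕ) : ℝ) < (1 - a) * ((r - 1 : ℕ) : ℝ) :=
      mul_lt_mul_of_pos_right hk hr1
    linarith
  have hev := hlim.eventually_const_lt hXcard
  filter_upwards [hev, self_mem_nhdsWithin, eventually_log_pos] with s hs hs1 hlog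
  have hs1' : (1 : ℝ) < s := hs1
  have h1 : dens M B' (X : Set (M ≃ₐ[ℚ] M)) s ≤
      (Module.finrank K M : ℝ) * dens K B' {g} s := by
    unfold dens
    rw [← mul_div_assoc, ← tsum_push K hBM hBK hs1' {g}]
    refine div_le_div_of_nonneg_right ?_ hlog.le
    refine tsum_frobSet_mono hBM hs1' ?_
    intro γ hγ
    have hγ' : γ ∈ goodLifts hζ g := hγ
    unfold goodLifts at hγ'
    rw [Finset.mem_filter] at hγ'
    exact hγ'.2.1
  have h2 : dens K B' {g} s ≤ dens K B {g} s := by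
    unfold dens
    refine div_le_div_of_nonneg_right ?_ hlog.le
    refine (summable_frobSet hBK hs1' {g}).tsum_le_tsum (fun P ↦ ?_) (summable_frobSet hB hs1' {g})
    refine Set.indicator_le_indicator_of_subset ?_ (fun P ↦ w_nonneg s P) P
    intro P hP
    exact ⟨fun h ↦ hP.1 (hBB' (Finset.mem_insert_of_mem h)), hP.2⟩
  have h3 : a * (Module.finrank K M : ℝ) < (Module.finrank K M : ℝ) * dens K B' {g} s :=
    hs.trans_le h1
  rw [mul_comm] at h3
  exact (lt_of_mul_lt_mul_left h3 hfinpos.le).trans_le h2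

theorem tendsto_dens_univ {B : Finset ℕ} (hB : BadFor K B) :
    Tendsto (fun s ↦ dens K B Set.univ s) (𝓝[>] 1) (𝓝 (Fintype.card (K ≃ₐ[ℚ] K) : ℝ)) := by
  have h1 := tendsto_frobSet_subgroup K hB (⊤ : Subgroup (K ≃ₐ[ℚ] K))
  rw [Subgroup.card_top, Nat.card_eq_fintype_card] at h1
  exact h1

/-- **Chebotarev's density theorem** over `ℚ`, finite level: the primes `P` of `K` with
`frob P = g` have weighted density `1`. -/
theorem tendsto_dens_singleton (hA2 : CycloPrimeDensity.{u}) {B : Finset ℕ} (hB : BadFor K B)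
    (g : K ≃ₐ[ℚ] K) : Tendsto (fun s ↦ dens K B {g} s) (𝓝[>] 1) (𝓝 1) := by
  classical
  refine tendsto_order.2 ⟨fun a ha ↦ eventually_lt_dens hA2 hB g ha, fun a ha ↦ ?_⟩
  set N : ℝ := (Fintype.card (K ≃ₐ[ℚ] K) : ℝ) with hN
  have hNpos : 0 < N := by
    rw [hN]
    exact_mod_cast Fintype.card_pos
  set ε : ℝ := (a - 1) / N with hε
  have hεpos : 0 < ε := div_pos (by linarith) hNpos
  have h1 : ∀ᶠ s : ℝ in 𝓝[>] 1, ∀ h ∈ (Finset.univ : Finset (K ≃ₐ[ℚ] K)), 1 - ε < dens K B {h} s :=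
    (Filter.eventually_all_finset _).mpr fun h _ ↦
      eventually_lt_dens hA2 hB h (by linarith)
  have h2 : ∀ᶠ s : ℝ in 𝓝[>] 1, dens K B Set.univ s < N + ε :=
    (tendsto_dens_univ hB).eventually_lt_const (by linarith)
  filter_upwards [h1, h2, self_mem_nhdsWithin] with s hs1 hs2 hs
  have h3 := dens_finset hB hs (Finset.univ : Finset (K ≃ₐ[ℚ] K))
  rw [Finset.coe_univ] at h3
  rw [h3, ← Finset.add_sum_erase _ _ (Finset.mem_univ g)] at hs2
  have h4 : ∑ h ∈ Finset.univ.erase g, (1 - ε) ≤ ∑ h ∈ Finset.univ.erase g, dens K B {h} s :=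
    Finset.sum_le_sum fun h _ ↦ (hs1 h (Finset.mem_univ h)).le
  rw [Finset.sum_const, nsmul_eq_mul, Finset.card_erase_of_mem (Finset.mem_univ g),
    Finset.card_univ, Nat.cast_sub Fintype.card_pos, Nat.cast_one] at h4
  have h5 : (N - 1) * (1 - ε) = N - 1 - N * ε + ε := by ring
  have h6 : N * ε = a - 1 := by
    rw [hε]
    field_simp
  have h7 : N - 1 - N * ε + ε ≤ ∑ h ∈ Finset.univ.erase g, dens K B {h} s := by
    rw [← h5]
    exact h4
  linarith

/-- density of a finite set of Galois elements -/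
theorem tendsto_dens_finset (hA2 : CycloPrimeDensity.{u}) {B : Finset ℕ} (hB : BadFor K B)
    (X : Finset (K ≃ₐ[ℚ] K)) :
    Tendsto (fun s ↦ dens K B (X : Set (K ≃ₐ[ℚ] K)) s) (𝓝[>] 1) (𝓝 (X.card : ℝ)) := by
  have h1 : Tendsto (fun s ↦ ∑ γ ∈ X, dens K B {γ} s) (𝓝[>] 1) (𝓝 (∑ γ ∈ X, (1 : ℝ))) :=
    tendsto_finsetSum _ fun γ _ ↦ tendsto_dens_singleton hA2 hB γ
  rw [Finset.sum_const, nsmul_eq_mul, mul_one] at h1
  refine h1.congr' ?_
  filter_upwards [self_mem_nhdsWithin] with s hs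
  exact (dens_finset hB hs X).symm

variable (K) in
/-- **Chebotarev's theorem**, existence form at finite level. -/
theorem exists_frob_eq (hA2 : CycloPrimeDensity.{u}) (S : Finset ℕ) (g : K ≃ₐ[ℚ] K) :
    ∃ P : HeightOneSpectrum (𝓞 K), below P ∉ S ∧
      (∀ σ : K ≃ₐ[ℚ] K, σ ∈ P.asIdeal.inertia (K ≃ₐ[ℚ] K) → σ = 1) ∧ frob P = g := by
  obtain ⟨B, hSB, hB⟩ := exists_bad K S
  have h1 := eventually_lt_dens (B := B) hA2 hB g (show (0 : ℝ) < 1 by norm_num)
  obtain ⟨s, hs⟩ := h1.exists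
  have h4 : ∃ P : HeightOneSpectrum (𝓞 K), (frobSet B {g}).indicator (w s) P ≠ 0 := by
    by_contra hc
    push Not at hc
    unfold dens at hs
    rw [tsum_congr hc, tsum_zero, zero_div] at hs
    exact lt_irrefl _ hs
  obtain ⟨P, hP⟩ := h4
  have hP' : P ∈ frobSet B {g} := Set.mem_of_indicator_ne_zero hP
  exact ⟨P, fun h ↦ hP'.1 (hSB h), hB P hP'.1, hP'.2⟩

end Fermat.Agent.Density.Crossing
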