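import Mathlib
import Fermat.Agent.Density.ChebotarevNF
import Fermat.Agent.FrobPlaceLift

/-!
# Chebotarev's density theorem over `ℚ` in the language of places of `ℚ̄`
(conditional on `CycloPrimeDensity`, the cyclotomic case).
-/

set_option autoImplicit false

open NumberField IsDedekindDomain Filter Topology

namespace Fermat.Agent.Density.Chebotarev

open Fermat.Agent.DedekindEuler Fermat.Agent.FrobDensity Fermat.Agent.FrobPlaceLift
open Fermat.Agent.Density.Crossing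
open scoped Pointwise

local notation "ℚbar" => AlgebraicClosure ℚ
local notation "Γℚ" => AlgebraicClosure ℚ ≃ₐ[ℚ] AlgebraicClosure ℚ

/-- **Chebotarev's theorem**, existence form, Galois case. -/
theorem exists_frobenius_restrictNormal_eq (hA2 : CycloPrimeDensity.{0})
    (L : IntermediateField ℚ ℚbar) [FiniteDimensional ℚ L] [IsGalois ℚ L]
    (S : Finset ℕ) (g : L ≃ₐ[ℚ] L) :
    ∃ ℓ : ℕ, ℓ.Prime ∧ ℓ ∉ S ∧ ∃ (A : ValuationSubring ℚbar) (σ : Γℚ),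
      A.LiesOverPrime ℓ ∧ A.IsFrobeniusAt σ ℓ ∧ AlgEquiv.restrictNormal σ L = g := by
  have : NumberField L := { to_charZero := inferInstance, to_finiteDimensional := inferInstance }
  obtain ⟨P, hPS, hunr, hP⟩ := exists_frob_eq L hA2 S g
  have hPp := P.isPrime
  have hmem : ((below P : ℕ) : 𝓞 L) ∈ P.asIdeal := (natCast_mem_iff P _).mpr dvd_rfl
  obtain ⟨A, σ, hA, hσ, hσL⟩ := exists_place_frobenius_of_isArithFrobAt L (below P) (below_prime P)
    P.asIdeal hmem hunr (frob P) (isArithFrobAt_frob P)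
  exact ⟨below P, below_prime P, hPS, A, σ, hA, hσ, by rw [hσL, hP]⟩

/-- **Chebotarev's theorem**, existence form: for a finite extension `L / ℚ` inside `ℚ̄`,
`g ∈ Gal(ℚ̄/ℚ)` and a finite set `S`, there are a prime `ℓ ∉ S`, a place `A` of `ℚ̄` above `ℓ`, a
Frobenius `σ` at `A` with `σ = g` on `L`. -/
theorem exists_frobenius_eq (hA2 : CycloPrimeDensity.{0})
    (L : IntermediateField ℚ ℚbar) [FiniteDimensional ℚ L] (S : Finset ℕ) (g : Γℚ) :
    ∃ ℓ : ℕ, ℓ.Prime ∧ ℓ ∉ S ∧ ∃ (A : ValuationSubring ℚbar) (σ : Γℚ),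
      A.LiesOverPrime ℓ ∧ A.IsFrobeniusAt σ ℓ ∧ ∀ x ∈ L, σ x = g x := by
  let L' : IntermediateField ℚ ℚbar := IntermediateField.normalClosure ℚ L ℚbar
  have : FiniteDimensional ℚ L' := normalClosure.is_finiteDimensional ℚ L ℚbar
  have : Normal ℚ L' := normalClosure.normal ℚ L ℚbar
  have : IsGalois ℚ L' := ⟨⟩
  obtain ⟨ℓ, hℓ, hℓS, A, σ, hA, hσ, hz⟩ :=
    exists_frobenius_restrictNormal_eq hA2 L' S (AlgEquiv.restrictNormal g L')
  have hle : L ≤ L' := IntermediateField.le_normalClosure L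
  refine ⟨ℓ, hℓ, hℓS, A, σ, hA, hσ, fun x hx ↦ ?_⟩
  have h1 := AlgEquiv.restrictNormal_commutes σ L' ⟨x, hle hx⟩
  have h2 := AlgEquiv.restrictNormal_commutes g L' ⟨x, hle hx⟩
  rw [hz] at h1
  exact h1.symm.trans h2

/-- The Frobenius elements outside `S`. -/
def frobElements (S : Finset ℕ) : Set Γℚ :=
  {σ | ∃ ℓ : ℕ, ℓ.Prime ∧ ℓ ∉ S ∧ ∃ A : ValuationSubring ℚbar,
    A.LiesOverPrime ℓ ∧ A.IsFrobeniusAt σ ℓ}

/-- The Frobenius elements are dense in `Gal(ℚ̄/ℚ)`. -/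
theorem dense_frobElements (hA2 : CycloPrimeDensity.{0}) (S : Finset ℕ) :
    Dense (frobElements S) := by
  intro g
  rw [mem_closure_iff_nhds]
  intro U hU
  have hU' : (fun h : Γℚ ↦ g * h) ⁻¹' U ∈ nhds (1 : Γℚ) := by
    apply (continuous_const_mul g).continuousAt.preimage_mem_nhds
    rwa [mul_one]
  obtain ⟨L, hL, hLU⟩ := (krullTopology_mem_nhds_one_iff ℚ ℚbar _).mp hU'
  obtain ⟨ℓ, hℓ, hℓS, A, σ, hA, hσ, hk⟩ := exists_frobenius_eq hA2 L S g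
  refine ⟨σ, ?_, ⟨ℓ, hℓ, hℓS, A, hA, hσ⟩⟩
  have h1 : g⁻¹ * σ ∈ L.fixingSubgroup := by
    rw [IntermediateField.mem_fixingSubgroup_iff]
    intro x hx
    have h2 := hk x hx
    rw [AlgEquiv.mul_apply, h2]
    exact g.symm_apply_apply x
  have h3 := hLU h1
  simpa using h3

/-- Induction principle: a closed predicate which holds at all Frobenius elements
outside a finite set holds everywhere. -/
theorem forall_of_frob (hA2 : CycloPrimeDensity.{0}) {p : Γℚ → Prop} (hclosed : IsClosed {g | p g})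
    (S : Finset ℕ)
    (h : ∀ ℓ : ℕ, ℓ.Prime → ℓ ∉ S → ∀ (A : ValuationSubring ℚbar) (σ : Γℚ),
      A.LiesOverPrime ℓ → A.IsFrobeniusAt σ ℓ → p σ) (g : Γℚ) : p g := by
  have h1 : frobElements S ⊆ {g | p g} := by
    rintro σ ⟨ℓ, hℓ, hℓS, A, hA, hσ⟩
    exact h ℓ hℓ hℓS A σ hA hσ
  have h2 := (dense_frobElements hA2 S).mono h1
  have h3 : {g | p g} = Set.univ := hclosed.closure_eq ▸ h2.closure_eq
  have h4 : g ∈ {g | p g} := h3 ▸ Set.mem_univ g
  exact h4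

/-! ### density of rational primes -/

section Density

universe u

variable {K : Type u} [Field K] [NumberField K] [IsGalois ℚ K]

theorem tsum_below_fiber {B : Finset ℕ} (hB : BadFor K B) (s : ℝ) {ℓ : ℕ} (hℓ : ℓ.Prime)
    (hℓB : ℓ ∉ B) :
    ∑' P : {P : HeightOneSpectrum (𝓞 K) // below P = ℓ}, w s P.1 =
      (Nat.card (K ≃ₐ[ℚ] K) : ℝ) * (ℓ : ℝ) ^ (-s) := by
  classical
  have hvm : (Ideal.span {(ℓ : ℤ)}).IsMaximal :=
    PrincipalIdealRing.isMaximal_of_irreducible (Nat.prime_iff_prime_int.mp hℓ).irreducible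
  have hvp : (Ideal.span {(ℓ : ℤ)}).IsPrime := hvm.isPrime
  have hv0 : (Ideal.span {(ℓ : ℤ)}) ≠ ⊥ := by
    rw [Ne, Ideal.span_singleton_eq_bot]
    exact_mod_cast hℓ.ne_zero
  obtain ⟨⟨Q, hQ, hQv⟩⟩ : Nonempty ((Ideal.span {(ℓ : ℤ)}).primesOver (𝓞 K)) := inferInstance
  have hQne : Q ≠ ⊥ := Ideal.ne_bot_of_mem_primesOver hv0 ⟨hQ, hQv⟩
  have hlies : ∀ P : {P : HeightOneSpectrum (𝓞 K) // below P = ℓ},
      P.1.asIdeal.LiesOver (Ideal.span {(ℓ : ℤ)}) := by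
    rintro ⟨P, rfl⟩
    exact Int.liesOver_span_absNorm P.asIdeal
  have hbelow : ∀ P : HeightOneSpectrum (𝓞 K), P.asIdeal.LiesOver (Ideal.span {(ℓ : ℤ)}) →
      below P = ℓ := by
    intro P hP
    rw [below_eq_iff P hℓ]
    have h1 : (ℓ : ℤ) ∈ P.asIdeal.under ℤ := by
      rw [← hP.over]
      exact Ideal.mem_span_singleton_self _
    have h2 : algebraMap ℤ (𝓞 K) (ℓ : ℤ) ∈ P.asIdeal := h1
    simpa using h2
  let P₀ : HeightOneSpectrum (𝓞 K) := ⟨Q, hQ, hQne⟩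
  have hP₀ : below P₀ = ℓ := hbelow P₀ hQv
  have hfP : ∀ P : {P : HeightOneSpectrum (𝓞 K) // below P = ℓ},
      P.1.asIdeal.inertiaDeg ℤ = Q.inertiaDeg ℤ := fun P ↦ by
    have h2 := hlies P
    have := P.1.isPrime
    exact Ideal.inertiaDeg_eq_of_isGaloisGroup (Ideal.span {(ℓ : ℤ)}) _ _ (K ≃ₐ[ℚ] K)
  have hconst : ∀ P : {P : HeightOneSpectrum (𝓞 K) // below P = ℓ},
      w s P.1 = (Q.inertiaDeg ℤ : ℝ) * (ℓ : ℝ) ^ (-s) := fun P ↦ by
    unfold w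
    rw [hfP, P.2]
  rw [tsum_congr hconst]
  have hcard : Nat.card {P : HeightOneSpectrum (𝓞 K) // below P = ℓ} =
      ((Ideal.span {(ℓ : ℤ)}).primesOver (𝓞 K)).ncard := by
    rw [← Nat.card_coe_set_eq]
    refine Nat.card_congr ⟨fun P ↦ ⟨P.1.asIdeal, P.1.isPrime, hlies P⟩,
      fun P ↦ ⟨⟨P.1, P.2.1, Ideal.ne_bot_of_mem_primesOver hv0 P.2⟩,
        hbelow _ P.2.2⟩,
      fun P ↦ rfl, fun P ↦ rfl⟩
  rw [tsum_const, nsmul_eq_mul, ← mul_assoc, hcard]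
  congr 1
  have hPF : PerfectField (Ideal.span {(ℓ : ℤ)}).ResidueField := by
    have : Finite (ℤ ⧸ (Ideal.span {(ℓ : ℤ)})) := Ideal.finiteQuotientOfFreeOfNeBot _ hv0
    have hs : Function.Surjective (algebraMap (ℤ ⧸ (Ideal.span {(ℓ : ℤ)}))
        (Ideal.span {(ℓ : ℤ)}).ResidueField) :=
      (Ideal.bijective_algebraMap_quotient_residueField _).2
    have : Finite (Ideal.span {(ℓ : ℤ)}).ResidueField := Finite.of_surjective _ hs
    infer_instance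
  have key := Ideal.ncard_primesOver_mul_card_inertia_mul_finrank (G := (K ≃ₐ[ℚ] K))
    (Ideal.span {(ℓ : ℤ)}) Q
  have hin : Nat.card (Q.inertia (K ≃ₐ[ℚ] K)) = 1 := by
    rw [Nat.card_eq_one_iff_unique]
    refine ⟨⟨fun a b ↦ ?_⟩, ⟨1⟩⟩
    have hP₀B : below P₀ ∉ B := by
      rw [hP₀]
      exact hℓB
    apply Subtype.ext
    rw [hB P₀ hP₀B a.1 a.2, hB P₀ hP₀B b.1 b.2]
  rw [hin, mul_one] at key
  exact_mod_cast key

/-- conjugation of primes conjugates Frobenius -/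
theorem frob_mem_iff_of_below_eq {B : Finset ℕ} (hB : BadFor K B) {X : Set (K ≃ₐ[ℚ] K)}
    (hX : ∀ g h : K ≃ₐ[ℚ] K, g ∈ X → h * g * h⁻¹ ∈ X)
    {P Q : HeightOneSpectrum (𝓞 K)} (hPQ : below P = below Q) (hP : below P ∉ B)
    (h : frob P ∈ X) : frob Q ∈ X := by
  have hPp := P.isPrime
  have hQp := Q.isPrime
  have hu : P.asIdeal.under ℤ = Q.asIdeal.under ℤ := by
    have h1 := (Int.liesOver_span_absNorm P.asIdeal).over
    have h2 := (Int.liesOver_span_absNorm Q.asIdeal).over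
    rw [← h1, ← h2]
    have h3 : Ideal.absNorm (P.asIdeal.under ℤ) = Ideal.absNorm (Q.asIdeal.under ℤ) := hPQ
    rw [h3]
  obtain ⟨τ, hτ⟩ := Algebra.IsInvariant.exists_smul_of_under_eq ℤ (𝓞 K) (K ≃ₐ[ℚ] K)
    P.asIdeal Q.asIdeal hu
  have h1 : IsArithFrobAt ℤ (τ * frob P * τ⁻¹) Q.asIdeal := by
    intro y
    have h2 := isArithFrobAt_frob P (τ⁻¹ • y)
    rw [card_quot_under] at h2 ⊢
    rw [← hPQ, hτ, Ideal.mem_pointwise_smul_iff_inv_smul_mem]
    have h3 : τ⁻¹ • ((MulSemiringAction.toAlgHom ℤ (𝓞 K) (τ * frob P * τ⁻¹)) y - y ^ below P) =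
      (MulSemiringAction.toAlgHom ℤ (𝓞 K) (frob P)) (τ⁻¹ • y) - (τ⁻¹ • y) ^ below P := by
      rw [smul_sub, smul_pow']
      congr 1
      change τ⁻¹ • ((τ * frob P * τ⁻¹) • y) = frob P • (τ⁻¹ • y)
      rw [smul_smul, smul_smul]
      congr 1
      group
    rw [h3]
    exact h2
  have h2 := eq_frob hB (by rwa [← hPQ]) h1
  rw [← h2]
  exact hX _ _ h

variable (K) in
/-- rational primes outside `B` whose Frobenius lies in `X` -/
def primesFrobIn (B : Finset ℕ) (X : Set (K ≃ₐ[ℚ] K)) : Set ℕ :=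
  {ℓ | ∃ P : HeightOneSpectrum (𝓞 K), below P = ℓ ∧ P ∈ frobSet B X}

theorem tsum_primes {B : Finset ℕ} (hB : BadFor K B) {X : Set (K ≃ₐ[ℚ] K)}
    (hX : ∀ g h : K ≃ₐ[ℚ] K, g ∈ X → h * g * h⁻¹ ∈ X) {s : ℝ} (hs : 1 < s) :
    ∑' P : HeightOneSpectrum (𝓞 K), (frobSet B X).indicator (w s) P =
      (Nat.card (K ≃ₐ[ℚ] K) : ℝ) *
        ∑' ℓ : ℕ, (primesFrobIn K B X).indicator (fun ℓ : ℕ ↦ (ℓ : ℝ) ^ (-s)) ℓ := by
  classical
  let e := Equiv.sigmaFiberEquiv (fun P : HeightOneSpectrum (𝓞 K) ↦ below P)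
  let f : HeightOneSpectrum (𝓞 K) → ℝ := fun P ↦ (frobSet B X).indicator (w s) P
  have hsumm : Summable f := summable_frobSet hB hs X
  have hsum : ∀ ℓ : ℕ, ∑' P : {P : HeightOneSpectrum (𝓞 K) // below P = ℓ}, f P.1 =
      (Nat.card (K ≃ₐ[ℚ] K) : ℝ) *
        (primesFrobIn K B X).indicator (fun ℓ : ℕ ↦ (ℓ : ℝ) ^ (-s)) ℓ := by
    intro ℓ
    by_cases hℓ : ℓ ∈ primesFrobIn K B X
    · rw [Set.indicator_of_mem hℓ]
      obtain ⟨P₀, hP₀, hP₀'⟩ := hℓ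
      have hℓp : ℓ.Prime := hP₀ ▸ below_prime P₀
      have hℓB : ℓ ∉ B := hP₀ ▸ hP₀'.1
      rw [← tsum_below_fiber hB s hℓp hℓB]
      refine tsum_congr fun P ↦ ?_
      have h3 : P.1 ∈ frobSet B X :=
        ⟨by rw [P.2]; exact hℓB,
          frob_mem_iff_of_below_eq hB hX (hP₀.trans P.2.symm) hP₀'.1 hP₀'.2⟩
      exact Set.indicator_of_mem h3 _
    · rw [Set.indicator_of_notMem hℓ, mul_zero]
      have h2 : ∀ P : {P : HeightOneSpectrum (𝓞 K) // below P = ℓ}, f P.1 = 0 := by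
        intro P
        have h3 : P.1 ∉ frobSet B X := fun h ↦ hℓ ⟨P.1, P.2, h⟩
        exact Set.indicator_of_notMem h3 _
      rw [tsum_congr h2, tsum_zero]
  change ∑' P, f P = _
  rw [← Equiv.tsum_eq e]
  have hS : Summable (f ∘ e) := (Equiv.summable_iff e).mpr hsumm
  change ∑' c, (f ∘ e) c = _
  have hS' : ∀ ℓ : ℕ, Summable fun c : {P : HeightOneSpectrum (𝓞 K) // below P = ℓ} ↦
      (f ∘ e) ⟨ℓ, c⟩ := fun ℓ ↦ hS.sigma_factor ℓ
  rw [hS.tsum_sigma' hS', ← tsum_mul_left]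
  exact tsum_congr fun v ↦ hsum v

open Classical in
/-- **Chebotarev density theorem** (Dirichlet density), for good primes. -/
theorem tendsto_primesFrobIn (hA2 : CycloPrimeDensity.{u}) {B : Finset ℕ} (hB : BadFor K B)
    {X : Set (K ≃ₐ[ℚ] K)}
    (hX : ∀ g h : K ≃ₐ[ℚ] K, g ∈ X → h * g * h⁻¹ ∈ X) :
    Tendsto (fun s : ℝ ↦ (∑' ℓ : ℕ, (primesFrobIn K B X).indicator (fun ℓ : ℕ ↦ (ℓ : ℝ) ^ (-s)) ℓ) /
      Real.log (1 / (s - 1))) (𝓝[>] 1)
      (𝓝 ((Nat.card X : ℝ) / (Nat.card (K ≃ₐ[ℚ] K) : ℝ))) := by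
  have h1 := tendsto_dens_finset hA2 hB X.toFinset
  rw [Set.coe_toFinset, Set.toFinset_card, ← Nat.card_eq_fintype_card] at h1
  have hpos : (0 : ℝ) < (Nat.card (K ≃ₐ[ℚ] K) : ℝ) := by exact_mod_cast Nat.card_pos
  refine (h1.div_const (Nat.card (K ≃ₐ[ℚ] K) : ℝ)).congr' ?_
  filter_upwards [self_mem_nhdsWithin] with s hs
  unfold dens
  rw [tsum_primes hB hX hs]
  field_simp

end Density

section Places

/-- The set of primes `ℓ ∉ S` such that some Frobenius at some place over `ℓ` restricts to an element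
of `X`. -/
def placePrimes (S : Finset ℕ) (L : IntermediateField ℚ ℚbar) [Normal ℚ L]
    (X : Set (L ≃ₐ[ℚ] L)) : Set ℕ :=
  {ℓ | ℓ.Prime ∧ ℓ ∉ S ∧ ∃ (A : ValuationSubring ℚbar) (σ : Γℚ),
      A.LiesOverPrime ℓ ∧ A.IsFrobeniusAt σ ℓ ∧ AlgEquiv.restrictNormal σ L ∈ X}

theorem mem_placePrimes_iff {S : Finset ℕ} (L : IntermediateField ℚ ℚbar) [FiniteDimensional ℚ L]
    [NumberField L] [IsGalois ℚ L]
    {B : Finset ℕ} (hB : BadFor L B) {X : Set (L ≃ₐ[ℚ] L)} {ℓ : ℕ} (hℓB : ℓ ∉ B) (hℓS : ℓ ∉ S) :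
    ℓ ∈ placePrimes S L X ↔ ℓ ∈ primesFrobIn L B X := by
  constructor
  · rintro ⟨hℓ, -, A, σ, hA, hσ, hX⟩
    have h1 := centerOn_liesOver L A hℓ hA
    have hne : centerOn L A ≠ ⊥ := by
      have hv0 : (Ideal.span {(ℓ : ℤ)}) ≠ ⊥ := by
        rw [Ne, Ideal.span_singleton_eq_bot]
        exact_mod_cast hℓ.ne_zero
      exact Ideal.ne_bot_of_mem_primesOver hv0 ⟨inferInstance, h1⟩
    let P : HeightOneSpectrum (𝓞 L) := ⟨centerOn L A, inferInstance, hne⟩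
    have hP : below P = ℓ := by
      rw [below_eq_iff P hℓ]
      have h1' : (ℓ : ℤ) ∈ (centerOn L A).under ℤ := by
        rw [← h1.over]
        exact Ideal.mem_span_singleton_self _
      have h2 : algebraMap ℤ (𝓞 L) (ℓ : ℤ) ∈ centerOn L A := h1'
      simpa using h2
    refine ⟨P, hP, by rw [hP]; exact hℓB, ?_⟩
    have h2 : IsArithFrobAt ℤ (AlgEquiv.restrictNormal σ L) P.asIdeal := by
      intro y
      rw [card_quot_under, hP]
      exact sub_pow_mem_centerOn L A hσ y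
    rw [← eq_frob hB (by rw [hP]; exact hℓB) h2]
    exact hX
  · rintro ⟨P, rfl, hP⟩
    have hPp := P.isPrime
    have hmem : ((below P : ℕ) : 𝓞 L) ∈ P.asIdeal := (natCast_mem_iff P _).mpr dvd_rfl
    obtain ⟨A, σ, hA, hσ, hσL⟩ := exists_place_frobenius_of_isArithFrobAt L (below P)
      (below_prime P) P.asIdeal hmem (hB P hP.1) (frob P) (isArithFrobAt_frob P)
    exact ⟨below_prime P, hℓS, A, σ, hA, hσ, by rw [hσL]; exact hP.2⟩

/-- **Chebotarev density theorem** (Dirichlet density): for a conjugation-stable subset `X` of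
`Gal(L/ℚ)`, the primes with Frobenius in `X` have Dirichlet density `|X| / [L:ℚ]`. -/
theorem tendsto_placePrimes (hA2 : CycloPrimeDensity.{0}) (S : Finset ℕ)
    (L : IntermediateField ℚ ℚbar) [FiniteDimensional ℚ L] [IsGalois ℚ L]
    {X : Set (L ≃ₐ[ℚ] L)} (hX : ∀ g h : L ≃ₐ[ℚ] L, g ∈ X → h * g * h⁻¹ ∈ X) :
    Tendsto (fun s : ℝ ↦ (∑' ℓ : ℕ, (placePrimes S L X).indicator (fun ℓ : ℕ ↦ (ℓ : ℝ) ^ (-s)) ℓ) /
      Real.log (1 / (s - 1))) (𝓝[>] 1)
      (𝓝 ((Nat.card X : ℝ) / (Nat.card (L ≃ₐ[ℚ] L) : ℝ))) := by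
  classical
  have hNF : NumberField L :=
    { to_charZero := inferInstance, to_finiteDimensional := inferInstance }
  obtain ⟨B, hSB, hB⟩ := exists_bad L S
  have h1 := tendsto_primesFrobIn hA2 hB hX
  -- the difference
  have h2 : ∀ s : ℝ, 1 < s →
      (∑' ℓ : ℕ, (placePrimes S L X).indicator (fun ℓ : ℕ ↦ (ℓ : ℝ) ^ (-s)) ℓ) =
      (∑' ℓ : ℕ, (primesFrobIn L B X).indicator (fun ℓ : ℕ ↦ (ℓ : ℝ) ^ (-s)) ℓ) +
        ∑ ℓ ∈ B, (placePrimes S L X).indicator (fun ℓ : ℕ ↦ (ℓ : ℝ) ^ (-s)) ℓ := by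
    intro s hs
    have hsum : Summable (fun n : ℕ ↦ (n : ℝ) ^ (-s)) := Real.summable_nat_rpow.mpr (by linarith)
    have h3 : ∀ ℓ : ℕ, (placePrimes S L X).indicator (fun ℓ : ℕ ↦ (ℓ : ℝ) ^ (-s)) ℓ =
        (primesFrobIn L B X).indicator (fun ℓ : ℕ ↦ (ℓ : ℝ) ^ (-s)) ℓ +
        (B : Set ℕ).indicator
          ((placePrimes S L X).indicator (fun ℓ : ℕ ↦ (ℓ : ℝ) ^ (-s))) ℓ := by
      intro ℓ
      by_cases hℓ : ℓ ∈ B
      · have h4 : ℓ ∉ primesFrobIn L B X := by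
          rintro ⟨P, rfl, hP⟩
          exact hP.1 hℓ
        rw [Set.indicator_of_notMem h4, zero_add,
          Set.indicator_of_mem (s := (B : Set ℕ)) (by exact hℓ)]
      · rw [Set.indicator_of_notMem (s := (B : Set ℕ)) (by exact hℓ), add_zero]
        have h5 := mem_placePrimes_iff (S := S) L hB (X := X) hℓ (fun h ↦ hℓ (hSB h))
        by_cases h6 : ℓ ∈ placePrimes S L X
        · rw [Set.indicator_of_mem h6, Set.indicator_of_mem (h5.mp h6)]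
        · rw [Set.indicator_of_notMem h6, Set.indicator_of_notMem (fun h ↦ h6 (h5.mpr h))]
    rw [tsum_congr h3, Summable.tsum_add (hsum.indicator _) ((hsum.indicator _).indicator _)]
    congr 1
    rw [← Finset.tsum_subtype' B, tsum_subtype]
  have h3 : Tendsto (fun s : ℝ ↦
      (∑ ℓ ∈ B, (placePrimes S L X).indicator (fun ℓ : ℕ ↦ (ℓ : ℝ) ^ (-s)) ℓ) /
        Real.log (1 / (s - 1))) (𝓝[>] 1) (𝓝 0) := by
    have h4 : Tendsto (fun s : ℝ ↦ (B.card : ℝ) / Real.log (1 / (s - 1))) (𝓝[>] 1) (𝓝 0) :=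
      tendsto_log_atTop.const_div_atTop _
    refine squeeze_zero_norm' ?_ h4
    filter_upwards [self_mem_nhdsWithin, eventually_log_pos] with s hs hlog
    have hs1 : (1 : ℝ) < s := hs
    rw [norm_div, Real.norm_eq_abs, Real.norm_eq_abs, abs_of_pos hlog]
    refine div_le_div_of_nonneg_right ?_ hlog.le
    refine (Finset.abs_sum_le_sum_abs _ _).trans ?_
    have h5 : ∀ ℓ ∈ B, |(placePrimes S L X).indicator (fun ℓ : ℕ ↦ (ℓ : ℝ) ^ (-s)) ℓ| ≤ 1 := by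
      intro ℓ _
      by_cases h6 : ℓ ∈ placePrimes S L X
      · rw [Set.indicator_of_mem h6]
        have h7 : (1 : ℝ) ≤ (ℓ : ℝ) := by exact_mod_cast h6.1.one_le
        rw [abs_of_nonneg (by positivity)]
        exact Real.rpow_le_one_of_one_le_of_nonpos h7 (by linarith)
      · rw [Set.indicator_of_notMem h6, abs_zero]
        exact zero_le_one
    refine (Finset.sum_le_sum h5).trans ?_
    rw [Finset.sum_const, nsmul_eq_mul, mul_one]
  have h4 := h1.add h3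
  rw [add_zero] at h4
  refine h4.congr' ?_
  filter_upwards [self_mem_nhdsWithin] with s hs
  rw [h2 s hs, add_div]

end Places

end Fermat.Agent.Density.Chebotarev
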