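import Mathlib
import Fermat.Agent.Density.PrimeZeta

/-!
# Euler product for completely multiplicative functions on the ideals of a Dedekind domain
-/

set_option autoImplicit false

open NumberField IsDedekindDomain Filter Topology

namespace Fermat.Agent.Density.EulerIdeal

section dedekind

variable {R : Type*} [CommRing R] [IsDedekindDomain R]

theorem dvd_mul_iff {P Q : HeightOneSpectrum R} (h : Q ≠ P) (J : Ideal R) :
    Q.asIdeal ∣ P.asIdeal * J ↔ Q.asIdeal ∣ J := by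
  rw [Q.prime.dvd_mul]
  refine or_iff_right fun h1 ↦ h ?_
  apply HeightOneSpectrum.ext
  exact associated_iff_eq.mp (Q.prime.associated_of_dvd P.prime h1)

/-- Sieving out the primes in `T`. -/
theorem prod_one_sub_mul_tsum {f : Ideal R →*₀ ℂ} (hf : Summable fun I ↦ ‖f I‖)
    (T : Finset (HeightOneSpectrum R)) :
    (∏ P ∈ T, (1 - f P.asIdeal)) * ∑' I, f I =
      ∑' I : Ideal R, {I : Ideal R | ∀ P ∈ T, ¬ P.asIdeal ∣ I}.indicator f I := by
  classical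
  have hf' : Summable (f : Ideal R → ℂ) := hf.of_norm
  induction T using Finset.induction_on with
  | empty => simp
  | insert P T hP ih =>
    rw [Finset.prod_insert hP, mul_assoc, ih]
    set S : Set (Ideal R) := {I : Ideal R | ∀ P ∈ T, ¬ P.asIdeal ∣ I} with hS
    have h1 : ∑' I, S.indicator f I = ∑' I, (S ∩ {I | ¬ P.asIdeal ∣ I}).indicator f I +
        ∑' I, (S ∩ {I | P.asIdeal ∣ I}).indicator f I := by
      rw [← (hf'.indicator _).tsum_add (hf'.indicator _)]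
      refine tsum_congr fun I ↦ ?_
      simp only [Set.indicator_apply, Set.mem_inter_iff, Set.mem_ofPred_eq]
      by_cases h2 : I ∈ S <;> by_cases h3 : P.asIdeal ∣ I <;> simp [h2, h3]
    have h2 : ∑' I, (S ∩ {I | P.asIdeal ∣ I}).indicator f I =
        f P.asIdeal * ∑' I, S.indicator f I := by
      have hinj : Function.Injective (fun J : Ideal R ↦ P.asIdeal * J) :=
        mul_right_injective₀ P.ne_bot
      have hsupp : Function.support ((S ∩ {I | P.asIdeal ∣ I}).indicator f) ⊆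
          Set.range (fun J : Ideal R ↦ P.asIdeal * J) := by
        intro I hI
        have h3 : I ∈ S ∩ {I | P.asIdeal ∣ I} := by
          by_contra hcon
          exact hI (Set.indicator_of_notMem hcon _)
        obtain ⟨J, hJ⟩ := h3.2
        exact ⟨J, hJ.symm⟩
      rw [← hinj.tsum_eq hsupp, ← tsum_mul_left]
      refine tsum_congr fun J ↦ ?_
      have h4 : P.asIdeal * J ∈ S ∩ {I | P.asIdeal ∣ I} ↔ J ∈ S := by
        simp only [Set.mem_inter_iff, Set.mem_ofPred_eq, dvd_mul_right, and_true, hS]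
        refine forall₂_congr fun Q hQ ↦ not_congr (dvd_mul_iff (fun h : Q = P ↦ hP (h ▸ hQ)) J)
      by_cases h5 : J ∈ S
      · rw [Set.indicator_of_mem (h4.2 h5), Set.indicator_of_mem h5, map_mul]
      · rw [Set.indicator_of_notMem (mt h4.1 h5), Set.indicator_of_notMem h5, mul_zero]
    have h3 : {I : Ideal R | ∀ Q ∈ insert P T, ¬ Q.asIdeal ∣ I} = S ∩ {I | ¬ P.asIdeal ∣ I} := by
      ext I
      simp only [Finset.mem_insert, forall_eq_or_imp, Set.mem_ofPred_eq, Set.mem_inter_iff, hS]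
      tauto
    rw [h3, sub_mul, one_mul]
    rw [h2] at h1
    linear_combination h1

theorem exists_prime_dvd {I : Ideal R} (hI : I ≠ 1) (hR : ¬ IsField R) :
    ∃ P : HeightOneSpectrum R, P.asIdeal ∣ I := by
  obtain ⟨M, hM, hIM⟩ := Ideal.exists_le_maximal I (by rwa [Ne, ← Ideal.one_eq_top])
  refine ⟨⟨M, hM.isPrime, ?_⟩, Ideal.dvd_iff_le.2 hIM⟩
  exact Ring.ne_bot_of_isMaximal_of_not_isField hM hR

theorem tendsto_sieve {f : Ideal R →*₀ ℂ} (hf : Summable fun I ↦ ‖f I‖) (hR : ¬ IsField R) :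
    Tendsto (fun T : Finset (HeightOneSpectrum R) ↦
      ∑' I : Ideal R, {I : Ideal R | ∀ P ∈ T, ¬ P.asIdeal ∣ I}.indicator f I) atTop (𝓝 1) := by
  classical
  have h1 : (∑' I : Ideal R, if I = 1 then (1 : ℂ) else 0) = 1 := tsum_ite_eq 1 _
  rw [← h1]
  refine tendsto_tsum_of_dominated_convergence hf (fun I ↦ ?_) (Eventually.of_forall fun T I ↦ ?_)
  · refine tendsto_const_nhds.congr' ?_
    by_cases hI : I = 1
    · subst hI
      refine Eventually.of_forall fun T ↦ ?_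
      beta_reduce
      rw [if_pos rfl, Set.indicator_of_mem, map_one]
      intro P _ hP
      exact P.isPrime.ne_top (Ideal.isUnit_iff.1 (isUnit_of_dvd_one hP))
    · obtain ⟨P, hP⟩ := exists_prime_dvd hI hR
      filter_upwards [eventually_ge_atTop {P}] with T hT
      rw [if_neg hI, Set.indicator_of_notMem]
      intro h
      exact h P (hT (Finset.mem_singleton_self P)) hP
  · exact norm_indicator_le_norm_self _ _

theorem norm_lt_one {f : Ideal R →*₀ ℂ} (hf : Summable fun I ↦ ‖f I‖)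
    (P : HeightOneSpectrum R) : ‖f P.asIdeal‖ < 1 := by
  have hinj : Function.Injective (fun n : ℕ ↦ P.asIdeal ^ n) :=
    pow_injective_of_not_isUnit (mt Ideal.isUnit_iff.1 P.isPrime.ne_top) P.ne_bot
  have h1 := hf.comp_injective hinj
  have h2 : Summable (fun n : ℕ ↦ ‖f P.asIdeal‖ ^ n) := by
    refine h1.congr fun n ↦ ?_
    simp
  simpa using summable_geometric_iff_norm_lt_one.1 h2

/-- **Euler product** (logarithmic form). -/
theorem exp_tsum_neg_log {f : Ideal R →*₀ ℂ} (hf : Summable fun I ↦ ‖f I‖) (hR : ¬ IsField R) :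
    Complex.exp (∑' P : HeightOneSpectrum R, -Complex.log (1 - f P.asIdeal)) = ∑' I, f I := by
  have hinj : Function.Injective (fun P : HeightOneSpectrum R ↦ P.asIdeal) := fun P Q h ↦
    HeightOneSpectrum.ext h
  have hs : Summable (fun P : HeightOneSpectrum R ↦ f P.asIdeal) :=
    (hf.comp_injective hinj).of_norm
  have hne : ∀ P : HeightOneSpectrum R, 1 - f P.asIdeal ≠ 0 := by
    intro P h
    have h1 := norm_lt_one hf P
    rw [← sub_eq_zero.1 h, norm_one] at h1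
    exact lt_irrefl _ h1
  have hlog := hs.clog_one_sub
  have h1 : Tendsto (fun T : Finset (HeightOneSpectrum R) ↦ ∏ P ∈ T, (1 - f P.asIdeal)) atTop
      (𝓝 (Complex.exp (∑' P : HeightOneSpectrum R, Complex.log (1 - f P.asIdeal)))) := by
    have h3 : Tendsto (fun T : Finset (HeightOneSpectrum R) ↦
        ∑ P ∈ T, Complex.log (1 - f P.asIdeal)) atTop
        (𝓝 (∑' P : HeightOneSpectrum R, Complex.log (1 - f P.asIdeal))) := hlog.hasSum
    have h2 := (Complex.continuous_exp.tendsto _).comp h3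
    refine h2.congr fun T ↦ ?_
    rw [Function.comp_apply, Complex.exp_sum]
    exact Finset.prod_congr rfl fun P _ ↦ Complex.exp_log (hne P)
  have h2 := h1.mul_const (∑' I, f I)
  have h3 := tendsto_nhds_unique (h2.congr fun T ↦ prod_one_sub_mul_tsum hf T)
    (tendsto_sieve hf hR)
  rw [tsum_neg, Complex.exp_neg]
  exact (eq_inv_of_mul_eq_one_right h3).symm

end dedekind

section numberField

variable {K : Type*} [Field K] [NumberField K]

/-- The completely multiplicative function `I ↦ ψ(I) N(I)^{-s}` for real `s`. -/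
noncomputable def tw (ψ : Ideal (𝓞 K) →*₀ ℂ) (s : ℝ) : Ideal (𝓞 K) →*₀ ℂ where
  toFun I := ψ I * (nrm I s : ℂ)
  map_zero' := by rw [map_zero, zero_mul]
  map_one' := by rw [map_one, nrm_one, one_mul, Complex.ofReal_one]
  map_mul' I J := by rw [map_mul, nrm_mul]; push_cast; ring

theorem tw_apply (ψ : Ideal (𝓞 K) →*₀ ℂ) (s : ℝ) (I : Ideal (𝓞 K)) :
    tw ψ s I = ψ I * (nrm I s : ℂ) := rfl

/-- version with complex powers -/
theorem tw_eq_cpow (ψ : Ideal (𝓞 K) →*₀ ℂ) (s : ℝ) (I : Ideal (𝓞 K)) :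
    tw ψ s I = ψ I * (Ideal.absNorm I : ℂ) ^ (-(s : ℂ)) := by
  rw [tw_apply, nrm, Complex.ofReal_cpow (Nat.cast_nonneg _)]
  simp

theorem norm_tw_le {ψ : Ideal (𝓞 K) →*₀ ℂ} (hψ : ∀ I, ‖ψ I‖ ≤ 1) (s : ℝ) (I : Ideal (𝓞 K)) :
    ‖tw ψ s I‖ ≤ nrm I s := by
  rw [tw_apply, norm_mul, Complex.norm_real, Real.norm_of_nonneg (nrm_nonneg I s)]
  exact mul_le_of_le_one_left (nrm_nonneg I s) (hψ I)

theorem summable_tw {ψ : Ideal (𝓞 K) →*₀ ℂ} (hψ : ∀ I, ‖ψ I‖ ≤ 1) {s : ℝ} (hs : 1 < s) :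
    Summable fun I ↦ ‖tw ψ s I‖ :=
  Summable.of_nonneg_of_le (fun _ ↦ norm_nonneg _) (norm_tw_le hψ s) (summable_nrm K hs)

theorem nrm_prime_le_half (P : HeightOneSpectrum (𝓞 K)) {s : ℝ} (hs : 1 ≤ s) :
    nrm P.asIdeal s ≤ 1 / 2 := by
  have h0 : Ideal.absNorm P.asIdeal ≠ 0 := by
    rw [Ne, Ideal.absNorm_eq_zero_iff]; exact P.ne_bot
  have h1 : Ideal.absNorm P.asIdeal ≠ 1 := by
    rw [Ne, Ideal.absNorm_eq_one_iff]; exact P.isPrime.ne_top
  have h2 : (2 : ℝ) ≤ Ideal.absNorm P.asIdeal := by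
    have : 2 ≤ Ideal.absNorm P.asIdeal := by omega
    exact_mod_cast this
  calc nrm P.asIdeal s ≤ nrm P.asIdeal 1 := nrm_mono _ one_pos hs
    _ = ((Ideal.absNorm P.asIdeal : ℝ))⁻¹ := Real.rpow_neg_one _
    _ ≤ 2⁻¹ := inv_anti₀ (by norm_num) h2
    _ = 1 / 2 := by norm_num

theorem norm_tw_prime_le_half {ψ : Ideal (𝓞 K) →*₀ ℂ} (hψ : ∀ I, ‖ψ I‖ ≤ 1) {s : ℝ} (hs : 1 ≤ s)
    (P : HeightOneSpectrum (𝓞 K)) : ‖tw ψ s P.asIdeal‖ ≤ 1 / 2 :=
  (norm_tw_le hψ s _).trans (nrm_prime_le_half P hs)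

/-- logarithm of the L-function -/
noncomputable def logL (ψ : Ideal (𝓞 K) →*₀ ℂ) (s : ℝ) : ℂ :=
  ∑' P : HeightOneSpectrum (𝓞 K), -Complex.log (1 - tw ψ s P.asIdeal)

/-- the L-function, `∑ ψ(I) N(I)^{-s}` -/
noncomputable def LL (ψ : Ideal (𝓞 K) →*₀ ℂ) (s : ℝ) : ℂ := ∑' I : Ideal (𝓞 K), tw ψ s I

/-- the prime sum `∑ ψ(P) N(P)^{-s}` -/
noncomputable def Zψ (ψ : Ideal (𝓞 K) →*₀ ℂ) (s : ℝ) : ℂ :=
  ∑' P : HeightOneSpectrum (𝓞 K), tw ψ s P.asIdeal

theorem not_isField_ringOfIntegers : ¬ IsField (𝓞 K) := RingOfIntegers.not_isField K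

theorem exp_logL {ψ : Ideal (𝓞 K) →*₀ ℂ} (hψ : ∀ I, ‖ψ I‖ ≤ 1) {s : ℝ} (hs : 1 < s) :
    Complex.exp (logL ψ s) = LL ψ s :=
  exp_tsum_neg_log (summable_tw hψ hs) not_isField_ringOfIntegers

theorem LL_ne_zero {ψ : Ideal (𝓞 K) →*₀ ℂ} (hψ : ∀ I, ‖ψ I‖ ≤ 1) {s : ℝ} (hs : 1 < s) :
    LL ψ s ≠ 0 := by
  rw [← exp_logL hψ hs]
  exact Complex.exp_ne_zero _

theorem norm_neg_log_sub_le {z : ℂ} (hz : ‖z‖ ≤ 1 / 2) :
    ‖-Complex.log (1 - z) - z‖ ≤ ‖z‖ ^ 2 := by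
  have h1 : ‖-z‖ < 1 := by rw [norm_neg]; linarith
  have h2 := Complex.norm_log_one_add_sub_self_le h1
  rw [norm_neg] at h2
  have h3 : -Complex.log (1 - z) - z = -(Complex.log (1 + -z) - -z) := by
    rw [← sub_eq_add_neg]; ring
  rw [h3, norm_neg]
  refine h2.trans ?_
  have h4 : (1 - ‖z‖)⁻¹ ≤ 2 := by
    rw [inv_le_comm₀ (by linarith) two_pos]; linarith
  have h5 : 0 ≤ ‖z‖ ^ 2 := by positivity
  nlinarith

theorem norm_neg_log_le {z : ℂ} (hz : ‖z‖ ≤ 1 / 2) : ‖-Complex.log (1 - z)‖ ≤ 2 * ‖z‖ := by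
  have h1 := norm_neg_log_sub_le hz
  have h2 := norm_nonneg z
  calc ‖-Complex.log (1 - z)‖ = ‖(-Complex.log (1 - z) - z) + z‖ := by rw [sub_add_cancel]
    _ ≤ ‖z‖ ^ 2 + ‖z‖ := (norm_add_le _ _).trans (by linarith)
    _ ≤ 2 * ‖z‖ := by nlinarith

theorem summable_tw_prime {ψ : Ideal (𝓞 K) →*₀ ℂ} (hψ : ∀ I, ‖ψ I‖ ≤ 1) {s : ℝ} (hs : 1 < s) :
    Summable fun P : HeightOneSpectrum (𝓞 K) ↦ tw ψ s P.asIdeal := by
  have h : Summable fun P : HeightOneSpectrum (𝓞 K) ↦ ‖tw ψ s P.asIdeal‖ :=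
    Summable.of_nonneg_of_le (fun _ ↦ norm_nonneg _) (fun P ↦ norm_tw_le hψ s P.asIdeal)
      (summable_nrm_primes K hs)
  exact h.of_norm

theorem summable_log_prime {ψ : Ideal (𝓞 K) →*₀ ℂ} (hψ : ∀ I, ‖ψ I‖ ≤ 1) {s : ℝ} (hs : 1 < s) :
    Summable fun P : HeightOneSpectrum (𝓞 K) ↦ -Complex.log (1 - tw ψ s P.asIdeal) :=
  (summable_tw_prime hψ hs).clog_one_sub.neg

theorem norm_logL_sub_Zψ_le {ψ : Ideal (𝓞 K) →*₀ ℂ} (hψ : ∀ I, ‖ψ I‖ ≤ 1) {s : ℝ} (hs : 1 < s) :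
    ‖logL ψ s - Zψ ψ s‖ ≤ pzeta K 2 := by
  unfold logL Zψ
  rw [← (summable_log_prime hψ hs).tsum_sub (summable_tw_prime hψ hs)]
  refine tsum_of_norm_bounded (summable_nrm_primes K (by norm_num : (1 : ℝ) < 2)).hasSum
    fun P ↦ ?_
  refine (norm_neg_log_sub_le (norm_tw_prime_le_half hψ hs.le P)).trans ?_
  calc ‖tw ψ s P.asIdeal‖ ^ 2 ≤ nrm P.asIdeal s ^ 2 :=
        pow_le_pow_left₀ (norm_nonneg _) (norm_tw_le hψ s _) 2
    _ ≤ nrm P.asIdeal 1 ^ 2 :=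
        pow_le_pow_left₀ (nrm_nonneg _ _) (nrm_mono _ one_pos hs.le) 2
    _ = nrm P.asIdeal 2 := by
        unfold nrm
        rw [← Real.rpow_natCast, ← Real.rpow_mul (Nat.cast_nonneg _)]
        norm_num

theorem re_logL {ψ : Ideal (𝓞 K) →*₀ ℂ} (hψ : ∀ I, ‖ψ I‖ ≤ 1) {s : ℝ} (hs : 1 < s) :
    (logL ψ s).re = Real.log ‖LL ψ s‖ := by
  rw [← exp_logL hψ hs, Complex.norm_exp, Real.log_exp]

/-- `log |L(s, ψ)| = Re ∑ ψ(P) N(P)^{-s} + O(1)` uniformly in `s > 1`. -/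
theorem abs_log_norm_LL_sub_le {ψ : Ideal (𝓞 K) →*₀ ℂ} (hψ : ∀ I, ‖ψ I‖ ≤ 1) {s : ℝ}
    (hs : 1 < s) : |Real.log ‖LL ψ s‖ - (Zψ ψ s).re| ≤ pzeta K 2 := by
  rw [← re_logL hψ hs, ← Complex.sub_re]
  exact (Complex.abs_re_le_norm _).trans (norm_logL_sub_Zψ_le hψ hs)

theorem re_Zψ {ψ : Ideal (𝓞 K) →*₀ ℂ} (hψ : ∀ I, ‖ψ I‖ ≤ 1) {s : ℝ} (hs : 1 < s) :
    (Zψ ψ s).re = ∑' P : HeightOneSpectrum (𝓞 K), (ψ P.asIdeal).re * nrm P.asIdeal s := by
  unfold Zψ
  rw [Complex.re_tsum (summable_tw_prime hψ hs)]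
  refine tsum_congr fun P ↦ ?_
  rw [tw_apply, mul_comm, Complex.re_ofReal_mul, mul_comm]

theorem continuousOn_logL {ψ : Ideal (𝓞 K) →*₀ ℂ} (hψ : ∀ I, ‖ψ I‖ ≤ 1) :
    ContinuousOn (logL ψ) (Set.Ioi 1) := by
  intro s₀ hs₀
  have hs₀ : 1 < s₀ := hs₀
  refine ContinuousAt.continuousWithinAt ?_
  set a := (1 + s₀) / 2 with ha
  have ha1 : 1 < a := by rw [ha]; linarith
  have ha2 : a < s₀ := by rw [ha]; linarith
  have h1 : ContinuousOn (logL ψ) (Set.Ioi a) := by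
    refine continuousOn_tsum (u := fun P : HeightOneSpectrum (𝓞 K) ↦ 2 * nrm P.asIdeal a)
      (fun P ↦ ?_) ((summable_nrm_primes K ha1).mul_left 2) (fun P s hs ↦ ?_)
    · refine ContinuousOn.neg (ContinuousOn.clog ?_ fun s hs ↦ ?_)
      · refine continuousOn_const.sub ?_
        simp only [tw_apply, nrm]
        refine ContinuousOn.mul continuousOn_const ?_
        refine Complex.continuous_ofReal.comp_continuousOn ?_
        refine Continuous.continuousOn ?_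
        have h0 : (Ideal.absNorm P.asIdeal : ℝ) ≠ 0 := by
          rw [Nat.cast_ne_zero, Ne, Ideal.absNorm_eq_zero_iff]; exact P.ne_bot
        exact Continuous.rpow continuous_const continuous_neg (fun _ ↦ Or.inl h0)
      · rw [sub_eq_add_neg]
        refine Complex.mem_slitPlane_of_norm_lt_one ?_
        rw [norm_neg]
        have hs : a < s := hs
        have := norm_tw_prime_le_half hψ (by linarith : (1 : ℝ) ≤ s) P
        linarith
    · have hs : a < s := hs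
      refine (norm_neg_log_le (norm_tw_prime_le_half hψ (by linarith) P)).trans ?_
      refine mul_le_mul_of_nonneg_left ?_ two_pos.le
      exact (norm_tw_le hψ s _).trans (nrm_mono _ (by linarith) hs.le)
  exact h1.continuousAt (Ioi_mem_nhds ha2)

end numberField

end Fermat.Agent.Density.EulerIdeal
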