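import Mathlib
import Fermat.Agent.Density.PrimeZeta
import Fermat.Agent.Density.Extension
import Fermat.Agent.Density.Cyclic
import Fermat.Agent.Density.Frobenius
import Fermat.Agent.Density.EulerIdeal
import Fermat.Agent.Density.CrossStep

/-!
# Primes of a number field with norm in a given residue class

Cyclotomic case of Chebotarev's theorem, over an arbitrary number field, from the existence of the
limits at `1` of the L-functions `L_F(s, χ ∘ N)`.
-/

set_option autoImplicit false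

open NumberField IsDedekindDomain Filter Topology Asymptotics

namespace Fermat.Agent.Density.CycloPrimes

open EulerIdeal

/-! ### lifting of logarithms -/

theorem exists_int_of_exp_eq_one {z : ℂ} (h : Complex.exp z = 1) :
    ∃ n : ℤ, z.im / (2 * Real.pi) = n := by
  obtain ⟨n, hn⟩ := Complex.exp_eq_one_iff.1 h
  refine ⟨n, ?_⟩
  rw [hn]
  have hπ := Real.pi_pos
  simp

theorem eq_of_continuousOn_int {I : Set ℝ} (hI : IsPreconnected I) {g : ℝ → ℝ}
    (hg : ContinuousOn g I) (hint : ∀ s ∈ I, ∃ n : ℤ, g s = n) {s t : ℝ} (hs : s ∈ I)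
    (ht : t ∈ I) : g s = g t := by
  have : DiscreteTopology (Set.range ((↑) : ℤ → ℝ)) :=
    Int.isClosedEmbedding_coe_real.isEmbedding.toHomeomorph.symm.isEmbedding.discreteTopology
  refine hI.constant_of_mapsTo (T := Set.range ((↑) : ℤ → ℝ)) ⟨this⟩ hg (fun x hx ↦ ?_) hs ht
  obtain ⟨n, hn⟩ := hint x hx
  exact ⟨n, hn.symm⟩

/-- If `exp W(s) → c ≠ 0` as `s → 1+`, with `W` continuous, then `W` is bounded near `1`. -/
theorem bounded_of_exp_tendsto {W : ℝ → ℂ} (hW : ContinuousOn W (Set.Ioi 1)) {c : ℂ} (hc : c ≠ 0)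
    (hlim : Tendsto (fun s ↦ Complex.exp (W s)) (𝓝[>] 1) (𝓝 c)) :
    W =O[𝓝[>] 1] (fun _ ↦ (1 : ℝ)) := by
  have h1 : Tendsto (fun s ↦ Complex.exp (W s) / c) (𝓝[>] 1) (𝓝 1) := by
    have := hlim.div_const c
    rwa [div_self hc] at this
  have h2 : ∀ᶠ s in 𝓝[>] (1 : ℝ), ‖Complex.exp (W s) / c - 1‖ < 1 / 2 := by
    have := (h1.sub_const 1).norm
    rw [sub_self, norm_zero] at this
    exact this.eventually_lt_const (by norm_num)
  obtain ⟨b, hb1, hb⟩ := mem_nhdsGT_iff_exists_Ioo_subset.1 h2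
  have hb1 : (1 : ℝ) < b := hb1
  set I := Set.Ioo 1 b with hI
  have hne : ∀ s ∈ I, Complex.exp (W s) / c ∈ Complex.slitPlane := by
    intro s hs
    have h3 : ‖Complex.exp (W s) / c - 1‖ < 1 / 2 := hb hs
    have h4 := Complex.mem_slitPlane_of_norm_lt_one (h3.trans (by norm_num))
    rwa [add_sub_cancel] at h4
  have hWI : ContinuousOn W I := hW.mono fun s hs ↦ hs.1
  set D : ℝ → ℂ := fun s ↦ W s - Complex.log (Complex.exp (W s) / c) - Complex.log c with hD
  have hDc : ContinuousOn D I := by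
    refine (hWI.sub (ContinuousOn.clog ?_ hne)).sub continuousOn_const
    exact (Complex.continuous_exp.comp_continuousOn hWI).div_const c
  have hDexp : ∀ s ∈ I, Complex.exp (D s) = 1 := by
    intro s _
    have h3 : Complex.exp (W s) ≠ 0 := Complex.exp_ne_zero _
    rw [hD, Complex.exp_sub, Complex.exp_sub, Complex.exp_log (div_ne_zero h3 hc),
      Complex.exp_log hc]
    field_simp
  have hmem : (1 + b) / 2 ∈ I := ⟨by linarith, by linarith⟩
  have hDim : ∀ s ∈ I, (D s).im / (2 * Real.pi) = (D ((1 + b) / 2)).im / (2 * Real.pi) := by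
    intro s hs
    refine eq_of_continuousOn_int (g := fun s ↦ (D s).im / (2 * Real.pi)) isPreconnected_Ioo
      ?_ (fun t ht ↦ exists_int_of_exp_eq_one (hDexp t ht)) hs hmem
    exact (Complex.continuous_im.comp_continuousOn hDc).div_const _
  have hDre : ∀ s ∈ I, (D s).re = 0 := by
    intro s hs
    have h3 := congrArg norm (hDexp s hs)
    rw [Complex.norm_exp, norm_one] at h3
    exact (Real.exp_eq_one_iff _).1 h3
  have hDeq : ∀ s ∈ I, D s = D ((1 + b) / 2) := by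
    intro s hs
    apply Complex.ext
    · rw [hDre s hs, hDre _ hmem]
    · have h3 := hDim s hs
      have hπ := Real.pi_pos
      field_simp at h3
      exact h3
  refine IsBigO.of_bound (3 / 4 + ‖D ((1 + b) / 2)‖ + ‖Complex.log c‖) ?_
  filter_upwards [Ioo_mem_nhdsGT hb1] with s hs
  have h3 : W s = Complex.log (Complex.exp (W s) / c) + D s + Complex.log c := by
    rw [hD]; ring
  have h4 : ‖Complex.exp (W s) / c - 1‖ < 1 / 2 := hb hs
  have h5 := Complex.norm_log_one_add_half_le_self h4.le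
  rw [add_sub_cancel] at h5
  rw [norm_one, mul_one]
  calc ‖W s‖ = ‖Complex.log (Complex.exp (W s) / c) + D s + Complex.log c‖ := by rw [← h3]
    _ ≤ ‖Complex.log (Complex.exp (W s) / c)‖ + ‖D s‖ + ‖Complex.log c‖ := norm_add₃_le
    _ ≤ 3 / 4 + ‖D ((1 + b) / 2)‖ + ‖Complex.log c‖ := by
        rw [hDeq s hs]
        linarith

/-! ### prime sums with bounded coefficients -/

section psum

variable {F : Type*} [Field F] [NumberField F]

/-- `∑ g(P) N(P)^{-s}` -/
noncomputable def psum (g : HeightOneSpectrum (𝓞 F) → ℂ) (s : ℝ) : ℂ :=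
  ∑' P : HeightOneSpectrum (𝓞 F), g P * (nrm P.asIdeal s : ℂ)

/-- bounded coefficients -/
def Bdd (g : HeightOneSpectrum (𝓞 F) → ℂ) : Prop := ∃ C : ℝ, ∀ P, ‖g P‖ ≤ C

theorem summable_psum {g : HeightOneSpectrum (𝓞 F) → ℂ} (hg : Bdd g) {s : ℝ} (hs : 1 < s) :
    Summable fun P : HeightOneSpectrum (𝓞 F) ↦ g P * (nrm P.asIdeal s : ℂ) := by
  obtain ⟨C, hC⟩ := hg
  have h : Summable fun P : HeightOneSpectrum (𝓞 F) ↦ ‖g P * (nrm P.asIdeal s : ℂ)‖ := by
    refine Summable.of_nonneg_of_le (fun _ ↦ norm_nonneg _) (fun P ↦ ?_)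
      ((summable_nrm_primes F hs).mul_left C)
    rw [norm_mul, Complex.norm_real, Real.norm_of_nonneg (nrm_nonneg _ _)]
    exact mul_le_mul_of_nonneg_right (hC P) (nrm_nonneg _ _)
  exact h.of_norm

theorem psum_sub {g h : HeightOneSpectrum (𝓞 F) → ℂ} (hg : Bdd g) (hh : Bdd h) {s : ℝ}
    (hs : 1 < s) : psum (fun P ↦ g P - h P) s = psum g s - psum h s := by
  unfold psum
  rw [← (summable_psum hg hs).tsum_sub (summable_psum hh hs)]
  exact tsum_congr fun P ↦ by ring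

theorem psum_const_mul (g : HeightOneSpectrum (𝓞 F) → ℂ) (c : ℂ) (s : ℝ) :
    psum (fun P ↦ c * g P) s = c * psum g s := by
  unfold psum
  rw [← tsum_mul_left]
  exact tsum_congr fun P ↦ by ring

theorem psum_finsetSum {ι : Type*} (S : Finset ι) {g : ι → HeightOneSpectrum (𝓞 F) → ℂ}
    (hg : ∀ i ∈ S, Bdd (g i)) {s : ℝ} (hs : 1 < s) :
    psum (fun P ↦ ∑ i ∈ S, g i P) s = ∑ i ∈ S, psum (g i) s := by
  unfold psum
  rw [← Summable.tsum_finsetSum (fun i hi ↦ summable_psum (hg i hi) hs)]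
  exact tsum_congr fun P ↦ Finset.sum_mul _ _ _

theorem psum_isBigO_of_finite {g : HeightOneSpectrum (𝓞 F) → ℂ} (hg : (Function.support g).Finite) :
    psum g =O[𝓝[>] 1] (fun _ ↦ (1 : ℝ)) := by
  refine IsBigO.of_bound (∑ P ∈ hg.toFinset, ‖g P‖) ?_
  filter_upwards [self_mem_nhdsWithin] with s hs
  have hs : 1 < s := hs
  rw [norm_one, mul_one]
  unfold psum
  rw [tsum_eq_sum (s := hg.toFinset)]
  · refine (norm_sum_le _ _).trans (Finset.sum_le_sum fun P _ ↦ ?_)
    rw [norm_mul, Complex.norm_real, Real.norm_of_nonneg (nrm_nonneg _ _)]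
    exact mul_le_of_le_one_right (norm_nonneg _) (nrm_le_one _ (by linarith))
  · intro P hP
    rw [Set.Finite.mem_toFinset, Function.mem_support, not_not] at hP
    rw [hP, zero_mul]

theorem psum_sub_isBigO {g h : HeightOneSpectrum (𝓞 F) → ℂ} (hg : Bdd g) (hh : Bdd h)
    {B : Set (HeightOneSpectrum (𝓞 F))} (hB : B.Finite) (heq : ∀ P ∉ B, g P = h P) :
    (fun s ↦ psum g s - psum h s) =O[𝓝[>] 1] (fun _ ↦ (1 : ℝ)) := by
  have h1 : (Function.support fun P ↦ g P - h P).Finite := by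
    refine hB.subset fun P hP ↦ ?_
    by_contra hcon
    exact hP (sub_eq_zero.2 (heq P hcon))
  refine (psum_isBigO_of_finite h1).congr' ?_ EventuallyEq.rfl
  filter_upwards [self_mem_nhdsWithin] with s hs
  exact psum_sub hg hh hs

omit [NumberField F] in
theorem bdd_indicator (T : Set (HeightOneSpectrum (𝓞 F))) : Bdd (T.indicator fun _ ↦ (1 : ℂ)) :=
  ⟨1, fun P ↦ (norm_indicator_le_norm_self _ _).trans (by simp)⟩

theorem psum_indicator (T : Set (HeightOneSpectrum (𝓞 F))) (s : ℝ) :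
    psum (T.indicator fun _ ↦ (1 : ℂ)) s = (pzetaOn T s : ℂ) := by
  unfold psum pzetaOn
  rw [Complex.ofReal_tsum]
  refine tsum_congr fun P ↦ ?_
  by_cases h : P ∈ T
  · rw [Set.indicator_of_mem h, Set.indicator_of_mem h, one_mul]
  · rw [Set.indicator_of_notMem h, Set.indicator_of_notMem h, zero_mul, Complex.ofReal_zero]

theorem psum_one (s : ℝ) : psum (fun _ : HeightOneSpectrum (𝓞 F) ↦ (1 : ℂ)) s = (pzeta F s : ℂ) := by
  unfold psum pzeta
  rw [Complex.ofReal_tsum]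
  exact tsum_congr fun P ↦ one_mul _

omit [NumberField F] in
theorem bdd_one : Bdd (fun _ : HeightOneSpectrum (𝓞 F) ↦ (1 : ℂ)) := ⟨1, fun P ↦ by simp⟩

end psum

/-! ### the characters `χ ∘ N` -/

section chi

variable (F : Type*) [Field F] [NumberField F] {m : ℕ}

open Classical in
/-- `χ ∘ N` as a completely multiplicative function on ideals -/
noncomputable def chiN (χ : DirichletCharacter ℂ m) : Ideal (𝓞 F) →*₀ ℂ where
  toFun I := if I = 0 then 0 else χ (Ideal.absNorm I : ZMod m)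
  map_zero' := if_pos rfl
  map_one' := by rw [if_neg one_ne_zero]; simp
  map_mul' I J := by
    by_cases hI : I = 0
    · simp [hI]
    by_cases hJ : J = 0
    · simp [hJ]
    rw [if_neg (mul_ne_zero hI hJ), if_neg hI, if_neg hJ, map_mul, Nat.cast_mul, map_mul]

variable {F}

theorem chiN_apply_of_ne_zero (χ : DirichletCharacter ℂ m) {I : Ideal (𝓞 F)} (hI : I ≠ 0) :
    chiN F χ I = χ (Ideal.absNorm I : ZMod m) := if_neg hI

theorem chiN_prime (χ : DirichletCharacter ℂ m) (P : HeightOneSpectrum (𝓞 F)) :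
    chiN F χ P.asIdeal = χ (Ideal.absNorm P.asIdeal : ZMod m) := if_neg P.ne_bot

theorem norm_chiN_le (χ : DirichletCharacter ℂ m) (I : Ideal (𝓞 F)) : ‖chiN F χ I‖ ≤ 1 := by
  by_cases hI : I = 0
  · rw [hI, map_zero, norm_zero]; exact zero_le_one
  · rw [chiN_apply_of_ne_zero χ hI]
    exact DirichletCharacter.norm_le_one χ _

theorem LL_chiN (χ : DirichletCharacter ℂ m) {s : ℝ} (hs : 1 < s) :
    LL (chiN F χ) s =
      ∑' I : Ideal (𝓞 F), χ (Ideal.absNorm I : ZMod m) * (Ideal.absNorm I : ℂ) ^ (-(s : ℂ)) := by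
  unfold LL
  refine tsum_congr fun I ↦ ?_
  rw [tw_eq_cpow]
  by_cases hI : I = 0
  · subst hI
    have h1 : Ideal.absNorm (0 : Ideal (𝓞 F)) = 0 := by simp
    have h2 : (-(s : ℂ)) ≠ 0 := by
      rw [neg_ne_zero, Ne, Complex.ofReal_eq_zero]
      linarith
    rw [h1, Nat.cast_zero, Complex.zero_cpow h2, mul_zero, mul_zero]
  · rw [chiN_apply_of_ne_zero χ hI]

theorem Zψ_chiN (χ : DirichletCharacter ℂ m) (s : ℝ) :
    Zψ (chiN F χ) s =
      psum (fun P : HeightOneSpectrum (𝓞 F) ↦ χ (Ideal.absNorm P.asIdeal : ZMod m)) s := by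
  unfold Zψ psum
  refine tsum_congr fun P ↦ ?_
  rw [tw_apply, chiN_prime]

theorem bdd_chi (χ : DirichletCharacter ℂ m) :
    Bdd (fun P : HeightOneSpectrum (𝓞 F) ↦ χ (Ideal.absNorm P.asIdeal : ZMod m)) :=
  ⟨1, fun _ ↦ DirichletCharacter.norm_le_one χ _⟩

variable (F m) in
/-- the primes dividing `m` -/
def badSet : Set (HeightOneSpectrum (𝓞 F)) := {P | (m : 𝓞 F) ∈ P.asIdeal}

variable (F m) in
theorem badSet_finite [NeZero m] : (badSet F m).Finite := by
  have h1 : Ideal.span {(m : 𝓞 F)} ≠ 0 := by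
    rw [Ne, Ideal.zero_eq_bot, Ideal.span_singleton_eq_bot]
    exact_mod_cast NeZero.ne m
  refine (Ideal.finite_factors h1).subset fun P hP ↦ ?_
  exact Ideal.dvd_span_singleton.2 hP

theorem notMem_badSet_of_isUnit {P : HeightOneSpectrum (𝓞 F)}
    (h : IsUnit (Ideal.absNorm P.asIdeal : ZMod m)) : P ∉ badSet F m := by
  intro hP
  rw [ZMod.isUnit_iff_coprime] at h
  have h1 : ((Ideal.absNorm P.asIdeal : ℕ) : 𝓞 F) ∈ P.asIdeal := Ideal.absNorm_mem _
  have h2 : (m : 𝓞 F) ∈ P.asIdeal := hP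
  apply P.isPrime.ne_top
  rw [Ideal.eq_top_iff_one]
  have h3 := Nat.isCoprime_iff_coprime.2 h
  obtain ⟨a, b, hab⟩ := h3
  have h4 : (1 : 𝓞 F) = (a : 𝓞 F) * ((Ideal.absNorm P.asIdeal : ℕ) : 𝓞 F) + (b : 𝓞 F) * (m : 𝓞 F) := by
    have := congrArg (Int.cast : ℤ → 𝓞 F) hab
    push_cast at this
    exact this.symm
  rw [h4]
  exact Ideal.add_mem _ (Ideal.mul_mem_left _ _ h1) (Ideal.mul_mem_left _ _ h2)

end chi

/-! ### the main argument -/

/-- The analytic input: the L-function of `χ ∘ N` has a limit at `1` if `χ ∘ N` is nontrivial. -/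
def LimitHyp (F : Type*) [Field F] [NumberField F] (m : ℕ) : Prop :=
  ∀ χ : DirichletCharacter ℂ m, (∃ 𝔠 : Ideal (𝓞 F), 𝔠 ≠ ⊥ ∧ 𝔠 ⊔ Ideal.span {(m : 𝓞 F)} = ⊤ ∧
    χ (Ideal.absNorm 𝔠 : ZMod m) ≠ 1) →
    ∃ c : ℂ, Tendsto (fun s : ℝ ↦ ∑' I : Ideal (𝓞 F),
      χ (Ideal.absNorm I : ZMod m) * (Ideal.absNorm I : ℂ) ^ (-(s : ℂ))) (𝓝[>] 1) (𝓝 c)

/-- the logarithm `log (1 / (s - 1))` -/
noncomputable abbrev lg (s : ℝ) : ℝ := Real.log (1 / (s - 1))

theorem ofReal_isBigO {f : ℝ → ℝ} (h : f =O[𝓝[>] 1] (fun _ ↦ (1 : ℝ))) :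
    (fun s ↦ (f s : ℂ)) =O[𝓝[>] 1] (fun _ ↦ (1 : ℝ)) := by
  refine (IsBigO.of_norm_left ?_)
  simpa using h

section main

variable {F : Type*} [Field F] [NumberField F] {m : ℕ} [NeZero m]
variable {E : Type*} [Field E] [NumberField E] [Algebra F E]
variable {G : Type*} [CommGroup G] [Finite G] [MulSemiringAction G E] [IsGaloisGroup G F E]
variable (φ : G →* (ZMod m)ˣ)

variable (F E) in
/-- compatibility of `φ` with Frobenius elements -/
def FrobCompat : Prop := ∀ P : HeightOneSpectrum (𝓞 F), P ∉ badSet F m →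
  ((φ (frob E G P) : (ZMod m)ˣ) : ZMod m) = (Ideal.absNorm P.asIdeal : ZMod m)

variable {φ} (hφ : Function.Injective φ) (hfrob : FrobCompat F E φ)

include hφ hfrob in
theorem psum_norm_one :
    (fun s : ℝ ↦ psum ({P : HeightOneSpectrum (𝓞 F) | (Ideal.absNorm P.asIdeal : ZMod m) = 1}.indicator
      fun _ ↦ 1) s - ((1 / (Nat.card G : ℝ) : ℝ) : ℂ) * (lg s : ℂ)) =O[𝓝[>] 1] (fun _ ↦ (1 : ℝ)) := by
  have h1 := ofReal_isBigO (density_frob_mem (K := F) (L := E) G (⊥ : Subgroup G))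
  rw [Subgroup.index_bot] at h1
  have h2 := psum_sub_isBigO
    (bdd_indicator {P : HeightOneSpectrum (𝓞 F) | (Ideal.absNorm P.asIdeal : ZMod m) = 1})
    (bdd_indicator {P : HeightOneSpectrum (𝓞 F) | frob E G P ∈ (⊥ : Subgroup G)})
    (badSet_finite F m) (fun P hP ↦ by
      have h3 : (Ideal.absNorm P.asIdeal : ZMod m) = 1 ↔ frob E G P ∈ (⊥ : Subgroup G) := by
        rw [Subgroup.mem_bot, ← hfrob P hP, Units.val_eq_one, ← map_one φ]
        exact hφ.eq_iff
      have h5 : P ∈ {P : HeightOneSpectrum (𝓞 F) | (Ideal.absNorm P.asIdeal : ZMod m) = 1} ↔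
        P ∈ {P : HeightOneSpectrum (𝓞 F) | frob E G P ∈ (⊥ : Subgroup G)} := h3
      by_cases h4 : P ∈ {P : HeightOneSpectrum (𝓞 F) | frob E G P ∈ (⊥ : Subgroup G)}
      · rw [Set.indicator_of_mem (h5.2 h4), Set.indicator_of_mem h4]
      · rw [Set.indicator_of_notMem (mt h5.1 h4), Set.indicator_of_notMem h4])
  have h3 : (fun s : ℝ ↦ psum ({P : HeightOneSpectrum (𝓞 F) | frob E G P ∈ (⊥ : Subgroup G)}.indicator
      fun _ ↦ 1) s - ((1 / (Nat.card G : ℝ) : ℝ) : ℂ) * (lg s : ℂ)) =O[𝓝[>] 1]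
      (fun _ ↦ (1 : ℝ)) := by
    refine h1.congr_left fun s ↦ ?_
    rw [psum_indicator]
    simp only [lg]
    push_cast
    ring
  refine (h2.add h3).congr_left fun s ↦ ?_
  ring

/-- characters trivial on the image of `G` -/
def Triv (φ : G →* (ZMod m)ˣ) (χ : DirichletCharacter ℂ m) : Prop := ∀ g : G, χ (φ g) = 1

include hfrob in
theorem psum_chi_of_triv {χ : DirichletCharacter ℂ m} (hχ : Triv φ χ) :
    (fun s : ℝ ↦ psum (fun P : HeightOneSpectrum (𝓞 F) ↦ χ (Ideal.absNorm P.asIdeal : ZMod m)) s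
      - (lg s : ℂ)) =O[𝓝[>] 1] (fun _ ↦ (1 : ℝ)) := by
  have h1 := ofReal_isBigO (pzeta_isBigO F)
  have h2 := psum_sub_isBigO (bdd_chi χ) (bdd_one (F := F)) (badSet_finite F m) (fun P hP ↦ by
    rw [← hfrob P hP]
    exact hχ _)
  refine (h2.add h1).congr_left fun s ↦ ?_
  rw [psum_one]
  simp only [lg]
  push_cast
  ring

theorem sum_psum_chi {s : ℝ} (hs : 1 < s) :
    ∑ χ : DirichletCharacter ℂ m,
      psum (fun P : HeightOneSpectrum (𝓞 F) ↦ χ (Ideal.absNorm P.asIdeal : ZMod m)) s =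
    (m.totient : ℂ) *
      psum ({P : HeightOneSpectrum (𝓞 F) | (Ideal.absNorm P.asIdeal : ZMod m) = 1}.indicator
        fun _ ↦ 1) s := by
  rw [← psum_finsetSum _ (fun χ _ ↦ bdd_chi χ) hs, ← psum_const_mul]
  unfold psum
  refine tsum_congr fun P ↦ ?_
  beta_reduce
  rw [DirichletCharacter.sum_characters_eq, Set.indicator_apply]
  simp only [Set.mem_ofPred_eq]
  split_ifs <;> simp

open Classical in
include hφ in
theorem card_triv :
    (((Finset.univ : Finset (DirichletCharacter ℂ m)).filter (Triv φ)).card : ℂ) * (Nat.card G : ℂ) =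
      (m.totient : ℂ) := by
  have := Fintype.ofFinite G
  have h1 : ∑ g : G, ∑ χ : DirichletCharacter ℂ m, χ ((φ g : (ZMod m)ˣ) : ZMod m) =
      (m.totient : ℂ) := by
    rw [Finset.sum_eq_single 1]
    · rw [DirichletCharacter.sum_characters_eq, map_one, Units.val_one, if_pos rfl]
    · intro g _ hg
      rw [DirichletCharacter.sum_characters_eq, if_neg]
      rw [Units.val_eq_one, ← map_one φ]
      exact fun h ↦ hg (hφ h)
    · intro h; exact absurd (Finset.mem_univ _) h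
  rw [← h1, Finset.sum_comm, Nat.card_eq_fintype_card]
  have h2 : ∀ χ : DirichletCharacter ℂ m, ∑ g : G, χ ((φ g : (ZMod m)ˣ) : ZMod m) =
      if Triv φ χ then (Fintype.card G : ℂ) else 0 := by
    intro χ
    let ψ : G →* ℂ := (χ : ZMod m →* ℂ).comp ((Units.coeHom (ZMod m)).comp φ)
    have h3 := sum_hom_units (R := ℂ) (G := G) ψ
    have h4 : (ψ = 1) ↔ Triv φ χ := by
      constructor
      · intro h g
        exact DFunLike.congr_fun h g
      · intro h
        ext g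
        exact h g
    simp only [h4] at h3
    have h5 : ∑ g : G, ψ g = ∑ g : G, χ ((φ g : (ZMod m)ˣ) : ZMod m) := rfl
    rw [← h5, h3]
    split_ifs <;> simp
  rw [Finset.sum_congr rfl fun χ _ ↦ h2 χ, ← Finset.sum_filter, Finset.sum_const, nsmul_eq_mul]

open Classical in
include hφ hfrob in
/-- the sum over the nontrivial characters is bounded -/
theorem sum_nontriv_isBigO :
    (fun s : ℝ ↦ ∑ χ ∈ (Finset.univ : Finset (DirichletCharacter ℂ m)).filter (fun χ ↦ ¬ Triv φ χ),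
      psum (fun P : HeightOneSpectrum (𝓞 F) ↦ χ (Ideal.absNorm P.asIdeal : ZMod m)) s)
      =O[𝓝[>] 1] (fun _ ↦ (1 : ℝ)) := by
  have h1 := (psum_norm_one (F := F) (E := E) hφ hfrob).const_mul_left (m.totient : ℂ)
  have h2 := IsBigO.sum (s := (Finset.univ : Finset (DirichletCharacter ℂ m)).filter (Triv φ))
    (A := fun χ s ↦ psum (fun P : HeightOneSpectrum (𝓞 F) ↦ χ (Ideal.absNorm P.asIdeal : ZMod m)) s
      - (lg s : ℂ)) (fun χ hχ ↦ psum_chi_of_triv (F := F) (E := E) hfrob (Finset.mem_filter.1 hχ).2)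
  refine (h1.sub h2).congr' ?_ EventuallyEq.rfl
  filter_upwards [self_mem_nhdsWithin] with s hs
  have hs : 1 < s := hs
  have h3 := sum_psum_chi (F := F) (m := m) hs
  have h4 := Finset.sum_filter_add_sum_filter_not (Finset.univ : Finset (DirichletCharacter ℂ m))
    (Triv φ) (fun χ ↦ psum (fun P : HeightOneSpectrum (𝓞 F) ↦
      χ (Ideal.absNorm P.asIdeal : ZMod m)) s)
  have h5 := card_triv (m := m) hφ
  have h6 : (Nat.card G : ℂ) ≠ 0 := by exact_mod_cast Nat.card_pos.ne'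
  rw [← h4] at h3
  rw [Finset.sum_apply, Finset.sum_sub_distrib, Finset.sum_const, nsmul_eq_mul]
  rw [mul_sub, ← h3, ← h5]
  push_cast
  field_simp
  ring

include hfrob in
theorem exists_ideal_of_not_triv {χ : DirichletCharacter ℂ m} (hχ : ¬ Triv φ χ) :
    ∃ 𝔠 : Ideal (𝓞 F), 𝔠 ≠ ⊥ ∧ 𝔠 ⊔ Ideal.span {(m : 𝓞 F)} = ⊤ ∧
    χ (Ideal.absNorm 𝔠 : ZMod m) ≠ 1 := by
  classical
  unfold Triv at hχ
  push Not at hχ
  obtain ⟨g, hg⟩ := hχ
  let ψ : G →* ℂ := (χ : ZMod m →* ℂ).comp ((Units.coeHom (ZMod m)).comp φ)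
  have hg : ψ g ≠ 1 := hg
  set H : Subgroup G := ψ.ker with hH
  have hne : H ≠ ⊤ := by
    intro h
    have : g ∈ H := h ▸ Subgroup.mem_top g
    exact hg (MonoidHom.mem_ker.1 this)
  have hidx : 1 < H.index := by
    have h0 : H.index ≠ 0 := Subgroup.index_ne_zero_of_finite
    have h1 : H.index ≠ 1 := fun h ↦ hne (Subgroup.index_eq_one.1 h)
    omega
  have hidx' : (1 : ℝ) < H.index := by exact_mod_cast hidx
  have h1 := density_frob_mem (K := F) (L := E) G H
  have h2 := pzeta_isBigO F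
  have h3 : (fun s : ℝ ↦ pzetaOn {P : HeightOneSpectrum (𝓞 F) | frob E G P ∉ H} s -
      (1 - 1 / (H.index : ℝ)) * Real.log (1 / (s - 1))) =O[𝓝[>] 1] (fun _ ↦ (1 : ℝ)) := by
    refine (h2.sub h1).congr' ?_ EventuallyEq.rfl
    filter_upwards [self_mem_nhdsWithin] with s hs
    have hs : 1 < s := hs
    have h4 : pzeta F s = pzetaOn {P : HeightOneSpectrum (𝓞 F) | frob E G P ∈ H} s +
        pzetaOn {P : HeightOneSpectrum (𝓞 F) | frob E G P ∉ H} s := by
      unfold pzeta pzetaOn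
      rw [← (summable_pzetaOn _ hs).tsum_add (summable_pzetaOn _ hs)]
      refine tsum_congr fun P ↦ ?_
      by_cases h5 : frob E G P ∈ H
      · have h6 : P ∈ {P : HeightOneSpectrum (𝓞 F) | frob E G P ∈ H} := h5
        have h7 : P ∉ {P : HeightOneSpectrum (𝓞 F) | frob E G P ∉ H} := fun h ↦ h h5
        rw [Set.indicator_of_mem h6, Set.indicator_of_notMem h7, add_zero]
      · have h6 : P ∉ {P : HeightOneSpectrum (𝓞 F) | frob E G P ∈ H} := h5
        have h7 : P ∈ {P : HeightOneSpectrum (𝓞 F) | frob E G P ∉ H} := h5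
        rw [Set.indicator_of_notMem h6, Set.indicator_of_mem h7, zero_add]
    rw [h4]
    ring
  have hδ : (0 : ℝ) < 1 - 1 / (H.index : ℝ) := by
    rw [sub_pos, div_lt_one (by linarith)]
    exact hidx'
  obtain ⟨P, hPT, hPB, -⟩ := exists_prime_of_density _ hδ h3 _ (badSet_finite F m)
  refine ⟨P.asIdeal, P.ne_bot, ?_, ?_⟩
  · have hmax : P.asIdeal.IsMaximal := P.isPrime.isMaximal P.ne_bot
    by_contra hcon
    have h5 : P.asIdeal ⊔ Ideal.span {(m : 𝓞 F)} = P.asIdeal :=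
      (hmax.eq_of_le hcon le_sup_left).symm
    apply hPB
    change (m : 𝓞 F) ∈ P.asIdeal
    rw [← h5]
    exact Ideal.mem_sup_right (Ideal.mem_span_singleton_self _)
  · rw [← hfrob P hPB]
    intro h5
    exact hPT (MonoidHom.mem_ker.2 h5)

include hfrob in
/-- upper bound for the real part -/
theorem re_le_of_not_triv (hlim : LimitHyp F m) {χ : DirichletCharacter ℂ m}
    (hχ : ¬ Triv φ χ) : ∃ C : ℝ, ∀ᶠ s : ℝ in 𝓝[>] 1,
      (psum (fun P : HeightOneSpectrum (𝓞 F) ↦ χ (Ideal.absNorm P.asIdeal : ZMod m)) s).re ≤ C := by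
  obtain ⟨c, hc⟩ := hlim χ (exists_ideal_of_not_triv (F := F) (E := E) hfrob hχ)
  have h1 : ∀ᶠ s : ℝ in 𝓝[>] 1, ‖∑' I : Ideal (𝓞 F),
      χ (Ideal.absNorm I : ZMod m) * (Ideal.absNorm I : ℂ) ^ (-(s : ℂ))‖ < ‖c‖ + 1 :=
    hc.norm.eventually_lt_const (by linarith)
  refine ⟨Real.log (‖c‖ + 1) + pzeta F 2, ?_⟩
  filter_upwards [h1, self_mem_nhdsWithin] with s hs1 hs
  have hs : 1 < s := hs
  rw [← LL_chiN χ hs] at hs1
  rw [← Zψ_chiN]
  have h2 := abs_log_norm_LL_sub_le (norm_chiN_le (F := F) χ) hs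
  have h3 := LL_ne_zero (norm_chiN_le (F := F) χ) hs
  have h4 : Real.log ‖LL (chiN F χ) s‖ ≤ Real.log (‖c‖ + 1) :=
    Real.log_le_log (norm_pos_iff.2 h3) hs1.le
  rw [abs_le] at h2
  linarith [h2.1]

include hφ hfrob in
/-- lower bound for the real part -/
theorem le_re_of_not_triv (hlim : LimitHyp F m) {χ : DirichletCharacter ℂ m}
    (hχ : ¬ Triv φ χ) : ∃ C : ℝ, ∀ᶠ s : ℝ in 𝓝[>] 1,
      C ≤ (psum (fun P : HeightOneSpectrum (𝓞 F) ↦ χ (Ideal.absNorm P.asIdeal : ZMod m)) s).re := by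
  classical
  obtain ⟨C₀, hC₀⟩ := (sum_nontriv_isBigO (F := F) (E := E) hφ hfrob).bound
  have h1 : ∀ χ' : DirichletCharacter ℂ m, ∃ C : ℝ, ¬ Triv φ χ' → ∀ᶠ s : ℝ in 𝓝[>] 1,
      (psum (fun P : HeightOneSpectrum (𝓞 F) ↦ χ' (Ideal.absNorm P.asIdeal : ZMod m)) s).re ≤ C := by
    intro χ'
    by_cases h : Triv φ χ'
    · exact ⟨0, fun h' ↦ absurd h h'⟩
    · obtain ⟨C, hC⟩ := re_le_of_not_triv (F := F) (E := E) hfrob hlim h
      exact ⟨C, fun _ ↦ hC⟩
  choose C hC using h1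
  set S := (Finset.univ : Finset (DirichletCharacter ℂ m)).filter (fun χ ↦ ¬ Triv φ χ) with hS
  have hmem : χ ∈ S := Finset.mem_filter.2 ⟨Finset.mem_univ _, hχ⟩
  refine ⟨-C₀ - ∑ χ' ∈ S.erase χ, C χ', ?_⟩
  have h2 : ∀ᶠ s : ℝ in 𝓝[>] 1, ∀ χ' ∈ S.erase χ,
      (psum (fun P : HeightOneSpectrum (𝓞 F) ↦ χ' (Ideal.absNorm P.asIdeal : ZMod m)) s).re ≤ C χ' := by
    rw [Filter.eventually_all_finset]
    intro χ' hχ'
    exact hC χ' (Finset.mem_filter.1 (Finset.mem_of_mem_erase hχ')).2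
  filter_upwards [h2, hC₀] with s hs1 hs2
  rw [norm_one, mul_one] at hs2
  have h3 := (Complex.abs_re_le_norm _).trans hs2
  rw [Complex.re_sum, ← Finset.add_sum_erase _ _ hmem, abs_le] at h3
  have h4 := Finset.sum_le_sum hs1
  linarith [h3.1]

include hφ hfrob in
/-- For `χ` nontrivial on `G`: `∑ χ(N P) N(P)^{-s} = O(1)`. -/
theorem psum_chi_isBigO (hlim : LimitHyp F m) {χ : DirichletCharacter ℂ m}
    (hχ : ¬ Triv φ χ) :
    (psum (fun P : HeightOneSpectrum (𝓞 F) ↦ χ (Ideal.absNorm P.asIdeal : ZMod m)))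
      =O[𝓝[>] 1] (fun _ ↦ (1 : ℝ)) := by
  obtain ⟨c, hc⟩ := hlim χ (exists_ideal_of_not_triv (F := F) (E := E) hfrob hχ)
  obtain ⟨C, hC⟩ := le_re_of_not_triv (F := F) (E := E) hφ hfrob hlim hχ
  have hψ := norm_chiN_le (F := F) χ
  have hc' : Tendsto (fun s ↦ Complex.exp (logL (chiN F χ) s)) (𝓝[>] 1) (𝓝 c) := by
    refine hc.congr' ?_
    filter_upwards [self_mem_nhdsWithin] with s hs
    have hs : 1 < s := hs
    rw [exp_logL hψ hs, LL_chiN χ hs]
  have hc0 : c ≠ 0 := by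
    intro h0
    rw [h0] at hc'
    have h1 := hc'.norm
    rw [norm_zero] at h1
    have h2 : ∀ᶠ s : ℝ in 𝓝[>] 1, Real.exp (C - pzeta F 2) ≤
        ‖Complex.exp (logL (chiN F χ) s)‖ := by
      filter_upwards [hC, self_mem_nhdsWithin] with s hs1 hs
      have hs : 1 < s := hs
      rw [Complex.norm_exp]
      apply Real.exp_le_exp.2
      rw [re_logL hψ hs]
      have h3 := abs_log_norm_LL_sub_le hψ hs
      rw [← Zψ_chiN] at hs1
      rw [abs_le] at h3
      linarith [h3.1]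
    have h3 := ge_of_tendsto h1 h2
    exact absurd h3 (not_le.2 (Real.exp_pos _))
  have h1 := bounded_of_exp_tendsto (continuousOn_logL hψ) hc0 hc'
  have h2 : (fun s ↦ logL (chiN F χ) s - Zψ (chiN F χ) s) =O[𝓝[>] 1] (fun _ ↦ (1 : ℝ)) := by
    refine IsBigO.of_bound (pzeta F 2) ?_
    filter_upwards [self_mem_nhdsWithin] with s hs
    rw [norm_one, mul_one]
    exact norm_logL_sub_Zψ_le hψ hs
  refine (h1.sub h2).congr_left fun s ↦ ?_
  rw [sub_sub_cancel, Zψ_chiN]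

include hφ hfrob in
/-- **Primes with norm in a given residue class**, first form. -/
theorem pzetaOn_norm_eq (hlim : LimitHyp F m) (g : G) :
    (fun s : ℝ ↦ pzetaOn {P : HeightOneSpectrum (𝓞 F) |
        (Ideal.absNorm P.asIdeal : ZMod m) = ((φ g : (ZMod m)ˣ) : ZMod m)} s -
      (1 / (Nat.card G : ℝ)) * Real.log (1 / (s - 1))) =O[𝓝[>] 1] (fun _ ↦ (1 : ℝ)) := by
  classical
  set a : ZMod m := ((φ g : (ZMod m)ˣ) : ZMod m) with ha
  have hau : IsUnit a := Units.isUnit _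
  have h1 := psum_norm_one (F := F) (E := E) hφ hfrob
  have h2 : (fun s : ℝ ↦ ∑ χ : DirichletCharacter ℂ m, (χ a⁻¹ - 1) *
      psum (fun P : HeightOneSpectrum (𝓞 F) ↦ χ (Ideal.absNorm P.asIdeal : ZMod m)) s)
      =O[𝓝[>] 1] (fun _ ↦ (1 : ℝ)) := by
    have h2' := IsBigO.sum (s := (Finset.univ : Finset (DirichletCharacter ℂ m)))
      (A := fun χ s ↦ (χ a⁻¹ - 1) *
        psum (fun P : HeightOneSpectrum (𝓞 F) ↦ χ (Ideal.absNorm P.asIdeal : ZMod m)) s)
      (g := fun _ ↦ (1 : ℝ)) (l := 𝓝[>] 1) (fun χ _ ↦ ?_)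
    · refine h2'.congr_left fun s ↦ ?_
      rw [Finset.sum_apply]
    by_cases hχ : Triv φ χ
    · have h3 : χ a⁻¹ - 1 = 0 := by
        have h4 : χ (a⁻¹ * a) = 1 := by
          rw [ZMod.inv_mul_of_unit a hau, map_one]
        rw [map_mul, hχ g, mul_one] at h4
        rw [h4, sub_self]
      simp only [h3, zero_mul]
      exact isBigO_zero _ _
    · exact (psum_chi_isBigO (F := F) (E := E) hφ hfrob hlim hχ).const_mul_left _
  have h0 : (m.totient : ℂ) ≠ 0 := by
    exact_mod_cast (Nat.totient_pos.2 (NeZero.pos m)).ne'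
  have h3 := (h2.const_mul_left ((m.totient : ℂ)⁻¹)).add h1
  have h4 : (fun s : ℝ ↦ ((pzetaOn {P : HeightOneSpectrum (𝓞 F) |
        (Ideal.absNorm P.asIdeal : ZMod m) = a} s -
      (1 / (Nat.card G : ℝ)) * Real.log (1 / (s - 1)) : ℝ) : ℂ)) =O[𝓝[>] 1] (fun _ ↦ (1 : ℝ)) := by
    refine h3.congr' ?_ EventuallyEq.rfl
    filter_upwards [self_mem_nhdsWithin] with s hs
    have hs : 1 < s := hs
    have h5 : ∑ χ : DirichletCharacter ℂ m, χ a⁻¹ *
        psum (fun P : HeightOneSpectrum (𝓞 F) ↦ χ (Ideal.absNorm P.asIdeal : ZMod m)) s =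
        (m.totient : ℂ) * (pzetaOn {P : HeightOneSpectrum (𝓞 F) |
        (Ideal.absNorm P.asIdeal : ZMod m) = a} s : ℂ) := by
      rw [← psum_indicator, ← psum_const_mul]
      simp_rw [← psum_const_mul]
      rw [← psum_finsetSum _ (fun χ _ ↦ ?_) hs]
      · unfold psum
        refine tsum_congr fun P ↦ ?_
        beta_reduce
        rw [DirichletCharacter.sum_char_inv_mul_char_eq ℂ hau, Set.indicator_apply]
        simp only [Set.mem_ofPred_eq, eq_comm (a := a)]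
        split_ifs <;> simp
      · refine ⟨1, fun P ↦ ?_⟩
        rw [norm_mul]
        exact mul_le_one₀ (DirichletCharacter.norm_le_one χ _) (norm_nonneg _)
          (DirichletCharacter.norm_le_one χ _)
    simp only [sub_mul, one_mul, Finset.sum_sub_distrib]
    rw [h5, sum_psum_chi hs, psum_indicator]
    simp only [lg]
    push_cast
    field_simp
    ring
  refine IsBigO.of_norm_left (h4.norm_left.congr_left fun s ↦ ?_)
  rw [Complex.norm_real]

end main

/-! ### cyclotomic extensions -/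

section cyclotomic

open scoped IsMulCommutative

variable {F E : Type*} [Field F] [NumberField F] [Field E] [NumberField E] [Algebra F E]
  {m : ℕ} [NeZero m]

theorem frob_apply_root [IsAbelianGalois F E] {ζ : E} (hζ : IsPrimitiveRoot ζ m)
    {P : HeightOneSpectrum (𝓞 F)} (hP : P ∉ badSet F m) :
    (frob E (E ≃ₐ[F] E) P) ζ = ζ ^ (Ideal.absNorm P.asIdeal) := by
  obtain ⟨Q, hQ⟩ := exists_above F E P
  have hint : IsIntegral ℤ ζ := hζ.isIntegral (NeZero.pos m)
  let z : 𝓞 E := ⟨ζ, hint⟩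
  have hz : z ^ m = 1 := by
    apply FaithfulSMul.algebraMap_injective (𝓞 E) E
    rw [map_pow, map_one]
    exact hζ.pow_eq_one
  have hmQ : (m : 𝓞 E) ∉ Q.asIdeal := by
    intro h
    apply hP
    change (m : 𝓞 F) ∈ P.asIdeal
    have h1 : P.asIdeal = Q.asIdeal.under (𝓞 F) := congrArg HeightOneSpectrum.asIdeal hQ.symm
    rw [h1]
    change algebraMap (𝓞 F) (𝓞 E) (m : 𝓞 F) ∈ Q.asIdeal
    rwa [map_natCast]
  have hQp := Q.isPrime
  have h2 := (frob_spec (E ≃ₐ[F] E) P ⟨Q, hQ⟩).apply_of_pow_eq_one hz hmQ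
  rw [card_quot (L := E) P ⟨Q, hQ⟩] at h2
  have h3 := congrArg (algebraMap (𝓞 E) E) h2
  rw [map_pow] at h3
  exact h3

omit [NumberField F] [NumberField E] in
theorem apply_root_eq_iff {ζ : E} (hζ : IsPrimitiveRoot ζ m) (τ : E ≃ₐ[F] E) (n : ℕ) :
    τ ζ = ζ ^ n ↔ (n : ZMod m) = ((hζ.autToPow F τ : (ZMod m)ˣ) : ZMod m) := by
  rw [← hζ.autToPow_spec F τ, (hζ.isOfFinOrder (NeZero.ne m)).pow_eq_pow_iff_modEq, ← hζ.eq_orderOf,
    ← ZMod.natCast_eq_natCast_iff, ZMod.natCast_zmod_val, eq_comm]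

theorem frobCompat_autToPow [IsAbelianGalois F E] {ζ : E} (hζ : IsPrimitiveRoot ζ m) :
    FrobCompat F E (hζ.autToPow F) := by
  intro P hP
  exact ((apply_root_eq_iff hζ _ _).1 (frob_apply_root hζ hP)).symm

omit [NumberField F] [NumberField E] in
theorem autToPow_inj [IsCyclotomicExtension {m} F E] {ζ : E} (hζ : IsPrimitiveRoot ζ m) :
    Function.Injective (hζ.autToPow F) := hζ.autToPow_injective F

theorem pzetaOn_norm_eq_cyclotomic [IsCyclotomicExtension {m} F E] {ζ : E}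
    (hζ : IsPrimitiveRoot ζ m) (hlim : LimitHyp F m) (τ : E ≃ₐ[F] E) :
    (fun s : ℝ ↦ pzetaOn {P : HeightOneSpectrum (𝓞 F) | τ ζ = ζ ^ (Ideal.absNorm P.asIdeal)} s -
      (Module.finrank F E : ℝ)⁻¹ * Real.log (1 / (s - 1))) =O[𝓝[>] 1] (fun _ ↦ (1 : ℝ)) := by
  have hab : IsAbelianGalois F E := IsCyclotomicExtension.isAbelianGalois {m} F E
  have h1 := pzetaOn_norm_eq (F := F) (E := E) (G := E ≃ₐ[F] E) (autToPow_inj hζ)
    (frobCompat_autToPow hζ) hlim τ
  rw [IsGalois.card_aut_eq_finrank, one_div] at h1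
  simp only [apply_root_eq_iff hζ]
  exact h1

end cyclotomic

/-- The cyclotomic case of Chebotarev's theorem in the form needed for the crossing argument. -/
theorem cycloPrimeDensity.{u} (hlim : ∀ (F : Type u) [Field F] [NumberField F] (m : ℕ) [NeZero m],
    LimitHyp F m) : Crossing.CycloPrimeDensity.{u} := by
  intro F _ _ E _ _ _ m _ _ ζ hζ τ B
  obtain ⟨C, hC⟩ := (pzetaOn_norm_eq_cyclotomic hζ (hlim F m) τ).bound
  set T : Set (HeightOneSpectrum (𝓞 F)) := {P | τ ζ = ζ ^ (Ideal.absNorm P.asIdeal)} with hT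
  set B' : Set (HeightOneSpectrum (𝓞 F)) := {P | ∃ q ∈ (B : Set ℕ), q ≠ 0 ∧ (q : 𝓞 F) ∈ P.asIdeal}
    with hB'
  have hB'f : B'.Finite := finite_primes_over_nat F (B : Set ℕ) B.finite_toSet
  set C₂ : ℝ := ∑' P : HeightOneSpectrum (𝓞 F), nrm (below ℚ P).asIdeal 2 with hC₂
  refine ⟨C + B'.ncard + C₂, ?_⟩
  filter_upwards [hC, self_mem_nhdsWithin] with s hs1 hs
  have hs : 1 < s := hs
  rw [norm_one, mul_one, Real.norm_eq_abs] at hs1
  set T' : Set (HeightOneSpectrum (𝓞 F)) :=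
    {v | v ∈ DedekindEuler.goodSet F B ∧ τ ζ = ζ ^ (Ideal.absNorm v.asIdeal)} with hT'
  have h1 : ∑' v : HeightOneSpectrum (𝓞 F), T'.indicator (DedekindEuler.x s) v = pzetaOn T' s := rfl
  rw [h1]
  have h2 : pzetaOn T' s ≤ pzetaOn T s := by
    refine (summable_pzetaOn T' hs).tsum_le_tsum (fun P ↦ ?_) (summable_pzetaOn T hs)
    exact Set.indicator_le_indicator_of_subset (fun P hP ↦ hP.2) (fun _ ↦ nrm_nonneg _ _) P
  have h3 : pzetaOn T s ≤ pzetaOn T' s + (pzetaOn B' s +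
      pzetaOn {P : HeightOneSpectrum (𝓞 F) | ¬ (Ideal.absNorm P.asIdeal).Prime} s) := by
    unfold pzetaOn
    rw [← (summable_pzetaOn B' hs).tsum_add (summable_pzetaOn _ hs),
      ← (summable_pzetaOn T' hs).tsum_add ((summable_pzetaOn B' hs).add (summable_pzetaOn _ hs))]
    refine (summable_pzetaOn T hs).tsum_le_tsum (fun P ↦ ?_)
      ((summable_pzetaOn T' hs).add ((summable_pzetaOn B' hs).add (summable_pzetaOn _ hs)))
    have hn := nrm_nonneg P.asIdeal s
    have hi : ∀ U : Set (HeightOneSpectrum (𝓞 F)),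
        0 ≤ U.indicator (fun P ↦ nrm P.asIdeal s) P := fun U ↦
      Set.indicator_nonneg (fun _ _ ↦ nrm_nonneg _ _) P
    by_cases hPT : P ∈ T
    · rw [Set.indicator_of_mem hPT]
      by_cases hp : (Ideal.absNorm P.asIdeal).Prime
      · by_cases hpB : Ideal.absNorm P.asIdeal ∈ B
        · have h4 : P ∈ B' := ⟨_, hpB, hp.ne_zero, Ideal.absNorm_mem _⟩
          have h5 := hi T'
          have h6 := hi {P : HeightOneSpectrum (𝓞 F) | ¬ (Ideal.absNorm P.asIdeal).Prime}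
          rw [Set.indicator_of_mem h4]
          linarith
        · have h4 : P ∈ T' := ⟨⟨hp, hpB⟩, hPT⟩
          have h5 := hi B'
          have h6 := hi {P : HeightOneSpectrum (𝓞 F) | ¬ (Ideal.absNorm P.asIdeal).Prime}
          rw [Set.indicator_of_mem h4]
          linarith
      · have h4 : P ∈ {P : HeightOneSpectrum (𝓞 F) | ¬ (Ideal.absNorm P.asIdeal).Prime} := hp
        have h5 := hi B'
        have h6 := hi T'
        rw [Set.indicator_of_mem h4]
        linarith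
    · rw [Set.indicator_of_notMem hPT]
      have h4 := hi T'
      have h5 := hi B'
      have h6 := hi {P : HeightOneSpectrum (𝓞 F) | ¬ (Ideal.absNorm P.asIdeal).Prime}
      linarith
  have h4 := pzetaOn_le_of_finite hB'f (by linarith : 0 < s)
  have h5 := pzetaOn_not_prime_le F hs
  rw [abs_le] at hs1 ⊢
  have h6 : (0 : ℝ) ≤ B'.ncard := Nat.cast_nonneg _
  have h7 : 0 ≤ C₂ := tsum_nonneg fun _ ↦ nrm_nonneg _ _
  constructor <;> linarith [hs1.1, hs1.2]

end Fermat.Agent.Density.CycloPrimes
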