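import Fermat.Agent.Density.RayClassL
import Fermat.Agent.Density.CycloPrimes

/-!
The ray class character `χ ∘ N` for a Dirichlet character `χ`.
-/

set_option autoImplicit false
set_option linter.unusedSectionVars false

open NumberField NumberField.InfinitePlace Module Filter Topology nonZeroDivisors

namespace Fermat.Agent.Density.RayClassL

noncomputable section

variable {K : Type*} [Field K] [NumberField K]

open Classical in
theorem filter_mk_eq (w : InfinitePlace K) :
    (Finset.univ.filter fun φ : K →+* ℂ ↦ InfinitePlace.mk φ = w) =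
      {embedding w} ∪ {ComplexEmbedding.conjugate (embedding w)} := by
  ext φ
  simp only [Finset.mem_filter, Finset.mem_univ, true_and, Finset.mem_union, Finset.mem_singleton]
  conv_lhs => rw [← mk_embedding w]
  rw [mk_eq_iff, ComplexEmbedding.conjugate, star_involutive.eq_iff]

open Classical in
theorem prod_fiber_nonneg {a : K} (hpos : ∀ φ : K →+* ℝ, 0 < φ a) (w : InfinitePlace K) :
    ∃ r : ℝ, 0 ≤ r ∧ ∏ σ ∈ Finset.univ.filter (fun φ : K →+* ℂ ↦ InfinitePlace.mk φ = w), σ a =
      (r : ℂ) := by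
  rw [filter_mk_eq]
  by_cases hw : IsReal w
  · rw [ComplexEmbedding.isReal_iff.mp (isReal_iff.mp hw), Finset.union_idempotent,
      Finset.prod_singleton]
    refine ⟨embedding_of_isReal hw a, (hpos _).le, ?_⟩
    rw [embedding_of_isReal_apply]
  · have hne : embedding w ≠ ComplexEmbedding.conjugate (embedding w) := by
      intro h
      apply hw
      rw [isReal_iff, ComplexEmbedding.isReal_iff]
      exact h.symm
    rw [Finset.prod_union (by simpa using hne), Finset.prod_singleton, Finset.prod_singleton]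
    refine ⟨Complex.normSq (embedding w a), Complex.normSq_nonneg _, ?_⟩
    rw [ComplexEmbedding.conjugate_coe_eq, Complex.mul_conj]

theorem norm_pos_of_totallyPositive {a : 𝓞 K} (ha : a ≠ 0)
    (hpos : ∀ φ : K →+* ℝ, 0 < φ (a : K)) : 0 < Algebra.norm ℤ a := by
  classical
  have h1 := Algebra.norm_eq_prod_embeddings ℚ ℂ (a : K)
  have h2 : ∏ σ : K →ₐ[ℚ] ℂ, σ (a : K) = ∏ σ : K →+* ℂ, σ (a : K) :=
    (Fintype.prod_equiv (RingHom.equivRatAlgHom K ℂ) _ _ fun _ ↦ by
      simp [RingHom.equivRatAlgHom_apply]).symm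
  rw [h2, ← Finset.prod_fiberwise Finset.univ InfinitePlace.mk (fun φ : K →+* ℂ ↦ φ (a : K))] at h1
  choose r hr0 hr using prod_fiber_nonneg hpos
  rw [Finset.prod_congr rfl fun w _ ↦ hr w, ← Complex.ofReal_prod] at h1
  have h3 : ((Algebra.norm ℚ (a : K) : ℚ) : ℝ) = ∏ w, r w := by
    apply Complex.ofReal_injective
    rw [← h1]
    simp
  have h4 : 0 ≤ Algebra.norm ℚ (a : K) := by
    have : (0 : ℝ) ≤ ((Algebra.norm ℚ (a : K) : ℚ) : ℝ) := by
      rw [h3]; exact Finset.prod_nonneg fun w _ ↦ hr0 w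
    exact_mod_cast this
  rw [← Algebra.coe_norm_int] at h4
  have h5 : 0 ≤ Algebra.norm ℤ a := by exact_mod_cast h4
  exact lt_of_le_of_ne h5 (Algebra.norm_ne_zero_iff.mpr ha).symm

theorem isRayChar_chi {m : ℕ} [NeZero m] (χ : DirichletCharacter ℂ m) :
    IsRayChar (K := K) (Ideal.span {(m : 𝓞 K)}) (fun I ↦ χ (Ideal.absNorm I : ZMod m)) where
  mul I J := by rw [map_mul, Nat.cast_mul, map_mul]
  norm_le I := DirichletCharacter.norm_le_one χ _
  bad I hI := by
    apply MulChar.map_nonunit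
    intro hu
    apply hI
    rw [ZMod.isUnit_iff_coprime] at hu
    have h1 : IsCoprime ((Ideal.absNorm I : ℕ) : ℤ) (m : ℤ) := Nat.isCoprime_iff_coprime.mpr hu
    obtain ⟨u, v, huv⟩ := h1
    rw [Ideal.eq_top_iff_one]
    have h2 : (1 : 𝓞 K) = ((u : ℤ) : 𝓞 K) * ((Ideal.absNorm I : ℕ) : 𝓞 K) + ((v : ℤ) : 𝓞 K) * (m : 𝓞 K) := by
      exact_mod_cast (congrArg (Int.cast : ℤ → 𝓞 K) huv).symm
    rw [h2]
    exact Submodule.add_mem_sup (I.mul_mem_left _ (Ideal.absNorm_mem I))
      (Ideal.mul_mem_left _ _ (Ideal.mem_span_singleton_self _))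
  prin a ha0 ha hpos := by
    have hN := norm_pos_of_totallyPositive ha0 hpos
    obtain ⟨b, hb⟩ := Ideal.mem_span_singleton'.mp ha
    have h1 : a = 1 + (m : ℤ) • b := by
      rw [zsmul_eq_mul, Int.cast_natCast, mul_comm, hb]; ring
    obtain ⟨r, hr⟩ := Algebra.norm_one_add_smul (A := ℤ) (m : ℤ) b
    rw [Ideal.absNorm_span_singleton]
    have h2 : ((Int.natAbs (Algebra.norm ℤ a) : ℕ) : ZMod m) = ((Algebra.norm ℤ a : ℤ) : ZMod m) := by
      rw [← Int.cast_natCast, Int.natAbs_of_nonneg hN.le]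
    rw [h2, h1, hr]
    push_cast
    simp

variable (K) in
/-- the analytic input for `CycloPrimes` -/
theorem limitHyp (m : ℕ) [NeZero m] : CycloPrimes.LimitHyp K m := by
  rintro χ ⟨C, hC, hcop, hne⟩
  exact tendsto_rayL (isRayChar_chi χ) hC hcop hne

end

end Fermat.Agent.Density.RayClassL
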