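import Fermat.Agent.Density.Chebotarev
import Fermat.Agent.Density.CycloPrimes
import Fermat.Agent.Density.RayChi

/-!
# Chebotarev's density theorem, unconditionally

The cyclotomic input `CycloPrimeDensity` of `Fermat/Agent/Density/Chebotarev.lean` is provided by
the ray class `L`-functions (`Density/RayClassL.lean`, `Density/RayChi.lean`).
-/

set_option autoImplicit false

open NumberField IsDedekindDomain Filter Topology

namespace Fermat.Agent.Density.Final

open Fermat.Agent.Density.Crossing Fermat.Agent.Density.Chebotarev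

local notation "ℚbar" => AlgebraicClosure ℚ
local notation "Γℚ" => AlgebraicClosure ℚ ≃ₐ[ℚ] AlgebraicClosure ℚ

universe u

/-- the cyclotomic case -/
theorem cycloPrimeDensity : CycloPrimeDensity.{u} :=
  CycloPrimes.cycloPrimeDensity fun F _ _ m _ => RayClassL.limitHyp F m

/-- **Chebotarev's theorem**, existence form: for a finite extension `L / ℚ` inside `ℚ̄`,
`g ∈ Gal(ℚ̄/ℚ)` and a finite set `S`, there are a prime `ℓ ∉ S`, a place `A` of `ℚ̄` above `ℓ`, a
Frobenius `σ` at `A` with `σ = g` on `L`. -/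
theorem exists_frobenius_eq (L : IntermediateField ℚ ℚbar) [FiniteDimensional ℚ L] (S : Finset ℕ)
    (g : Γℚ) :
    ∃ ℓ : ℕ, ℓ.Prime ∧ ℓ ∉ S ∧ ∃ (A : ValuationSubring ℚbar) (σ : Γℚ),
      A.LiesOverPrime ℓ ∧ A.IsFrobeniusAt σ ℓ ∧ ∀ x ∈ L, σ x = g x :=
  Chebotarev.exists_frobenius_eq cycloPrimeDensity L S g

/-- **Chebotarev's theorem**, existence form, Galois case. -/
theorem exists_frobenius_restrictNormal_eq (L : IntermediateField ℚ ℚbar) [FiniteDimensional ℚ L]
    [IsGalois ℚ L] (S : Finset ℕ) (g : L ≃ₐ[ℚ] L) :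
    ∃ ℓ : ℕ, ℓ.Prime ∧ ℓ ∉ S ∧ ∃ (A : ValuationSubring ℚbar) (σ : Γℚ),
      A.LiesOverPrime ℓ ∧ A.IsFrobeniusAt σ ℓ ∧ AlgEquiv.restrictNormal σ L = g :=
  Chebotarev.exists_frobenius_restrictNormal_eq cycloPrimeDensity L S g

/-- The Frobenius elements outside a finite set are dense in `Gal(ℚ̄/ℚ)`. -/
theorem dense_frobElements (S : Finset ℕ) : Dense (frobElements S) :=
  Chebotarev.dense_frobElements cycloPrimeDensity S

/-- Induction principle: a closed predicate which holds at all Frobenius elements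
outside a finite set holds everywhere. -/
theorem forall_of_frob {p : Γℚ → Prop} (hclosed : IsClosed {g | p g}) (S : Finset ℕ)
    (h : ∀ ℓ : ℕ, ℓ.Prime → ℓ ∉ S → ∀ (A : ValuationSubring ℚbar) (σ : Γℚ),
      A.LiesOverPrime ℓ → A.IsFrobeniusAt σ ℓ → p σ) (g : Γℚ) : p g :=
  Chebotarev.forall_of_frob cycloPrimeDensity hclosed S h g

/-- **Chebotarev density theorem** (Dirichlet density): for a conjugation-stable subset `X` of
`Gal(L/ℚ)`, the primes with Frobenius in `X` have Dirichlet density `|X| / [L:ℚ]`. -/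
theorem tendsto_placePrimes (S : Finset ℕ)
    (L : IntermediateField ℚ ℚbar) [FiniteDimensional ℚ L] [IsGalois ℚ L]
    {X : Set (L ≃ₐ[ℚ] L)} (hX : ∀ g h : L ≃ₐ[ℚ] L, g ∈ X → h * g * h⁻¹ ∈ X) :
    Tendsto (fun s : ℝ ↦ (∑' ℓ : ℕ, (placePrimes S L X).indicator (fun ℓ : ℕ ↦ (ℓ : ℝ) ^ (-s)) ℓ) /
      Real.log (1 / (s - 1))) (𝓝[>] 1)
      (𝓝 ((Nat.card X : ℝ) / (Nat.card (L ≃ₐ[ℚ] L) : ℝ))) :=
  Chebotarev.tendsto_placePrimes cycloPrimeDensity S L hX

end Fermat.Agent.Density.Final
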