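import Fermat.Agent.Density.UnitWeightB

/-!
Estimates for the homogeneous weight function `weight x * norm x ^ (-s)` on the mixed space.
-/

set_option autoImplicit false
set_option linter.unusedSectionVars false

open NumberField NumberField.InfinitePlace NumberField.mixedEmbedding NumberField.Units
  NumberField.Units.dirichletUnitTheorem Module

namespace Fermat.Agent.Density.UnitWeight

noncomputable section

variable {K : Type*} [Field K] [NumberField K]

theorem log_norm_eq {x : mixedSpace K} (hx : mixedEmbedding.norm x ≠ 0) :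
    Real.log (mixedEmbedding.norm x) =
      ∑ w : InfinitePlace K, (mult w : ℝ) * Real.log (normAtPlace w x) := by
  rw [mixedEmbedding.norm_apply, Real.log_prod]
  · exact Finset.sum_congr rfl fun w _ ↦ by rw [Real.log_pow]
  · intro w _
    exact pow_ne_zero _ (mixedEmbedding.norm_ne_zero_iff.mp hx w)

theorem sum_mult_real : ∑ w : InfinitePlace K, (mult w : ℝ) = (finrank ℚ K : ℝ) := by
  rw [← Nat.cast_sum, sum_mult_eq]

theorem one_le_mult_real (w : InfinitePlace K) : (1 : ℝ) ≤ (mult w : ℝ) := by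
  exact_mod_cast (mult_pos (w := w))

theorem mult_le_two_real (w : InfinitePlace K) : (mult w : ℝ) ≤ 2 := by
  unfold mult
  split_ifs <;> norm_num

variable (K) in
theorem exists_bound_logMap : ∃ M : ℝ, 0 ≤ M ∧ ∀ x : mixedSpace K, weight x ≠ 0 →
    ∀ w, |logMap x w| ≤ M := by
  classical
  refine ⟨∑ w, ∑ i, |logBasis K i w|, Finset.sum_nonneg fun _ _ ↦ Finset.sum_nonneg
    fun _ _ ↦ abs_nonneg _, fun x hx w ↦ ?_⟩
  have hN := norm_ne_zero_of_weight_ne_zero hx
  rw [weight_of_norm_ne_zero hN] at hx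
  have h1 : logMap x = ∑ i, coords x i • logBasis K i := ((logBasis K).sum_repr (logMap x)).symm
  have h2 : logMap x w = ∑ i, coords x i * logBasis K i w := by
    conv_lhs => rw [h1]
    simp [Finset.sum_apply]
  rw [h2]
  calc |∑ i, coords x i * logBasis K i w| ≤ ∑ i, |coords x i * logBasis K i w| :=
        Finset.abs_sum_le_sum_abs _ _
    _ ≤ ∑ i, |logBasis K i w| := by
        refine Finset.sum_le_sum fun i _ ↦ ?_
        rw [abs_mul]
        exact mul_le_of_le_one_left (abs_nonneg _) (abs_lt_one_of_phi_ne_zero hx i).le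
    _ ≤ ∑ w, ∑ i, |logBasis K i w| :=
        Finset.single_le_sum (f := fun w ↦ ∑ i, |logBasis K i w|)
          (fun w _ ↦ Finset.sum_nonneg fun _ _ ↦ abs_nonneg _) (Finset.mem_univ w)

variable (K) in
theorem exists_bound_log : ∃ M : ℝ, 0 ≤ M ∧ ∀ x : mixedSpace K, weight x ≠ 0 →
    ∀ w : InfinitePlace K,
      |Real.log (normAtPlace w x) - Real.log (mixedEmbedding.norm x) * (finrank ℚ K : ℝ)⁻¹| ≤ M := by
  classical
  obtain ⟨M, hM0, hM⟩ := exists_bound_logMap K
  let S := {w : InfinitePlace K // w ≠ w₀}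
  refine ⟨M + (Fintype.card S) * M, by positivity, fun x hx w ↦ ?_⟩
  have hN := norm_ne_zero_of_weight_ne_zero hx
  set a : InfinitePlace K → ℝ := fun w ↦
    Real.log (normAtPlace w x) - Real.log (mixedEmbedding.norm x) * (finrank ℚ K : ℝ)⁻¹ with ha
  have hd : (finrank ℚ K : ℝ) ≠ 0 := by exact_mod_cast (finrank_pos (R := ℚ) (M := K)).ne'
  have hsum : ∑ w : InfinitePlace K, (mult w : ℝ) * a w = 0 := by
    simp only [ha, mul_sub, Finset.sum_sub_distrib, ← Finset.sum_mul]
    rw [sum_mult_real, ← log_norm_eq hN]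
    field_simp
    ring
  have h1 : ∀ v : S, |a v| ≤ M := by
    intro v
    have h2 := hM x hx v
    rw [logMap_apply, abs_mul, abs_of_nonneg (by positivity : (0 : ℝ) ≤ (mult v.1 : ℝ))] at h2
    exact (le_mul_of_one_le_left (abs_nonneg _) (one_le_mult_real _)).trans h2
  by_cases hw : w = w₀
  · rw [Fintype.sum_eq_add_sum_subtype_ne _ (w₀ : InfinitePlace K)] at hsum
    have h3 : |(mult (w₀ : InfinitePlace K) : ℝ) * a w₀| ≤ Fintype.card S * M := by
      have h4 : (mult (w₀ : InfinitePlace K) : ℝ) * a w₀ = - ∑ v : S, (mult v.1 : ℝ) * a v := by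
        linarith
      rw [h4, abs_neg]
      calc |∑ v : S, (mult v.1 : ℝ) * a v| ≤ ∑ v : S, |(mult v.1 : ℝ) * a v| :=
            Finset.abs_sum_le_sum_abs _ _
        _ ≤ ∑ v : S, M := Finset.sum_le_sum fun v _ ↦ hM x hx v
        _ = Fintype.card S * M := by simp
    rw [abs_mul, abs_of_nonneg (by positivity : (0 : ℝ) ≤ (mult (w₀ : InfinitePlace K) : ℝ))] at h3
    rw [hw]
    have h5 := (le_mul_of_one_le_left (abs_nonneg (a w₀)) (one_le_mult_real w₀)).trans h3
    exact h5.trans (by linarith)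
  · have h6 := h1 ⟨w, hw⟩
    exact h6.trans (by nlinarith [Nat.cast_nonneg (α := ℝ) (Fintype.card S)])

/-- the height of a point of the mixed space (equal to its norm) -/
def hgt (x : mixedSpace K) : ℝ := Finset.univ.sup' Finset.univ_nonempty fun w ↦ normAtPlace w x

theorem normAtPlace_le_hgt (w : InfinitePlace K) (x : mixedSpace K) : normAtPlace w x ≤ hgt x :=
  Finset.le_sup' (fun w ↦ normAtPlace w x) (Finset.mem_univ w)

theorem exists_normAtPlace_eq_hgt (x : mixedSpace K) : ∃ w, hgt x = normAtPlace w x := by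
  obtain ⟨w, -, hw⟩ := Finset.exists_mem_eq_sup' Finset.univ_nonempty (fun w ↦ normAtPlace w x)
  exact ⟨w, hw⟩

theorem hgt_nonneg (x : mixedSpace K) : 0 ≤ hgt x :=
  (normAtPlace_nonneg w₀ x).trans (normAtPlace_le_hgt _ _)

theorem hgt_neg (x : mixedSpace K) : hgt (-x) = hgt x := by
  unfold hgt
  simp_rw [normAtPlace_neg]

theorem hgt_sub_comm (x y : mixedSpace K) : hgt (x - y) = hgt (y - x) := by
  rw [← hgt_neg, neg_sub]

theorem hgt_add_le (x y : mixedSpace K) : hgt (x + y) ≤ hgt x + hgt y := by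
  obtain ⟨w, hw⟩ := exists_normAtPlace_eq_hgt (x + y)
  rw [hw]
  exact (normAtPlace_add_le w x y).trans
    (add_le_add (normAtPlace_le_hgt w x) (normAtPlace_le_hgt w y))

variable (K) in
/-- points of non-zero weight lie in a cone away from the walls -/
theorem exists_cone : ∃ c : ℝ, 0 < c ∧ c ≤ 1 ∧ ∀ x : mixedSpace K, weight x ≠ 0 →
    ∀ w : InfinitePlace K, c * hgt x ≤ normAtPlace w x := by
  obtain ⟨M, hM0, hM⟩ := exists_bound_log K
  refine ⟨Real.exp (-(2 * M)), Real.exp_pos _, Real.exp_le_one_iff.mpr (by linarith),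
    fun x hx w ↦ ?_⟩
  have hN := norm_ne_zero_of_weight_ne_zero hx
  have hpos : ∀ w : InfinitePlace K, 0 < normAtPlace w x := fun w ↦
    lt_of_le_of_ne (normAtPlace_nonneg _ _) (mixedEmbedding.norm_ne_zero_iff.mp hN w).symm
  obtain ⟨w', hw'⟩ := exists_normAtPlace_eq_hgt x
  rw [hw', Real.exp_neg, inv_mul_le_iff₀ (Real.exp_pos _),
    ← Real.log_le_log_iff (hpos w') (mul_pos (Real.exp_pos _) (hpos w)),
    Real.log_mul (Real.exp_pos _).ne' (hpos w).ne', Real.log_exp]
  have h1 := abs_le.mp (hM x hx w)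
  have h2 := abs_le.mp (hM x hx w')
  linarith

theorem abs_normAtPlace_sub_le (w : InfinitePlace K) (x y : mixedSpace K) :
    |normAtPlace w y - normAtPlace w x| ≤ hgt (y - x) := by
  rw [abs_le]
  constructor
  · have h1 := normAtPlace_add_le w (x - y) y
    rw [sub_add_cancel] at h1
    have h2 := normAtPlace_le_hgt w (x - y)
    rw [hgt_sub_comm] at h2
    linarith
  · have h1 := normAtPlace_add_le w (y - x) x
    rw [sub_add_cancel] at h1
    have h2 := normAtPlace_le_hgt w (y - x)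
    linarith

theorem abs_log_sub_log_le {a u v : ℝ} (ha : 0 < a) (hu : a ≤ u) (hv : a ≤ v) :
    |Real.log v - Real.log u| ≤ |v - u| / a := by
  wlog h : u ≤ v generalizing u v
  · rw [abs_sub_comm, abs_sub_comm v u]
    exact this hv hu (le_of_not_ge h)
  have hu0 : 0 < u := ha.trans_le hu
  have hv0 : 0 < v := ha.trans_le hv
  rw [abs_of_nonneg (by linarith : 0 ≤ v - u), abs_of_nonneg
    (sub_nonneg.mpr (Real.log_le_log hu0 h)), ← Real.log_div hv0.ne' hu0.ne']
  have h1 := Real.log_le_sub_one_of_pos (div_pos hv0 hu0)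
  refine h1.trans ?_
  rw [div_sub_one hu0.ne']
  exact div_le_div_of_nonneg_left (by linarith) ha hu

/-- control of the log of the norm -/
theorem abs_log_norm_sub_le {x y : mixedSpace K} {ε : ℝ} (hx : mixedEmbedding.norm x ≠ 0)
    (hy : mixedEmbedding.norm y ≠ 0)
    (h : ∀ w : InfinitePlace K, |Real.log (normAtPlace w y) - Real.log (normAtPlace w x)| ≤ ε) :
    |Real.log (mixedEmbedding.norm y) - Real.log (mixedEmbedding.norm x)| ≤
      (finrank ℚ K : ℝ) * ε := by
  rw [log_norm_eq hx, log_norm_eq hy, ← Finset.sum_sub_distrib]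
  calc |∑ w : InfinitePlace K, ((mult w : ℝ) * Real.log (normAtPlace w y) -
        (mult w : ℝ) * Real.log (normAtPlace w x))|
      ≤ ∑ w : InfinitePlace K, |(mult w : ℝ) * Real.log (normAtPlace w y) -
        (mult w : ℝ) * Real.log (normAtPlace w x)| := Finset.abs_sum_le_sum_abs _ _
    _ ≤ ∑ w : InfinitePlace K, (mult w : ℝ) * ε := by
        refine Finset.sum_le_sum fun w _ ↦ ?_
        rw [← mul_sub, abs_mul, abs_of_nonneg (by positivity : (0 : ℝ) ≤ (mult w : ℝ))]
        exact mul_le_mul_of_nonneg_left (h w) (by positivity)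
    _ = (finrank ℚ K : ℝ) * ε := by rw [← Finset.sum_mul, sum_mult_real]

/-- control of the log map -/
theorem abs_logMap_sub_le {x y : mixedSpace K} {ε : ℝ} (hx : mixedEmbedding.norm x ≠ 0)
    (hy : mixedEmbedding.norm y ≠ 0)
    (h : ∀ w : InfinitePlace K, |Real.log (normAtPlace w y) - Real.log (normAtPlace w x)| ≤ ε)
    (w : {w : InfinitePlace K // w ≠ w₀}) :
    |logMap y w - logMap x w| ≤ 4 * ε := by
  have hd : (0 : ℝ) < (finrank ℚ K : ℝ) := by exact_mod_cast (finrank_pos (R := ℚ) (M := K))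
  have h1 := abs_log_norm_sub_le hx hy h
  have hε : 0 ≤ ε := (abs_nonneg _).trans (h w₀)
  rw [logMap_apply, logMap_apply, ← mul_sub, abs_mul,
    abs_of_nonneg (by positivity : (0 : ℝ) ≤ (mult w.1 : ℝ))]
  have h2 : |Real.log (normAtPlace w.1 y) - Real.log (mixedEmbedding.norm y) * (finrank ℚ K : ℝ)⁻¹ -
      (Real.log (normAtPlace w.1 x) - Real.log (mixedEmbedding.norm x) * (finrank ℚ K : ℝ)⁻¹)| ≤
      2 * ε := by
    have e : Real.log (normAtPlace w.1 y) - Real.log (mixedEmbedding.norm y) * (finrank ℚ K : ℝ)⁻¹ -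
      (Real.log (normAtPlace w.1 x) - Real.log (mixedEmbedding.norm x) * (finrank ℚ K : ℝ)⁻¹) =
      (Real.log (normAtPlace w.1 y) - Real.log (normAtPlace w.1 x)) -
      (Real.log (mixedEmbedding.norm y) - Real.log (mixedEmbedding.norm x)) *
        (finrank ℚ K : ℝ)⁻¹ := by ring
    rw [e]
    refine (abs_sub _ _).trans ?_
    rw [abs_mul, abs_of_nonneg (by positivity : (0 : ℝ) ≤ (finrank ℚ K : ℝ)⁻¹)]
    have h3 : |Real.log (mixedEmbedding.norm y) - Real.log (mixedEmbedding.norm x)| *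
        (finrank ℚ K : ℝ)⁻¹ ≤ ε := by
      rw [mul_inv_le_iff₀ hd, mul_comm ε]
      exact h1
    linarith [h w.1]
  calc (mult w.1 : ℝ) * _ ≤ 2 * (2 * ε) :=
        mul_le_mul (mult_le_two_real _) h2 (abs_nonneg _) (by norm_num)
    _ = 4 * ε := by ring

variable (K) in
theorem exists_bound_coords : ∃ L : ℝ, 0 ≤ L ∧ ∀ (a b : logSpace K) (δ : ℝ),
    (∀ w, |a w - b w| ≤ δ) → ∀ i, |(logBasis K).repr a i - (logBasis K).repr b i| ≤ L * δ := by
  classical
  refine ⟨∑ i, ∑ w, |(logBasis K).repr (Pi.single w 1) i|, Finset.sum_nonneg fun _ _ ↦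
    Finset.sum_nonneg fun _ _ ↦ abs_nonneg _, fun a b δ h i ↦ ?_⟩
  have h1 : (logBasis K).repr a i - (logBasis K).repr b i =
      ∑ w, (a w - b w) * (logBasis K).repr (Pi.single w 1) i := by
    rw [← Finsupp.sub_apply, ← map_sub]
    have h2 : a - b = ∑ w, (a w - b w) • (Pi.single w (1 : ℝ) : logSpace K) := by
      ext v
      simp [Finset.sum_apply, Pi.single_apply]
    rw [h2, map_sum, Finsupp.finsetSum_apply]
    refine Finset.sum_congr rfl fun w _ ↦ ?_
    rw [map_smul, Finsupp.smul_apply, smul_eq_mul]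
  rw [h1]
  have hδ : 0 ≤ δ ∨ IsEmpty {w : InfinitePlace K // w ≠ w₀} := by
    rcases isEmpty_or_nonempty {w : InfinitePlace K // w ≠ w₀} with h3 | ⟨⟨w⟩⟩
    · exact Or.inr h3
    · exact Or.inl ((abs_nonneg _).trans (h w))
  rcases hδ with hδ | hemp
  · calc |∑ w, (a w - b w) * (logBasis K).repr (Pi.single w 1) i|
        ≤ ∑ w, |(a w - b w) * (logBasis K).repr (Pi.single w 1) i| :=
          Finset.abs_sum_le_sum_abs _ _
      _ ≤ ∑ w, δ * |(logBasis K).repr (Pi.single w 1) i| := by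
          refine Finset.sum_le_sum fun w _ ↦ ?_
          rw [abs_mul]
          exact mul_le_mul_of_nonneg_right (h w) (abs_nonneg _)
      _ = δ * ∑ w, |(logBasis K).repr (Pi.single w 1) i| := by rw [Finset.mul_sum]
      _ ≤ δ * ∑ i, ∑ w, |(logBasis K).repr (Pi.single w 1) i| := by
          refine mul_le_mul_of_nonneg_left ?_ hδ
          exact Finset.single_le_sum (f := fun i ↦ ∑ w, |(logBasis K).repr (Pi.single w 1) i|)
            (fun i _ ↦ Finset.sum_nonneg fun _ _ ↦ abs_nonneg _) (Finset.mem_univ i)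
      _ = _ := by ring
  · simp

end

end Fermat.Agent.Density.UnitWeight
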