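import Fermat.Agent.Density.ConeEstimate

/-!
The difference estimate for `G s x = weight x * norm x ^ (-s)`.
-/

set_option autoImplicit false

open NumberField NumberField.InfinitePlace NumberField.mixedEmbedding NumberField.Units
  NumberField.Units.dirichletUnitTheorem Module

namespace Fermat.Agent.Density.UnitWeight

noncomputable section

variable {K : Type*} [Field K] [NumberField K]

/-- the homogeneous function of degree `- d s` -/
def G (s : ℝ) (x : mixedSpace K) : ℝ := weight x * (mixedEmbedding.norm x) ^ (-s)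

theorem G_nonneg (s : ℝ) (x : mixedSpace K) : 0 ≤ G s x :=
  mul_nonneg (weight_nonneg _) (Real.rpow_nonneg (mixedEmbedding.norm_nonneg _) _)

theorem G_of_weight_eq_zero (s : ℝ) {x : mixedSpace K} (h : weight x = 0) : G s x = 0 := by
  unfold G; rw [h, zero_mul]

theorem G_le_one {s : ℝ} (hs : 0 ≤ s) {x : mixedSpace K} (h : 1 ≤ mixedEmbedding.norm x) :
    G s x ≤ 1 := by
  unfold G
  have h1 : (mixedEmbedding.norm x) ^ (-s) ≤ 1 := Real.rpow_le_one_of_one_le_of_nonpos h (by linarith)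
  calc weight x * (mixedEmbedding.norm x) ^ (-s) ≤ 1 * 1 :=
        mul_le_mul (weight_le_one _) h1 (Real.rpow_nonneg (mixedEmbedding.norm_nonneg _) _) zero_le_one
    _ = 1 := one_mul 1

theorem pow_le_norm {x : mixedSpace K} {a : ℝ} (ha : 0 ≤ a) (h : ∀ w : InfinitePlace K, a ≤ normAtPlace w x) :
    a ^ (finrank ℚ K) ≤ mixedEmbedding.norm x := by
  rw [mixedEmbedding.norm_apply, ← sum_mult_eq (K := K), ← Finset.prod_pow_eq_pow_sum]
  exact Finset.prod_le_prod (fun w _ ↦ by positivity) fun w _ ↦ pow_le_pow_left₀ ha (h w) _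

theorem exists_estimate (M : ℝ) (hM : 0 ≤ M) : ∃ R C : ℝ, 0 < R ∧ 0 ≤ C ∧
    ∀ x y : mixedSpace K, hgt (y - x) ≤ M → R ≤ hgt x → weight x ≠ 0 →
      (∀ w : InfinitePlace K, M < normAtPlace w x) ∧
      ∀ s : ℝ, 1 ≤ s → s ≤ 2 →
        |G s y - G s x| ≤ C * (hgt x) ^ (-((finrank ℚ K : ℝ) + 1)) := by
  obtain ⟨c, hc0, hc1, hc⟩ := exists_cone K
  obtain ⟨L, hL0, hL⟩ := exists_bound_coords K
  set d : ℝ := (finrank ℚ K : ℝ) with hd
  have hd1 : 1 ≤ d := by
    rw [hd]; exact_mod_cast (finrank_pos (R := ℚ) (M := K))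
  set r : ℝ := (Fintype.card (Fin (rank K)) : ℝ) with hr
  have hr0 : 0 ≤ r := Nat.cast_nonneg _
  refine ⟨(4 * d * M + 2 * M + 1) / c, (12 * r * L + 4 * d) * (2 * M / c) * c ^ (-d), by positivity,
    by positivity, fun x y hxy hx hwx ↦ ?_⟩
  set H := hgt x with hH
  have hcH : 4 * d * M + 2 * M + 1 ≤ c * H := by
    rw [div_le_iff₀ hc0] at hx; linarith
  have hdM : 0 ≤ 4 * d * M := by positivity
  have hH0 : 0 < H := by
    by_contra hneg
    have : c * H ≤ 0 := mul_nonpos_of_nonneg_of_nonpos hc0.le (not_lt.mp hneg)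
    linarith
  have hxw : ∀ w : InfinitePlace K, c * H ≤ normAtPlace w x := hc x hwx
  have hMx : ∀ w : InfinitePlace K, M < normAtPlace w x := fun w ↦
    lt_of_lt_of_le (by linarith) (hxw w)
  refine ⟨hMx, fun s hs1 hs2 ↦ ?_⟩
  have hyw : ∀ w : InfinitePlace K, c / 2 * H ≤ normAtPlace w y := by
    intro w
    have h1 := abs_le.mp ((abs_normAtPlace_sub_le w x y).trans hxy)
    have h2 := hxw w
    linarith
  have hxw' : ∀ w : InfinitePlace K, c / 2 * H ≤ normAtPlace w x := fun w ↦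
    (by nlinarith : c / 2 * H ≤ c * H).trans (hxw w)
  have hcH2 : 0 < c / 2 * H := by positivity
  set ε := M / (c / 2 * H) with hε
  have hε0 : 0 ≤ ε := by positivity
  have hlog : ∀ w : InfinitePlace K,
      |Real.log (normAtPlace w y) - Real.log (normAtPlace w x)| ≤ ε := by
    intro w
    refine (abs_log_sub_log_le hcH2 (hxw' w) (hyw w)).trans ?_
    exact div_le_div_of_nonneg_right ((abs_normAtPlace_sub_le w x y).trans hxy) hcH2.le
  have hNx : mixedEmbedding.norm x ≠ 0 := norm_ne_zero_of_weight_ne_zero hwx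
  have hNy : mixedEmbedding.norm y ≠ 0 :=
    mixedEmbedding.norm_ne_zero_iff.mpr fun w ↦ (hcH2.trans_le (hyw w)).ne'
  have hNx0 : 0 < mixedEmbedding.norm x := lt_of_le_of_ne (mixedEmbedding.norm_nonneg _) hNx.symm
  have hNy0 : 0 < mixedEmbedding.norm y := lt_of_le_of_ne (mixedEmbedding.norm_nonneg _) hNy.symm
  have hN := abs_log_norm_sub_le hNx hNy hlog
  have hεd : 2 * (d * ε) ≤ 1 := by
    rw [hε, ← mul_div_assoc, ← mul_div_assoc, div_le_one hcH2]
    linarith
  -- the weights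
  have hphi : |weight y - weight x| ≤ r * (L * (4 * ε)) := by
    rw [weight_of_norm_ne_zero hNx, weight_of_norm_ne_zero hNy]
    refine phi_lipschitz _ _ _ fun i ↦ ?_
    exact hL _ _ _ (fun w ↦ abs_logMap_sub_le hNx hNy hlog w) i
  -- the norms
  have hpow : |(mixedEmbedding.norm y) ^ (-s) - (mixedEmbedding.norm x) ^ (-s)| ≤
      4 * (d * ε) * (mixedEmbedding.norm x) ^ (-s) := by
    rw [Real.rpow_def_of_pos hNx0, Real.rpow_def_of_pos hNy0]
    set a := Real.log (mixedEmbedding.norm x)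
    set b := Real.log (mixedEmbedding.norm y)
    have e : Real.exp (b * -s) - Real.exp (a * -s) =
        Real.exp (a * -s) * (Real.exp (-s * (b - a)) - 1) := by
      rw [mul_sub, ← Real.exp_add, mul_one]
      congr 2
      ring
    rw [e, abs_mul, abs_of_pos (Real.exp_pos _), mul_comm]
    refine mul_le_mul_of_nonneg_right ?_ (Real.exp_pos _).le
    have h1 : |-s * (b - a)| ≤ 2 * (d * ε) := by
      rw [abs_mul, abs_neg, abs_of_nonneg (by linarith : 0 ≤ s)]
      exact mul_le_mul hs2 hN (abs_nonneg _) (by norm_num)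
    refine (Real.abs_exp_sub_one_le (h1.trans hεd)).trans ?_
    linarith
  have hpx0 : 0 ≤ (mixedEmbedding.norm x) ^ (-s) := Real.rpow_nonneg hNx0.le _
  have hpy0 : 0 ≤ (mixedEmbedding.norm y) ^ (-s) := Real.rpow_nonneg hNy0.le _
  have hpy : (mixedEmbedding.norm y) ^ (-s) ≤ 3 * (mixedEmbedding.norm x) ^ (-s) := by
    have h1 := (abs_le.mp hpow).2
    nlinarith
  have hG : |G s y - G s x| ≤ (12 * r * L + 4 * d) * ε * (mixedEmbedding.norm x) ^ (-s) := by
    unfold G
    have e : weight y * (mixedEmbedding.norm y) ^ (-s) - weight x * (mixedEmbedding.norm x) ^ (-s) =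
        (weight y - weight x) * (mixedEmbedding.norm y) ^ (-s) +
        weight x * ((mixedEmbedding.norm y) ^ (-s) - (mixedEmbedding.norm x) ^ (-s)) := by ring
    rw [e]
    refine (abs_add_le _ _).trans ?_
    rw [abs_mul, abs_mul, abs_of_nonneg hpy0, abs_of_nonneg (weight_nonneg x)]
    have h1 : |weight y - weight x| * (mixedEmbedding.norm y) ^ (-s) ≤
        r * (L * (4 * ε)) * (3 * (mixedEmbedding.norm x) ^ (-s)) :=
      mul_le_mul hphi hpy hpy0 (by positivity)
    have h2 : weight x * |(mixedEmbedding.norm y) ^ (-s) - (mixedEmbedding.norm x) ^ (-s)| ≤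
        1 * (4 * (d * ε) * (mixedEmbedding.norm x) ^ (-s)) :=
      mul_le_mul (weight_le_one _) hpow (abs_nonneg _) zero_le_one
    calc _ ≤ r * (L * (4 * ε)) * (3 * (mixedEmbedding.norm x) ^ (-s)) +
        1 * (4 * (d * ε) * (mixedEmbedding.norm x) ^ (-s)) := add_le_add h1 h2
      _ = _ := by ring
  refine hG.trans ?_
  have hcH1 : 1 ≤ c * H := by linarith
  have hNlow : (c * H) ^ (finrank ℚ K) ≤ mixedEmbedding.norm x := pow_le_norm (by positivity) hxw
  have hNpow : (mixedEmbedding.norm x) ^ (-s) ≤ (c * H) ^ (-d) := by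
    have h1 : 1 ≤ mixedEmbedding.norm x := (one_le_pow₀ hcH1).trans hNlow
    calc (mixedEmbedding.norm x) ^ (-s) ≤ (mixedEmbedding.norm x) ^ (-1 : ℝ) :=
          Real.rpow_le_rpow_of_exponent_le h1 (by linarith)
      _ = (mixedEmbedding.norm x)⁻¹ := Real.rpow_neg_one _
      _ ≤ ((c * H) ^ (finrank ℚ K))⁻¹ := inv_anti₀ (by positivity) hNlow
      _ = (c * H) ^ (-d) := by rw [Real.rpow_neg (by positivity), hd, Real.rpow_natCast]
  calc (12 * r * L + 4 * d) * ε * (mixedEmbedding.norm x) ^ (-s)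
      ≤ (12 * r * L + 4 * d) * ε * (c * H) ^ (-d) :=
        mul_le_mul_of_nonneg_left hNpow (by positivity)
    _ = (12 * r * L + 4 * d) * (2 * M / c) * c ^ (-d) * (H ^ (-(d + 1))) := by
        rw [Real.mul_rpow hc0.le hH0.le, neg_add, Real.rpow_add hH0, Real.rpow_neg_one, hε]
        field_simp
    _ = _ := rfl

end

end Fermat.Agent.Density.UnitWeight
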