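import Fermat.Agent.Density.LatticeDiff

/-!
Sums over algebraic integers, weighted by the unit weight, are sums over principal ideals.
-/

set_option autoImplicit false
set_option linter.unusedSectionVars false

open NumberField NumberField.InfinitePlace NumberField.mixedEmbedding NumberField.Units
  NumberField.Units.dirichletUnitTheorem Module Filter Topology

namespace Fermat.Agent.Density.UnitWeight

noncomputable section

variable {K : Type*} [Field K] [NumberField K]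

variable (K) in
/-- non-zero principal ideals -/
abbrev PIdeal := {I : Ideal (𝓞 K) // I.IsPrincipal ∧ I ≠ ⊥}

/-- a generator -/
def pgen (I : PIdeal K) : 𝓞 K :=
  haveI := I.2.1
  Submodule.IsPrincipal.generator I.1

theorem span_pgen (I : PIdeal K) : Ideal.span {pgen I} = I.1 := by
  have := I.2.1
  exact Ideal.span_singleton_generator I.1

theorem pgen_ne_zero (I : PIdeal K) : pgen I ≠ 0 := by
  intro h
  apply I.2.2
  rw [← span_pgen I, h]
  simp

theorem emb_unit_mul (u : (𝓞 K)ˣ) (a : 𝓞 K) : emb ((u : 𝓞 K) * a) = u • emb a := by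
  unfold emb
  rw [unitSMul_smul]
  simp

variable (K) in
/-- non-zero integers are units times generators of principal ideals -/
def genEquiv : PIdeal K × (𝓞 K)ˣ ≃ {a : 𝓞 K // a ≠ 0} :=
  Equiv.ofBijective (fun Iu ↦ ⟨(Iu.2 : 𝓞 K) * pgen Iu.1,
    mul_ne_zero (Units.ne_zero _) (pgen_ne_zero _)⟩) (by
    constructor
    · rintro ⟨I, u⟩ ⟨J, v⟩ h
      have h1 : (u : 𝓞 K) * pgen I = v * pgen J := congrArg Subtype.val h
      have h2 : I = J := by
        apply Subtype.ext
        rw [← span_pgen I, ← span_pgen J, Ideal.span_singleton_eq_span_singleton]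
        refine ⟨u * v⁻¹, ?_⟩
        rw [Units.val_mul, mul_comm (pgen I), mul_assoc, mul_comm _ (pgen I), ← mul_assoc, h1]
        rw [mul_comm (v : 𝓞 K), mul_assoc, ← Units.val_mul, mul_inv_cancel, Units.val_one, mul_one]
      subst h2
      have h3 : u = v := Units.ext (mul_right_cancel₀ (pgen_ne_zero I) h1)
      rw [h3]
    · rintro ⟨a, ha⟩
      have hI : (Ideal.span {a}).IsPrincipal ∧ Ideal.span {a} ≠ ⊥ :=
        ⟨⟨a, rfl⟩, by rwa [Ne, Ideal.span_singleton_eq_bot]⟩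
      have h1 := span_pgen (⟨Ideal.span {a}, hI⟩ : PIdeal K)
      rw [Ideal.span_singleton_eq_span_singleton] at h1
      obtain ⟨u, hu⟩ := h1
      refine ⟨(⟨Ideal.span {a}, hI⟩, u), Subtype.ext ?_⟩
      simp only
      rw [mul_comm]
      exact hu)

theorem genEquiv_apply (I : PIdeal K) (u : (𝓞 K)ˣ) :
    (genEquiv K (I, u) : 𝓞 K) = u * pgen I := rfl

theorem span_genEquiv (I : PIdeal K) (u : (𝓞 K)ˣ) :
    Ideal.span {(genEquiv K (I, u) : 𝓞 K)} = I.1 := by
  rw [genEquiv_apply, ← span_pgen I, Ideal.span_singleton_eq_span_singleton]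
  refine ⟨u⁻¹, ?_⟩
  rw [mul_comm (u : 𝓞 K), mul_assoc, ← Units.val_mul, mul_inv_cancel, Units.val_one, mul_one]

theorem norm_emb_pgen_ne_zero (I : PIdeal K) : mixedEmbedding.norm (emb (pgen I)) ≠ 0 := by
  have := one_le_norm_emb (pgen_ne_zero I)
  linarith

theorem hasSum_weight_complex (I : PIdeal K) :
    HasSum (fun u : (𝓞 K)ˣ ↦ ((weight (u • emb (pgen I)) : ℝ) : ℂ))
      ((torsionOrder K : ℝ) : ℂ) :=
  Complex.hasSum_ofReal.mpr (hasSum_weight (norm_emb_pgen_ne_zero I))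

/-- the weighted summand -/
def wsum (h : Ideal (𝓞 K) → ℂ) (a : 𝓞 K) : ℂ := ((weight (emb a) : ℝ) : ℂ) * h (Ideal.span {a})

theorem wsum_zero (h : Ideal (𝓞 K) → ℂ) : wsum h 0 = 0 := by
  unfold wsum
  rw [weight_emb_zero, Complex.ofReal_zero, zero_mul]

theorem wsum_genEquiv (h : Ideal (𝓞 K) → ℂ) (I : PIdeal K) (u : (𝓞 K)ˣ) :
    wsum h (genEquiv K (I, u)) = ((weight (u • emb (pgen I)) : ℝ) : ℂ) * h I.1 := by
  unfold wsum
  rw [span_genEquiv, genEquiv_apply, emb_unit_mul]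

theorem hasSum_norm_wsum (h : Ideal (𝓞 K) → ℂ) (I : PIdeal K) :
    HasSum (fun u : (𝓞 K)ˣ ↦ ‖wsum h (genEquiv K (I, u))‖) ((torsionOrder K : ℝ) * ‖h I.1‖) := by
  have h2 := (hasSum_weight (norm_emb_pgen_ne_zero I)).mul_right ‖h I.1‖
  have h3 : (fun u : (𝓞 K)ˣ ↦ ‖wsum h (genEquiv K (I, u))‖) =
      fun u ↦ weight (u • emb (pgen I)) * ‖h I.1‖ := funext fun u ↦ by
    rw [wsum_genEquiv, norm_mul, Complex.norm_real, Real.norm_of_nonneg (weight_nonneg _)]
  rw [h3]
  exact h2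

theorem summable_wsum_prod (h : Ideal (𝓞 K) → ℂ) (hh : Summable fun I ↦ ‖h I‖) :
    Summable (fun p : PIdeal K × (𝓞 K)ˣ ↦ wsum h (genEquiv K p)) := by
  rw [← summable_norm_iff, summable_prod_of_nonneg (fun _ ↦ norm_nonneg _)]
  refine ⟨fun I ↦ (hasSum_norm_wsum h I).summable, ?_⟩
  have h3 : (fun I : PIdeal K ↦ ∑' u, ‖wsum h (genEquiv K (I, u))‖) =
      fun I ↦ (torsionOrder K : ℝ) * ‖h I.1‖ := funext fun I ↦ (hasSum_norm_wsum h I).tsum_eq
  rw [h3]
  exact (hh.subtype _).mul_left _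

theorem summable_wsum (h : Ideal (𝓞 K) → ℂ) (hh : Summable fun I ↦ ‖h I‖) :
    Summable (wsum h) := by
  have hS' : Summable (fun a : {a : 𝓞 K // a ≠ 0} ↦ wsum h a) :=
    (genEquiv K).summable_iff.mp (summable_wsum_prod h hh)
  refine (Function.Injective.summable_iff (g := (Subtype.val : {a : 𝓞 K // a ≠ 0} → 𝓞 K))
    Subtype.val_injective fun a ha ↦ ?_).mp hS'
  have h0 : a = 0 := by
    by_contra h1
    exact ha ⟨⟨a, h1⟩, rfl⟩
  rw [h0, wsum_zero]

theorem tsum_wsum (h : Ideal (𝓞 K) → ℂ) (hh : Summable fun I ↦ ‖h I‖) :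
    ∑' a : 𝓞 K, wsum h a = (torsionOrder K : ℝ) * ∑' I : PIdeal K, h I.1 := by
  have hsupp : Function.support (wsum h) ⊆ {a | a ≠ 0} := by
    intro a ha h0
    rw [h0] at ha
    exact ha (wsum_zero h)
  rw [← tsum_subtype_eq_of_support_subset hsupp]
  change ∑' a : {a : 𝓞 K // a ≠ 0}, wsum h a = _
  rw [← (genEquiv K).tsum_eq, (summable_wsum_prod h hh).tsum_prod' (fun I ↦ ?_), ← tsum_mul_left]
  · refine tsum_congr fun I ↦ ?_
    simp_rw [wsum_genEquiv]
    rw [tsum_mul_right, (hasSum_weight_complex I).tsum_eq]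
  · simp_rw [wsum_genEquiv]
    exact (hasSum_weight_complex I).summable.mul_right _

end

end Fermat.Agent.Density.UnitWeight
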