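import Fermat.Agent.Density.ConeEstimateB

/-!
Lattice sums of differences of `f * G s` converge, uniformly near `s = 1`.
-/

set_option autoImplicit false
set_option linter.unusedSectionVars false

open NumberField NumberField.InfinitePlace NumberField.mixedEmbedding NumberField.Units
  NumberField.Units.dirichletUnitTheorem Module Filter Topology

namespace Fermat.Agent.Density.UnitWeight

noncomputable section

variable {K : Type*} [Field K] [NumberField K]

/-- the embedding of the ring of integers in the mixed space -/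
def emb (a : 𝓞 K) : mixedSpace K := mixedEmbedding K (a : K)

theorem emb_add (a b : 𝓞 K) : emb (a + b) = emb a + emb b := by
  unfold emb; simp

theorem emb_zero : emb (0 : 𝓞 K) = 0 := by
  unfold emb; simp

theorem emb_injective : Function.Injective (emb : 𝓞 K → mixedSpace K) := by
  intro a b h
  exact RingOfIntegers.ext (mixedEmbedding_injective K h)

theorem norm_emb (a : 𝓞 K) : mixedEmbedding.norm (emb a) = (Ideal.absNorm (Ideal.span {a}) : ℝ) := by
  unfold emb
  rw [norm_eq_norm, Ideal.absNorm_span_singleton, ← Algebra.coe_norm_int]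
  simp

theorem one_le_norm_emb {a : 𝓞 K} (ha : a ≠ 0) : 1 ≤ mixedEmbedding.norm (emb a) := by
  rw [norm_emb]
  have : Ideal.absNorm (Ideal.span {a}) ≠ 0 := by
    rw [Ne, Ideal.absNorm_eq_zero_iff, Ideal.span_singleton_eq_bot]
    exact ha
  exact_mod_cast Nat.one_le_iff_ne_zero.mpr this

theorem weight_emb_zero : weight (emb (0 : 𝓞 K)) = 0 := by
  unfold weight
  rw [if_pos (by rw [emb_zero, map_zero])]

theorem G_emb_le_one {s : ℝ} (hs : 0 ≤ s) (a : 𝓞 K) : G s (emb a) ≤ 1 := by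
  by_cases ha : a = 0
  · rw [ha, G_of_weight_eq_zero _ weight_emb_zero]
    exact zero_le_one
  · exact G_le_one hs (one_le_norm_emb ha)

open scoped Classical in
theorem norm_eq_hgt (x : mixedSpace K) : ‖x‖ = hgt x := norm_eq_sup'_normAtPlace x

theorem hgt_emb_pos {a : 𝓞 K} (ha : a ≠ 0) : 0 < hgt (emb a) := by
  have h1 : mixedEmbedding.norm (emb a) ≠ 0 := by
    have := one_le_norm_emb ha
    linarith
  have h2 := (mixedEmbedding.norm_ne_zero_iff.mp h1) w₀
  exact (lt_of_le_of_ne (normAtPlace_nonneg _ _) h2.symm).trans_le (normAtPlace_le_hgt _ _)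

variable (K) in
theorem summable_hgt :
    Summable (fun a : 𝓞 K ↦ hgt (emb a) ^ (-((finrank ℚ K : ℝ) + 1))) := by
  classical
  have h0 : finrank ℤ (mixedEmbedding.integerLattice K) = finrank ℚ K := by
    rw [ZLattice.rank ℝ (mixedEmbedding.integerLattice K), mixedEmbedding.finrank]
  have h1 := ZLattice.summable_norm_rpow (mixedEmbedding.integerLattice K)
    (-((finrank ℚ K : ℝ) + 1)) (by rw [h0]; linarith)
  let e : 𝓞 K ≃ mixedEmbedding.integerLattice K :=
    Equiv.ofBijective (fun a ↦ ⟨emb a, ⟨a, rfl⟩⟩) (by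
      constructor
      · intro a b h
        exact emb_injective (congrArg Subtype.val h)
      · rintro ⟨_, a, rfl⟩
        exact ⟨a, rfl⟩)
  have h2 := e.summable_iff.mpr h1
  refine h2.congr fun a ↦ ?_
  simp only [Function.comp_apply]
  rw [← norm_eq_hgt]
  rfl

/-- real embeddings are controlled by `normAtPlace` -/
theorem exists_place_of_real (φ : K →+* ℝ) : ∃ w : InfinitePlace K, ∀ a : 𝓞 K,
    |φ (a : K)| = normAtPlace w (emb a) := by
  refine ⟨InfinitePlace.mk ((algebraMap ℝ ℂ).comp φ), fun a ↦ ?_⟩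
  unfold emb
  rw [normAtPlace_apply, InfinitePlace.apply]
  simp

/-- the summand -/
def g (f : 𝓞 K → ℂ) (s : ℝ) (a : 𝓞 K) : ℂ := f a * (G s (emb a) : ℂ)

/-- `f` is invariant under translation by `μ` as long as the signs at the real places do not
change -/
def SignPeriodic (f : 𝓞 K → ℂ) (μ : 𝓞 K) : Prop :=
  ∀ a : 𝓞 K, a ≠ 0 → a + μ ≠ 0 →
    (∀ φ : K →+* ℝ, 0 < φ ((a + μ : 𝓞 K) : K) ↔ 0 < φ (a : K)) → f (a + μ) = f a

theorem eq_of_large {f : 𝓞 K → ℂ} {μ : 𝓞 K} (hper : SignPeriodic f μ) {a : 𝓞 K} {M : ℝ}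
    (hM : hgt (emb μ) ≤ M)
    (h : (∀ w : InfinitePlace K, M < normAtPlace w (emb a)) ∨
      (∀ w : InfinitePlace K, M < normAtPlace w (emb (a + μ)))) : f (a + μ) = f a := by
  have hM0 : 0 ≤ M := (hgt_nonneg _).trans hM
  have key : ∀ w : InfinitePlace K, |normAtPlace w (emb (a + μ)) - normAtPlace w (emb a)| ≤ M := by
    intro w
    refine (abs_normAtPlace_sub_le w _ _).trans ?_
    rw [emb_add, add_sub_cancel_left]
    exact hM
  have hne : ∀ b : 𝓞 K, (∃ w : InfinitePlace K, 0 < normAtPlace w (emb b)) → b ≠ 0 := by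
    rintro b ⟨w, hw⟩ rfl
    rw [emb_zero, map_zero] at hw
    exact lt_irrefl _ hw
  rcases h with h | h
  · refine hper a (hne _ ⟨w₀, hM0.trans_lt (h w₀)⟩) (hne _ ⟨w₀, ?_⟩) fun φ ↦ ?_
    · have h1 := abs_le.mp (key w₀)
      have h2 := h w₀
      linarith
    · obtain ⟨w, hw⟩ := exists_place_of_real φ
      have h1 := h w
      rw [← hw] at h1
      have h2 : |φ (μ : K)| ≤ M := by
        rw [hw]; exact (normAtPlace_le_hgt _ _).trans hM
      have h3 : φ ((a + μ : 𝓞 K) : K) = φ (a : K) + φ (μ : K) := by simp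
      rw [h3]
      have h4 := abs_le.mp h2
      rcases lt_abs.mp h1 with h5 | h5
      · constructor <;> intro _ <;> linarith
      · constructor <;> intro _ <;> linarith
  · refine hper a (hne _ ⟨w₀, ?_⟩) (hne _ ⟨w₀, hM0.trans_lt (h w₀)⟩) fun φ ↦ ?_
    · have h1 := abs_le.mp (key w₀)
      have h2 := h w₀
      linarith
    · obtain ⟨w, hw⟩ := exists_place_of_real φ
      have h1 := h w
      rw [← hw] at h1
      have h2 : |φ (μ : K)| ≤ M := by
        rw [hw]; exact (normAtPlace_le_hgt _ _).trans hM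
      have h3 : φ ((a + μ : 𝓞 K) : K) = φ (a : K) + φ (μ : K) := by simp
      have h4 := abs_le.mp h2
      rcases lt_abs.mp h1 with h5 | h5
      · constructor <;> intro _ <;> linarith
      · constructor <;> intro _ <;> linarith

theorem norm_g_le_one {f : 𝓞 K → ℂ} (hf : ∀ a, ‖f a‖ ≤ 1) {s : ℝ} (hs : 0 ≤ s) (a : 𝓞 K) :
    ‖g f s a‖ ≤ 1 := by
  unfold g
  rw [norm_mul, Complex.norm_real, Real.norm_of_nonneg (G_nonneg _ _)]
  calc ‖f a‖ * G s (emb a) ≤ 1 * 1 :=
        mul_le_mul (hf a) (G_emb_le_one hs a) (G_nonneg _ _) zero_le_one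
    _ = 1 := one_mul 1

open Classical in
theorem exists_summable_bound {f : 𝓞 K → ℂ} (hf : ∀ a, ‖f a‖ ≤ 1) {μ : 𝓞 K}
    (hper : SignPeriodic f μ) : ∃ bound : 𝓞 K → ℝ, Summable bound ∧
      ∀ s : ℝ, 1 ≤ s → s ≤ 2 → ∀ a, ‖g f s (a + μ) - g f s a‖ ≤ bound a := by
  set M := hgt (emb μ) with hM
  have hM0 : 0 ≤ M := hgt_nonneg _
  obtain ⟨R, C, hR, hC, hest⟩ := exists_estimate (K := K) M hM0
  set d : ℝ := (finrank ℚ K : ℝ) with hd
  have hd0 : 0 ≤ d := Nat.cast_nonneg _
  set e : ℝ := d + 1 with he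
  refine ⟨fun a ↦ (C * 2 ^ e + 2 * (R + 2 * M) ^ e) * hgt (emb a) ^ (-e) + if a = 0 then 2 else 0,
    ?_, ?_⟩
  · refine ((summable_hgt K).mul_left _).add ?_
    exact summable_of_ne_finset_zero (s := {0}) fun a ha ↦ by
      rw [if_neg (by simpa using ha)]
  · intro s hs1 hs2 a
    have htwo : ‖g f s (a + μ) - g f s a‖ ≤ 2 := by
      refine (norm_sub_le _ _).trans ?_
      have h1 := norm_g_le_one hf (by linarith : 0 ≤ s) (a + μ)
      have h2 := norm_g_le_one hf (by linarith : 0 ≤ s) a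
      linarith
    have hpos1 : 0 ≤ C * 2 ^ e := by positivity
    have hpos2 : 0 ≤ 2 * (R + 2 * M) ^ e := by positivity
    have hpos3 : 0 ≤ hgt (emb a) ^ (-e) := Real.rpow_nonneg (hgt_nonneg _) _
    by_cases ha : a = 0
    · simp only [ha, if_true]
      rw [ha] at htwo hpos3
      nlinarith [mul_nonneg hpos1 hpos3, mul_nonneg hpos2 hpos3]
    simp only [if_neg ha, add_zero]
    have hx0 : 0 < hgt (emb a) := hgt_emb_pos ha
    by_cases hsmall : hgt (emb a) < R + 2 * M
    · refine htwo.trans ?_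
      have h1 : 1 ≤ (R + 2 * M) ^ e * hgt (emb a) ^ (-e) := by
        rw [Real.rpow_neg hx0.le, ← div_eq_mul_inv, one_le_div (by positivity)]
        exact Real.rpow_le_rpow hx0.le hsmall.le (by linarith)
      nlinarith [mul_nonneg hpos1 hpos3]
    rw [not_lt] at hsmall
    have hsub : hgt (emb (a + μ) - emb a) ≤ M := by rw [emb_add, add_sub_cancel_left]
    have hsub' : hgt (emb a - emb (a + μ)) ≤ M := by rw [hgt_sub_comm]; exact hsub
    have hdiff : ∀ D : ℝ, f (a + μ) = f a → |G s (emb (a + μ)) - G s (emb a)| ≤ D →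
        ‖g f s (a + μ) - g f s a‖ ≤ D := by
      intro D h1 h2
      unfold g
      rw [h1, ← mul_sub, norm_mul, ← Complex.ofReal_sub, Complex.norm_real, Real.norm_eq_abs]
      calc ‖f a‖ * |G s (emb (a + μ)) - G s (emb a)| ≤ 1 * D :=
            mul_le_mul (hf a) h2 (abs_nonneg _) zero_le_one
        _ = D := one_mul D
    by_cases hwx : weight (emb a) = 0
    · by_cases hwy : weight (emb (a + μ)) = 0
      · unfold g
        rw [G_of_weight_eq_zero _ hwx, G_of_weight_eq_zero _ hwy]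
        simp only [Complex.ofReal_zero, mul_zero, sub_zero, norm_zero]
        positivity
      · have hy : hgt (emb a) ≤ hgt (emb (a + μ)) + M := by
          have h1 := hgt_add_le (emb (a + μ)) (emb a - emb (a + μ))
          rw [add_sub_cancel] at h1
          linarith
        obtain ⟨h1, h2⟩ := hest (emb (a + μ)) (emb a) hsub' (by linarith) hwy
        have h3 := h2 s hs1 hs2
        rw [abs_sub_comm] at h3
        refine (hdiff _ (eq_of_large hper hM.ge (Or.inr h1)) h3).trans ?_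
        have h4 : hgt (emb a) / 2 ≤ hgt (emb (a + μ)) := by linarith
        have h5 : hgt (emb (a + μ)) ^ (-e) ≤ 2 ^ e * hgt (emb a) ^ (-e) := by
          calc hgt (emb (a + μ)) ^ (-e) ≤ (hgt (emb a) / 2) ^ (-e) :=
                Real.rpow_le_rpow_of_nonpos (by positivity) h4 (by linarith)
            _ = 2 ^ e * hgt (emb a) ^ (-e) := by
                rw [Real.div_rpow hx0.le (by norm_num), Real.rpow_neg (by norm_num : (0:ℝ) ≤ 2)]
                field_simp
        calc C * hgt (emb (a + μ)) ^ (-e) ≤ C * (2 ^ e * hgt (emb a) ^ (-e)) :=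
              mul_le_mul_of_nonneg_left h5 hC
          _ ≤ (C * 2 ^ e + 2 * (R + 2 * M) ^ e) * hgt (emb a) ^ (-e) := by
              nlinarith [mul_nonneg hpos2 hpos3]
    · obtain ⟨h1, h2⟩ := hest (emb a) (emb (a + μ)) hsub (by linarith) hwx
      refine (hdiff _ (eq_of_large hper hM.ge (Or.inl h1)) (h2 s hs1 hs2)).trans ?_
      have h5 : (1 : ℝ) ≤ 2 ^ e := Real.one_le_rpow (by norm_num) (by linarith)
      have h6 : C ≤ C * 2 ^ e := le_mul_of_one_le_right hC h5
      exact mul_le_mul_of_nonneg_right (by linarith) hpos3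

theorem tendsto_G (x : mixedSpace K) : Tendsto (fun s : ℝ ↦ G s x) (𝓝[>] 1) (𝓝 (G 1 x)) := by
  unfold G
  by_cases hx : weight x = 0
  · simp only [hx, zero_mul]
    exact tendsto_const_nhds
  · have h1 := norm_ne_zero_of_weight_ne_zero hx
    refine Tendsto.const_mul _ ?_
    have h2 : Continuous fun s : ℝ ↦ (mixedEmbedding.norm x) ^ (-s) :=
      (Real.continuous_const_rpow h1).comp continuous_neg
    exact (h2.tendsto 1).mono_left nhdsWithin_le_nhds

theorem tendsto_g (f : 𝓞 K → ℂ) (a : 𝓞 K) :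
    Tendsto (fun s : ℝ ↦ g f s a) (𝓝[>] 1) (𝓝 (g f 1 a)) := by
  unfold g
  exact Tendsto.const_mul _ ((Complex.continuous_ofReal.tendsto _).comp (tendsto_G _))

theorem tendsto_tsum_diff {f : 𝓞 K → ℂ} (hf : ∀ a, ‖f a‖ ≤ 1) {μ : 𝓞 K}
    (hper : SignPeriodic f μ) (B : Set (𝓞 K)) :
    Tendsto (fun s : ℝ ↦ ∑' a : B, (g f s (a + μ) - g f s a)) (𝓝[>] 1)
      (𝓝 (∑' a : B, (g f 1 (a + μ) - g f 1 a))) := by
  obtain ⟨bound, hb, hbound⟩ := exists_summable_bound hf hper
  refine tendsto_tsum_of_dominated_convergence (bound := fun a : B ↦ bound a) (hb.subtype _)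
    (fun a ↦ (tendsto_g f _).sub (tendsto_g f _)) ?_
  have h1 : ∀ᶠ s : ℝ in 𝓝[>] 1, 1 ≤ s ∧ s ≤ 2 := by
    filter_upwards [Ioo_mem_nhdsGT (by norm_num : (1 : ℝ) < 2)] with s hs
    exact ⟨hs.1.le, hs.2.le⟩
  filter_upwards [h1] with s hs a
  exact hbound s hs.1 hs.2 a

end

end Fermat.Agent.Density.UnitWeight
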