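import Fermat.Agent.Density.RayCosets
import Fermat.Agent.DedekindEuler

/-!
The L-function of a nontrivial ray class character has a limit at `s = 1`.
-/

set_option autoImplicit false
set_option linter.unusedSectionVars false

open NumberField NumberField.InfinitePlace NumberField.mixedEmbedding NumberField.Units
  NumberField.Units.dirichletUnitTheorem Module Filter Topology nonZeroDivisors
open Fermat.Agent.Density.UnitWeight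

namespace Fermat.Agent.Density.RayClassL

noncomputable section

variable {K : Type*} [Field K] [NumberField K]

/-- the general term of the L-series -/
def term (ψ : Ideal (𝓞 K) → ℂ) (s : ℝ) (I : Ideal (𝓞 K)) : ℂ :=
  ψ I * (((Ideal.absNorm I : ℝ) ^ (-s) : ℝ) : ℂ)

open Classical in
/-- `ψ (I J⁻¹)` if `J ∣ I`, and `0` otherwise -/
def pJ (ψ : Ideal (𝓞 K) → ℂ) (J I : Ideal (𝓞 K)) : ℂ :=
  if h : J ∣ I then ψ h.choose else 0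

theorem fJ_eq_pJ (ψ : Ideal (𝓞 K) → ℂ) (J : Ideal (𝓞 K)) (a : 𝓞 K) :
    fJ ψ J a = pJ ψ J (Ideal.span {a}) := rfl

theorem pJ_mul (ψ : Ideal (𝓞 K) → ℂ) {J : Ideal (𝓞 K)} (hJ : J ≠ ⊥) (A : Ideal (𝓞 K)) :
    pJ ψ J (J * A) = ψ A := by
  have hd : J ∣ J * A := Dvd.intro A rfl
  unfold pJ
  rw [dif_pos hd]
  congr 1
  exact (mul_left_cancel₀ hJ hd.choose_spec).symm

theorem pJ_of_not_dvd (ψ : Ideal (𝓞 K) → ℂ) {J I : Ideal (𝓞 K)} (h : ¬ J ∣ I) :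
    pJ ψ J I = 0 := by
  unfold pJ
  rw [dif_neg h]

theorem norm_pJ_le {ψ : Ideal (𝓞 K) → ℂ} (hψ : ∀ I, ‖ψ I‖ ≤ 1) (J I : Ideal (𝓞 K)) :
    ‖pJ ψ J I‖ ≤ 1 := by
  unfold pJ
  split_ifs
  · exact hψ _
  · rw [norm_zero]; exact zero_le_one

/-- the summand on principal ideals -/
def hJ (ψ : Ideal (𝓞 K) → ℂ) (J : Ideal (𝓞 K)) (s : ℝ) (I : Ideal (𝓞 K)) : ℂ :=
  pJ ψ J I * (((Ideal.absNorm I : ℝ) ^ (-s) : ℝ) : ℂ)

theorem norm_mul_rpow_le {z : ℂ} (hz : ‖z‖ ≤ 1) (s : ℝ) (I : Ideal (𝓞 K)) :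
    ‖z * (((Ideal.absNorm I : ℝ) ^ (-s) : ℝ) : ℂ)‖ ≤ (Ideal.absNorm I : ℝ) ^ (-s) := by
  have h0 : 0 ≤ (Ideal.absNorm I : ℝ) ^ (-s) := Real.rpow_nonneg (Nat.cast_nonneg _) _
  rw [norm_mul, Complex.norm_real, Real.norm_of_nonneg h0]
  exact mul_le_of_le_one_left h0 hz

theorem summable_norm_hJ {ψ : Ideal (𝓞 K) → ℂ} (hψ : ∀ I, ‖ψ I‖ ≤ 1) (J : Ideal (𝓞 K))
    {s : ℝ} (hs : 1 < s) : Summable fun I ↦ ‖hJ ψ J s I‖ :=
  Summable.of_nonneg_of_le (fun _ ↦ norm_nonneg _)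
    (fun I ↦ norm_mul_rpow_le (norm_pJ_le hψ J I) s I)
    (DedekindEuler.summable_and_tsum_ideals K hs).1

theorem summable_norm_term {ψ : Ideal (𝓞 K) → ℂ} (hψ : ∀ I, ‖ψ I‖ ≤ 1)
    {s : ℝ} (hs : 1 < s) : Summable fun I ↦ ‖term ψ s I‖ :=
  Summable.of_nonneg_of_le (fun _ ↦ norm_nonneg _)
    (fun I ↦ norm_mul_rpow_le (hψ I) s I)
    (DedekindEuler.summable_and_tsum_ideals K hs).1

theorem wsum_hJ (ψ : Ideal (𝓞 K) → ℂ) (J : Ideal (𝓞 K)) (s : ℝ) (a : 𝓞 K) :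
    wsum (hJ ψ J s) a = g (fJ ψ J) s a := by
  unfold wsum hJ g G
  rw [fJ_eq_pJ, norm_emb, Complex.ofReal_mul]
  ring

theorem summable_g {ψ : Ideal (𝓞 K) → ℂ} (hψ : ∀ I, ‖ψ I‖ ≤ 1) (J : Ideal (𝓞 K))
    {s : ℝ} (hs : 1 < s) : Summable (g (fJ ψ J) s) := by
  have h1 := summable_wsum (hJ ψ J s) (summable_norm_hJ hψ J hs)
  exact h1.congr fun a ↦ (wsum_hJ ψ J s a)

theorem tsum_g {ψ : Ideal (𝓞 K) → ℂ} (hψ : ∀ I, ‖ψ I‖ ≤ 1) (J : Ideal (𝓞 K))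
    {s : ℝ} (hs : 1 < s) : ∑' a : 𝓞 K, g (fJ ψ J) s a =
      (torsionOrder K : ℝ) * ∑' I : PIdeal K, hJ ψ J s I.1 := by
  rw [← tsum_wsum (hJ ψ J s) (summable_norm_hJ hψ J hs)]
  exact tsum_congr fun a ↦ (wsum_hJ ψ J s a).symm

open Classical in
/-- partial L-series over an ideal class -/
def Zc (ψ : Ideal (𝓞 K) → ℂ) (s : ℝ) (c : ClassGroup (𝓞 K)) : ℂ :=
  ∑' B : (Ideal (𝓞 K))⁰, if ClassGroup.mk0 B = c then term ψ s B else 0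

theorem Zc_eq (ψ : Ideal (𝓞 K) → ℂ) (s : ℝ) (c : ClassGroup (𝓞 K)) :
    Zc ψ s c = ∑' B : {B : (Ideal (𝓞 K))⁰ // ClassGroup.mk0 B = c}, term ψ s B.1 := by
  classical
  unfold Zc
  have h1 := tsum_subtype {B : (Ideal (𝓞 K))⁰ | ClassGroup.mk0 B = c} (fun B ↦ term ψ s B)
  refine Eq.trans ?_ h1.symm
  refine tsum_congr fun B ↦ ?_
  rw [Set.indicator_apply]
  rfl

theorem ne_bot_of_mem (J : (Ideal (𝓞 K))⁰) : (J : Ideal (𝓞 K)) ≠ ⊥ := nonZeroDivisors.coe_ne_zero J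

theorem tsum_hJ_eq (ψ : Ideal (𝓞 K) → ℂ) (J : (Ideal (𝓞 K))⁰) (s : ℝ) :
    ∑' I : PIdeal K, hJ ψ J s I.1 =
      (((Ideal.absNorm (J : Ideal (𝓞 K)) : ℝ) ^ (-s) : ℝ) : ℂ) * Zc ψ s (ClassGroup.mk0 J)⁻¹ := by
  rw [Zc_eq, ← tsum_mul_left]
  let φ : {B : (Ideal (𝓞 K))⁰ // ClassGroup.mk0 B = (ClassGroup.mk0 J)⁻¹} → PIdeal K := fun B ↦
    ⟨(J : Ideal (𝓞 K)) * (B.1 : Ideal (𝓞 K)), by
      have h1 : ClassGroup.mk0 (J * B.1) = 1 := by rw [map_mul, B.2, mul_inv_cancel]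
      exact (ClassGroup.mk0_eq_one_iff (J * B.1).2).mp h1,
      mul_ne_zero (ne_bot_of_mem J) (ne_bot_of_mem B.1)⟩
  have hφinj : Function.Injective φ := by
    intro B B' h
    have h1 : (J : Ideal (𝓞 K)) * (B.1 : Ideal (𝓞 K)) = (J : Ideal (𝓞 K)) * (B'.1 : Ideal (𝓞 K)) :=
      congrArg Subtype.val h
    exact Subtype.ext (Subtype.ext (mul_left_cancel₀ (ne_bot_of_mem J) h1))
  have hsupp : Function.support (fun I : PIdeal K ↦ hJ ψ J s I.1) ⊆ Set.range φ := by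
    intro I hI
    by_cases hd : (J : Ideal (𝓞 K)) ∣ I.1
    · obtain ⟨B, hB⟩ := hd
      have hB0 : B ≠ ⊥ := by
        rintro rfl
        rw [Ideal.mul_bot] at hB
        exact I.2.2 hB
      let B' : (Ideal (𝓞 K))⁰ := ⟨B, mem_nonZeroDivisors_of_ne_zero hB0⟩
      have h1 : ClassGroup.mk0 (J * B') = 1 := by
        rw [ClassGroup.mk0_eq_one_iff (J * B').2]
        change ((J : Ideal (𝓞 K)) * B).IsPrincipal
        rw [← hB]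
        exact I.2.1
      have h2 : ClassGroup.mk0 B' = (ClassGroup.mk0 J)⁻¹ := by
        rw [map_mul] at h1
        exact (eq_inv_of_mul_eq_one_right h1)
      refine ⟨⟨B', h2⟩, Subtype.ext ?_⟩
      exact hB.symm
    · exfalso
      apply hI
      simp only [hJ]
      rw [pJ_of_not_dvd ψ hd, zero_mul]
  rw [← hφinj.tsum_eq hsupp]
  refine tsum_congr fun B ↦ ?_
  change hJ ψ J s ((J : Ideal (𝓞 K)) * (B.1 : Ideal (𝓞 K))) = _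
  unfold hJ term
  rw [pJ_mul ψ (ne_bot_of_mem J), map_mul, Nat.cast_mul,
    Real.mul_rpow (Nat.cast_nonneg _) (Nat.cast_nonneg _), Complex.ofReal_mul]
  ring

theorem absNorm_cast_eq_zero_rpow {s : ℝ} (hs : s ≠ 0) (ψ : Ideal (𝓞 K) → ℂ) :
    term ψ s ⊥ = 0 := by
  unfold term
  rw [Ideal.absNorm_bot, Nat.cast_zero, Real.zero_rpow (by rwa [Ne, neg_eq_zero]),
    Complex.ofReal_zero, mul_zero]

theorem sum_Zc {ψ : Ideal (𝓞 K) → ℂ} (hψ : ∀ I, ‖ψ I‖ ≤ 1) {s : ℝ} (hs : 1 < s) :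
    ∑ c : ClassGroup (𝓞 K), Zc ψ s c = ∑' I : Ideal (𝓞 K), term ψ s I := by
  classical
  have hsum : Summable (fun B : (Ideal (𝓞 K))⁰ ↦ term ψ s B) :=
    (summable_norm_term hψ hs).of_norm.subtype _
  unfold Zc
  rw [← Summable.tsum_finsetSum]
  · have h1 : ∀ B : (Ideal (𝓞 K))⁰, (∑ c : ClassGroup (𝓞 K),
        if ClassGroup.mk0 B = c then term ψ s B else 0) = term ψ s B := by
      intro B
      rw [Finset.sum_ite_eq, if_pos (Finset.mem_univ _)]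
    simp_rw [h1]
    have h2 : Function.support (term ψ s) ⊆ {I | I ∈ (Ideal (𝓞 K))⁰} := by
      intro I hI
      rw [Set.mem_ofPred_eq, mem_nonZeroDivisors_iff_ne_zero]
      rintro rfl
      exact hI (absNorm_cast_eq_zero_rpow (by linarith) ψ)
    exact tsum_subtype_eq_of_support_subset h2
  · intro c _
    refine Summable.of_norm_bounded hsum.norm fun B ↦ ?_
    split_ifs
    · exact le_rfl
    · rw [norm_zero]; exact norm_nonneg _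

/-- the difference sum -/
def E (ψ : Ideal (𝓞 K) → ℂ) (J C : Ideal (𝓞 K)) (μ : Fin (Ideal.absNorm C) → 𝓞 K) (s : ℝ) : ℂ :=
  ∑ i, ∑' β : {x : 𝓞 K // x ∈ C * J}, (g (fJ ψ J) s (β + μ i) - g (fJ ψ J) s β)

theorem tendsto_E {𝔪 : Ideal (𝓞 K)} {ψ : Ideal (𝓞 K) → ℂ} (hψ : IsRayChar 𝔪 ψ)
    {J C : Ideal (𝓞 K)} (hJ : J ≠ ⊥) {μ : Fin (Ideal.absNorm C) → 𝓞 K}
    (hμ : ∀ i, μ i ∈ 𝔪 * J) : ∃ e : ℂ, Tendsto (E ψ J C μ) (𝓝[>] 1) (𝓝 e) := by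
  refine ⟨E ψ J C μ 1, ?_⟩
  unfold E
  refine tendsto_finsetSum (a := fun i ↦ ∑' β : {x : 𝓞 K // x ∈ C * J},
    (g (fJ ψ J) 1 (β + μ i) - g (fJ ψ J) 1 β)) _ fun i _ ↦ ?_
  exact tendsto_tsum_diff (norm_fJ_le hψ J) (signPeriodic_fJ hψ hJ (hμ i)) {x : 𝓞 K | x ∈ C * J}

theorem g_mul {ψ : Ideal (𝓞 K) → ℂ} (hmul : ∀ I J, ψ (I * J) = ψ I * ψ J)
    {J C : Ideal (𝓞 K)} (hJ : J ≠ ⊥) (hC : C ≠ ⊥) (s : ℝ) {β : 𝓞 K} (hβ : β ∈ C * J) :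
    g (fJ ψ J) s β = ψ C * g (fJ ψ (C * J)) s β := by
  obtain ⟨B, hB⟩ := dvd_span_iff.mpr hβ
  unfold g
  rw [fJ_of_eq (mul_ne_zero hC hJ) hB, fJ_of_eq (A := C * B) hJ (by rw [hB, ← mul_assoc, mul_comm C J]),
    hmul]
  ring

theorem tsum_sub {ψ : Ideal (𝓞 K) → ℂ} (hmul : ∀ I J, ψ (I * J) = ψ I * ψ J)
    (hψ : ∀ I, ‖ψ I‖ ≤ 1)
    {J C : Ideal (𝓞 K)} (hJ : J ≠ ⊥) (hC : C ≠ ⊥) {μ : Fin (Ideal.absNorm C) → 𝓞 K}
    {e : Fin (Ideal.absNorm C) × {x : 𝓞 K // x ∈ C * J} ≃ {x : 𝓞 K // x ∈ J}}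
    (he : ∀ p, (e p : 𝓞 K) = p.2 + μ p.1) {s : ℝ} (hs : 1 < s) :
    E ψ J C μ s = ∑' a : 𝓞 K, g (fJ ψ J) s a -
      (Ideal.absNorm C : ℂ) * (ψ C * ∑' a : 𝓞 K, g (fJ ψ (C * J)) s a) := by
  have hS := summable_g hψ J hs
  -- sum over J
  have h1 : ∑' a : 𝓞 K, g (fJ ψ J) s a = ∑' a : {x : 𝓞 K // x ∈ J}, g (fJ ψ J) s a := by
    have h2 : Function.support (g (fJ ψ J) s) ⊆ {x : 𝓞 K | x ∈ J} := by
      intro a ha
      by_contra h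
      apply ha
      unfold g
      rw [fJ_of_notMem h, zero_mul]
    exact (tsum_subtype_eq_of_support_subset h2).symm
  have hprod : Summable (fun p : Fin (Ideal.absNorm C) × {x : 𝓞 K // x ∈ C * J} ↦
      g (fJ ψ J) s (p.2 + μ p.1)) := by
    have h3 : Summable (fun a : {x : 𝓞 K // x ∈ J} ↦ g (fJ ψ J) s a) := hS.subtype _
    refine (e.summable_iff.mpr h3).congr fun p ↦ ?_
    simp only [Function.comp_apply]
    rw [he]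
  have h4 : ∑' a : {x : 𝓞 K // x ∈ J}, g (fJ ψ J) s a =
      ∑ i, ∑' β : {x : 𝓞 K // x ∈ C * J}, g (fJ ψ J) s (β + μ i) := by
    rw [← e.tsum_eq]
    simp_rw [he]
    rw [hprod.tsum_prod' (fun i ↦ hprod.prod_factor i), tsum_fintype]
  have h5 : Summable (fun β : {x : 𝓞 K // x ∈ C * J} ↦ g (fJ ψ J) s β) := hS.subtype _
  have h6 : ∑' β : {x : 𝓞 K // x ∈ C * J}, g (fJ ψ J) s β =
      ψ C * ∑' a : 𝓞 K, g (fJ ψ (C * J)) s a := by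
    have h7 : ∑' a : 𝓞 K, g (fJ ψ (C * J)) s a =
        ∑' a : {x : 𝓞 K // x ∈ C * J}, g (fJ ψ (C * J)) s a := by
      have h2 : Function.support (g (fJ ψ (C * J)) s) ⊆ {x : 𝓞 K | x ∈ C * J} := by
        intro a ha
        by_contra h
        apply ha
        unfold g
        rw [fJ_of_notMem h, zero_mul]
      exact (tsum_subtype_eq_of_support_subset h2).symm
    rw [h7, ← tsum_mul_left]
    exact tsum_congr fun β ↦ g_mul hmul hJ hC s β.2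
  unfold E
  have h8 : ∀ i, ∑' β : {x : 𝓞 K // x ∈ C * J}, (g (fJ ψ J) s (β + μ i) - g (fJ ψ J) s β) =
      ∑' β : {x : 𝓞 K // x ∈ C * J}, g (fJ ψ J) s (β + μ i) -
        ψ C * ∑' a : 𝓞 K, g (fJ ψ (C * J)) s a := by
    intro i
    rw [(hprod.prod_factor i).tsum_sub h5, h6]
  simp_rw [h8]
  rw [Finset.sum_sub_distrib, ← h4, ← h1, Finset.sum_const, Finset.card_univ, Fintype.card_fin,
    nsmul_eq_mul]

theorem exists_tendsto_term {𝔪 : Ideal (𝓞 K)} {ψ : Ideal (𝓞 K) → ℂ} (hψ : IsRayChar 𝔪 ψ)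
    {C : Ideal (𝓞 K)} (hC : C ≠ ⊥) (hcop : C ⊔ 𝔪 = ⊤) (hne : ψ C ≠ 1) :
    ∃ c : ℂ, Tendsto (fun s : ℝ ↦ ∑' I : Ideal (𝓞 K), term ψ s I) (𝓝[>] 1) (𝓝 c) := by
  classical
  -- representatives of the classes
  have hrep : ∀ c : ClassGroup (𝓞 K), ∃ J : (Ideal (𝓞 K))⁰, (ClassGroup.mk0 J)⁻¹ = c := by
    intro c
    obtain ⟨J, hJ⟩ := ClassGroup.mk0_surjective c⁻¹
    exact ⟨J, by rw [hJ, inv_inv]⟩
  choose J hJc using hrep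
  have hJ0 : ∀ c, (J c : Ideal (𝓞 K)) ≠ ⊥ := fun c ↦ ne_bot_of_mem (J c)
  let C' : (Ideal (𝓞 K))⁰ := ⟨C, mem_nonZeroDivisors_of_ne_zero hC⟩
  have hreps := fun c ↦ exists_reps (𝔪 := 𝔪) (hJ0 c) hC hcop
  choose μ hμ e he using hreps
  have hlimE := fun c ↦ tendsto_E (C := C) hψ (hJ0 c) (hμ c)
  choose ℓ hℓ using hlimE
  set T : ℂ := ((torsionOrder K : ℝ) : ℂ) with hT
  have hT0 : T ≠ 0 := by
    rw [hT, Complex.ofReal_ne_zero, Nat.cast_ne_zero]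
    exact (torsionOrder_pos K).ne'
  let w : ClassGroup (𝓞 K) → ℝ → ℂ := fun c s ↦
    (((Ideal.absNorm (J c : Ideal (𝓞 K)) : ℝ) ^ s : ℝ) : ℂ)
  -- the key identity
  have hkey : ∀ s : ℝ, 1 < s → ∀ c, T⁻¹ * (w c s * E ψ (J c) C (μ c) s) =
      Zc ψ s c - (Ideal.absNorm C : ℂ) * (((Ideal.absNorm C : ℝ) ^ (-s) : ℝ) : ℂ) * ψ C *
        Zc ψ s (c * (ClassGroup.mk0 C')⁻¹) := by
    intro s hs c
    have h1 := tsum_sub hψ.mul hψ.norm_le (hJ0 c) hC (he c) hs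
    have h2 := tsum_g hψ.norm_le (J c : Ideal (𝓞 K)) hs
    have h3 := tsum_g hψ.norm_le (C * (J c : Ideal (𝓞 K))) hs
    have h4 := tsum_hJ_eq ψ (J c) s
    have h5 := tsum_hJ_eq ψ (C' * J c) s
    have hcoe : ((C' * J c : (Ideal (𝓞 K))⁰) : Ideal (𝓞 K)) = C * (J c : Ideal (𝓞 K)) := rfl
    rw [hcoe] at h5
    rw [h4] at h2
    rw [h5] at h3
    rw [h2, h3] at h1
    rw [h1]
    have h6 : (ClassGroup.mk0 (C' * J c))⁻¹ = c * (ClassGroup.mk0 C')⁻¹ := by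
      rw [map_mul, mul_inv, hJc, mul_comm]
    rw [h6, hJc]
    have h7 : (((Ideal.absNorm (C * (J c : Ideal (𝓞 K))) : ℝ) ^ (-s) : ℝ) : ℂ) =
        (((Ideal.absNorm C : ℝ) ^ (-s) : ℝ) : ℂ) *
          (((Ideal.absNorm (J c : Ideal (𝓞 K)) : ℝ) ^ (-s) : ℝ) : ℂ) := by
      rw [map_mul, Nat.cast_mul, Real.mul_rpow (Nat.cast_nonneg _) (Nat.cast_nonneg _),
        Complex.ofReal_mul]
    rw [h7]
    have hNpos : (0 : ℝ) < (Ideal.absNorm (J c : Ideal (𝓞 K)) : ℝ) := by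
      have : Ideal.absNorm (J c : Ideal (𝓞 K)) ≠ 0 := by
        rw [Ne, Ideal.absNorm_eq_zero_iff]; exact hJ0 c
      exact_mod_cast Nat.pos_of_ne_zero this
    have h8 : w c s * (((Ideal.absNorm (J c : Ideal (𝓞 K)) : ℝ) ^ (-s) : ℝ) : ℂ) = 1 := by
      simp only [w]
      rw [← Complex.ofReal_mul, ← Real.rpow_add hNpos, add_neg_cancel, Real.rpow_zero,
        Complex.ofReal_one]
    set X := (((Ideal.absNorm (J c : Ideal (𝓞 K)) : ℝ) ^ (-s) : ℝ) : ℂ)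
    have h9 : T⁻¹ * T = 1 := inv_mul_cancel₀ hT0
    calc T⁻¹ * (w c s * (T * (X * Zc ψ s c) - (Ideal.absNorm C : ℂ) * (ψ C *
          (T * ((((Ideal.absNorm C : ℝ) ^ (-s) : ℝ) : ℂ) * X * Zc ψ s (c * (ClassGroup.mk0 C')⁻¹))))))
        = (T⁻¹ * T) * (w c s * X) * (Zc ψ s c - (Ideal.absNorm C : ℂ) *
          (((Ideal.absNorm C : ℝ) ^ (-s) : ℝ) : ℂ) * ψ C * Zc ψ s (c * (ClassGroup.mk0 C')⁻¹)) := by
          ring
      _ = _ := by rw [h8, h9, one_mul, one_mul]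
  -- sum over classes
  have hsum : ∀ s : ℝ, 1 < s → (1 - (Ideal.absNorm C : ℂ) *
      (((Ideal.absNorm C : ℝ) ^ (-s) : ℝ) : ℂ) * ψ C) * ∑' I : Ideal (𝓞 K), term ψ s I =
      T⁻¹ * ∑ c, w c s * E ψ (J c) C (μ c) s := by
    intro s hs
    rw [Finset.mul_sum, Finset.sum_congr rfl fun c _ ↦ hkey s hs c, Finset.sum_sub_distrib,
      ← Finset.mul_sum]
    have h1 : ∑ c, Zc ψ s (c * (ClassGroup.mk0 C')⁻¹) = ∑ c, Zc ψ s c :=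
      Equiv.sum_comp (Equiv.mulRight (ClassGroup.mk0 C')⁻¹) (fun c ↦ Zc ψ s c)
    rw [h1, sum_Zc hψ.norm_le hs]
    ring
  have hCpos : (0 : ℝ) < (Ideal.absNorm C : ℝ) := by
    have : Ideal.absNorm C ≠ 0 := by rwa [Ne, Ideal.absNorm_eq_zero_iff]
    exact_mod_cast Nat.pos_of_ne_zero this
  have hcont : ∀ {x : ℝ}, 0 < x → Tendsto (fun s : ℝ ↦ ((x ^ s : ℝ) : ℂ)) (𝓝[>] 1) (𝓝 ((x ^ (1:ℝ) : ℝ) : ℂ)) := by
    intro x hx
    have h1 : Tendsto (fun s : ℝ ↦ x ^ s) (𝓝[>] 1) (𝓝 (x ^ (1 : ℝ))) :=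
      ((Real.continuous_const_rpow hx.ne').tendsto 1).mono_left nhdsWithin_le_nhds
    exact (Complex.continuous_ofReal.tendsto _).comp h1
  have hcont' : Tendsto (fun s : ℝ ↦ (((Ideal.absNorm C : ℝ) ^ (-s) : ℝ) : ℂ)) (𝓝[>] 1)
      (𝓝 (((Ideal.absNorm C : ℝ) ^ (-1 : ℝ) : ℝ) : ℂ)) := by
    have h1 : Tendsto (fun s : ℝ ↦ (Ideal.absNorm C : ℝ) ^ (-s)) (𝓝[>] 1)
        (𝓝 ((Ideal.absNorm C : ℝ) ^ (-1 : ℝ))) :=
      (((Real.continuous_const_rpow hCpos.ne').comp continuous_neg).tendsto 1).mono_left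
        nhdsWithin_le_nhds
    exact (Complex.continuous_ofReal.tendsto _).comp h1
  have hfac : Tendsto (fun s : ℝ ↦ 1 - (Ideal.absNorm C : ℂ) *
      (((Ideal.absNorm C : ℝ) ^ (-s) : ℝ) : ℂ) * ψ C) (𝓝[>] 1) (𝓝 (1 - ψ C)) := by
    have h1 := (((hcont'.const_mul (Ideal.absNorm C : ℂ)).mul_const (ψ C)).const_sub 1)
    have h2 : (Ideal.absNorm C : ℂ) * (((Ideal.absNorm C : ℝ) ^ (-1 : ℝ) : ℝ) : ℂ) = 1 := by
      rw [Real.rpow_neg_one, Complex.ofReal_inv, Complex.ofReal_natCast]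
      exact mul_inv_cancel₀ (by exact_mod_cast hCpos.ne')
    rw [h2, one_mul] at h1
    exact h1
  have hrhs : Tendsto (fun s : ℝ ↦ T⁻¹ * ∑ c, w c s * E ψ (J c) C (μ c) s) (𝓝[>] 1)
      (𝓝 (T⁻¹ * ∑ c, (((Ideal.absNorm (J c : Ideal (𝓞 K)) : ℝ) ^ (1 : ℝ) : ℝ) : ℂ) * ℓ c)) := by
    refine Tendsto.const_mul _ (tendsto_finsetSum _ fun c _ ↦ ?_)
    refine Tendsto.mul (hcont ?_) (hℓ c)
    have : Ideal.absNorm (J c : Ideal (𝓞 K)) ≠ 0 := by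
      rw [Ne, Ideal.absNorm_eq_zero_iff]; exact hJ0 c
    exact_mod_cast Nat.pos_of_ne_zero this
  have hne' : 1 - ψ C ≠ 0 := sub_ne_zero.mpr hne.symm
  refine ⟨_, (hrhs.div hfac hne').congr' ?_⟩
  filter_upwards [self_mem_nhdsWithin, hfac.eventually_ne hne'] with s hs hs0
  rw [Pi.div_apply, ← hsum s hs, mul_div_assoc, mul_comm, div_mul_cancel₀]
  exact hs0

theorem term_eq (ψ : Ideal (𝓞 K) → ℂ) (s : ℝ) (I : Ideal (𝓞 K)) :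
    term ψ s I = ψ I * (Ideal.absNorm I : ℂ) ^ (-(s : ℂ)) := by
  unfold term
  rw [Complex.ofReal_cpow (Nat.cast_nonneg _)]
  simp

/-- **Main theorem**: the L-series of a nontrivial ray class character has a limit at `1`. -/
theorem tendsto_rayL {𝔪 : Ideal (𝓞 K)} {ψ : Ideal (𝓞 K) → ℂ} (hψ : IsRayChar 𝔪 ψ)
    {C : Ideal (𝓞 K)} (hC : C ≠ ⊥) (hcop : C ⊔ 𝔪 = ⊤) (hne : ψ C ≠ 1) :
    ∃ c : ℂ, Tendsto (fun s : ℝ ↦ ∑' I : Ideal (𝓞 K), ψ I * (Ideal.absNorm I : ℂ) ^ (-(s : ℂ)))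
      (𝓝[>] 1) (𝓝 c) := by
  obtain ⟨c, hc⟩ := exists_tendsto_term hψ hC hcop hne
  refine ⟨c, hc.congr fun s ↦ tsum_congr fun I ↦ term_eq ψ s I⟩

end

end Fermat.Agent.Density.RayClassL
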