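import Fermat.Agent.Density.RayPeriodic

/-!
Coset representatives of `J / 𝔠 J` in `𝔪 J`.
-/

set_option autoImplicit false
set_option linter.unusedSectionVars false

open NumberField NumberField.InfinitePlace NumberField.mixedEmbedding NumberField.Units
  NumberField.Units.dirichletUnitTheorem Module Filter Topology
open Fermat.Agent.Density.UnitWeight

namespace Fermat.Agent.Density.RayClassL

noncomputable section

section abstractpart

variable {A : Type*} [AddCommGroup A]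

theorem exists_reps_aux (J J' M : AddSubgroup A) (hJ'J : J' ≤ J) (hMJ : M ≤ J)
    (hsup : ∀ x ∈ J, ∃ c ∈ J', ∃ m ∈ M, c + m = x) (n : ℕ) (hn : n ≠ 0)
    (hcard : J'.relIndex J = n) :
    ∃ μ : Fin n → A, (∀ i, μ i ∈ M) ∧
      ∃ e : Fin n × J' ≃ J, ∀ p, (e p : A) = p.2 + μ p.1 := by
  have hcard' : Nat.card (J ⧸ J'.addSubgroupOf J) = n := hcard
  have hfin : Finite (J ⧸ J'.addSubgroupOf J) := Nat.finite_of_card_ne_zero (by rwa [hcard'])
  let ε : (J ⧸ J'.addSubgroupOf J) ≃ Fin n := Finite.equivFinOfCardEq hcard'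
  -- representatives in M
  have hrep : ∀ q : J ⧸ J'.addSubgroupOf J, ∃ m : J, (m : A) ∈ M ∧
      (QuotientAddGroup.mk m : J ⧸ J'.addSubgroupOf J) = q := by
    intro q
    obtain ⟨x, rfl⟩ := QuotientAddGroup.mk_surjective q
    obtain ⟨c, hc, m, hm, hcm⟩ := hsup x x.2
    refine ⟨⟨m, hMJ hm⟩, hm, ?_⟩
    rw [QuotientAddGroup.eq, AddSubgroup.mem_addSubgroupOf]
    have h2 : ((-(⟨m, hMJ hm⟩ : J) + x : J) : A) = c := by
      simp only [AddSubgroup.coe_add, AddSubgroup.coe_neg]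
      rw [← hcm, add_comm c m, neg_add_cancel_left]
    rw [h2]
    exact hc
  choose m hm hmq using hrep
  let F : Fin n × J' → J := fun p ↦ ⟨p.2 + m (ε.symm p.1), J.add_mem (hJ'J p.2.2) (m (ε.symm p.1)).2⟩
  have hF : ∀ p, (F p : A) = p.2 + m (ε.symm p.1) := fun p ↦ rfl
  have hclass : ∀ p, (QuotientAddGroup.mk (F p) : J ⧸ J'.addSubgroupOf J) = ε.symm p.1 := by
    intro p
    rw [← hmq (ε.symm p.1), eq_comm, QuotientAddGroup.eq, AddSubgroup.mem_addSubgroupOf]
    rw [AddSubgroup.coe_add, AddSubgroup.coe_neg, hF, add_comm (p.2 : A), neg_add_cancel_left]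
    exact p.2.2
  have hbij : Function.Bijective F := by
    constructor
    · rintro ⟨i, β⟩ ⟨j, γ⟩ h
      have h1 := hclass (i, β)
      rw [h, hclass (j, γ)] at h1
      have h2 : i = j := ε.symm.injective h1.symm
      subst h2
      have h3 : (β : A) + m (ε.symm i) = γ + m (ε.symm i) := congrArg Subtype.val h
      have h4 : β = γ := Subtype.ext (add_right_cancel h3)
      rw [h4]
    · intro x
      set q : J ⧸ J'.addSubgroupOf J := QuotientAddGroup.mk x with hq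
      have h1 := hmq q
      rw [hq, QuotientAddGroup.eq, AddSubgroup.mem_addSubgroupOf] at h1
      refine ⟨(ε q, ⟨_, h1⟩), Subtype.ext ?_⟩
      rw [hF, Equiv.symm_apply_apply]
      change -((m q : J) : A) + (x : A) + (m q : J) = x
      rw [add_comm, add_neg_cancel_left]
  exact ⟨fun i ↦ m (ε.symm i), fun i ↦ hm _, Equiv.ofBijective F hbij, fun p ↦ rfl⟩

end abstractpart

variable {K : Type*} [Field K] [NumberField K]

theorem index_toAddSubgroup (I : Ideal (𝓞 K)) : (I.toAddSubgroup).index = Ideal.absNorm I := by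
  rw [Ideal.absNorm_apply, Submodule.cardQuot_apply]
  rfl

theorem mul_toAddSubgroup_le (J C : Ideal (𝓞 K)) :
    (C * J).toAddSubgroup ≤ J.toAddSubgroup := by
  intro x hx
  rw [Submodule.mem_toAddSubgroup] at hx ⊢
  exact Ideal.mul_le_right hx

theorem relIndex_eq {J C : Ideal (𝓞 K)} (hJ : J ≠ ⊥) :
    ((C * J).toAddSubgroup).relIndex J.toAddSubgroup = Ideal.absNorm C := by
  have h1 := AddSubgroup.relIndex_mul_index (mul_toAddSubgroup_le J C)
  rw [index_toAddSubgroup, index_toAddSubgroup, map_mul] at h1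
  have h3 : Ideal.absNorm J ≠ 0 := by rwa [Ne, Ideal.absNorm_eq_zero_iff]
  exact Nat.eq_of_mul_eq_mul_right (Nat.pos_of_ne_zero h3) h1

theorem exists_reps {𝔪 J C : Ideal (𝓞 K)} (hJ : J ≠ ⊥) (hC : C ≠ ⊥) (hcop : C ⊔ 𝔪 = ⊤) :
    ∃ μ : Fin (Ideal.absNorm C) → 𝓞 K, (∀ i, μ i ∈ 𝔪 * J) ∧
      ∃ e : Fin (Ideal.absNorm C) × {x : 𝓞 K // x ∈ C * J} ≃ {x : 𝓞 K // x ∈ J},
        ∀ p, (e p : 𝓞 K) = p.2 + μ p.1 := by
  have hn0 : Ideal.absNorm C ≠ 0 := by rwa [Ne, Ideal.absNorm_eq_zero_iff]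
  obtain ⟨μ, hμ, e, he⟩ := exists_reps_aux J.toAddSubgroup (C * J).toAddSubgroup
    (𝔪 * J).toAddSubgroup (mul_toAddSubgroup_le J C) (mul_toAddSubgroup_le J 𝔪) (by
      intro x hx
      rw [Submodule.mem_toAddSubgroup] at hx
      have h1 : x ∈ (C ⊔ 𝔪) * J := by
        rw [hcop, Ideal.top_mul]
        exact hx
      rw [Ideal.sup_mul] at h1
      obtain ⟨c, hc, m, hm, hcm⟩ := Submodule.mem_sup.mp h1
      exact ⟨c, Submodule.mem_toAddSubgroup _ |>.mpr hc, m,
        Submodule.mem_toAddSubgroup _ |>.mpr hm, hcm⟩) _ hn0 (relIndex_eq hJ)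
  refine ⟨μ, fun i ↦ (Submodule.mem_toAddSubgroup _).mp (hμ i), ?_⟩
  let e1 : {x : 𝓞 K // x ∈ C * J} ≃ (C * J).toAddSubgroup :=
    Equiv.subtypeEquivRight fun x ↦ (Submodule.mem_toAddSubgroup _).symm
  let e2 : J.toAddSubgroup ≃ {x : 𝓞 K // x ∈ J} :=
    Equiv.subtypeEquivRight fun x ↦ Submodule.mem_toAddSubgroup _
  refine ⟨((Equiv.refl _).prodCongr e1).trans (e.trans e2), fun p ↦ ?_⟩
  have h1 := he (p.1, e1 p.2)
  exact h1

end

end Fermat.Agent.Density.RayClassL
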