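import Fermat.Agent.Density.IdealSum

/-!
Ray class characters and their periodicity on elements.
-/

set_option autoImplicit false
set_option linter.unusedSectionVars false

open NumberField NumberField.InfinitePlace NumberField.mixedEmbedding NumberField.Units
  NumberField.Units.dirichletUnitTheorem Module Filter Topology
open Fermat.Agent.Density.UnitWeight

namespace Fermat.Agent.Density.RayClassL

noncomputable section

variable {K : Type*} [Field K] [NumberField K]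

/-- `ψ` is a (narrow) ray class character modulo `𝔪`, as a function on all ideals. -/
structure IsRayChar (𝔪 : Ideal (𝓞 K)) (ψ : Ideal (𝓞 K) → ℂ) : Prop where
  mul : ∀ I J, ψ (I * J) = ψ I * ψ J
  norm_le : ∀ I, ‖ψ I‖ ≤ 1
  bad : ∀ I, I ⊔ 𝔪 ≠ ⊤ → ψ I = 0
  prin : ∀ a : 𝓞 K, a ≠ 0 → a - 1 ∈ 𝔪 → (∀ φ : K →+* ℝ, 0 < φ (a : K)) →
    ψ (Ideal.span {a}) = 1

open Classical in
/-- `ψ (a J⁻¹)` for `a ∈ J`, and `0` otherwise -/
def fJ (ψ : Ideal (𝓞 K) → ℂ) (J : Ideal (𝓞 K)) (a : 𝓞 K) : ℂ :=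
  if h : J ∣ Ideal.span {a} then ψ h.choose else 0

theorem fJ_of_eq {ψ : Ideal (𝓞 K) → ℂ} {J : Ideal (𝓞 K)} (hJ : J ≠ ⊥) {a : 𝓞 K}
    {A : Ideal (𝓞 K)} (h : Ideal.span {a} = J * A) : fJ ψ J a = ψ A := by
  have hd : J ∣ Ideal.span {a} := ⟨A, h⟩
  unfold fJ
  rw [dif_pos hd]
  congr 1
  exact (mul_left_cancel₀ hJ (h.symm.trans hd.choose_spec)).symm

theorem dvd_span_iff {J : Ideal (𝓞 K)} {a : 𝓞 K} : J ∣ Ideal.span {a} ↔ a ∈ J := by
  rw [Ideal.dvd_iff_le, Ideal.span_singleton_le_iff_mem]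

theorem fJ_of_notMem {ψ : Ideal (𝓞 K) → ℂ} {J : Ideal (𝓞 K)} {a : 𝓞 K}
    (h : a ∉ J) : fJ ψ J a = 0 := by
  unfold fJ
  rw [dif_neg (by rwa [dvd_span_iff])]

theorem norm_fJ_le {𝔪 : Ideal (𝓞 K)} {ψ : Ideal (𝓞 K) → ℂ} (hψ : IsRayChar 𝔪 ψ)
    (J : Ideal (𝓞 K)) (a : 𝓞 K) : ‖fJ ψ J a‖ ≤ 1 := by
  unfold fJ
  split_ifs
  · exact hψ.norm_le _
  · simp

theorem exists_good_elt {𝔪 A : Ideal (𝓞 K)} (hA : A ≠ ⊥) (h : A ⊔ 𝔪 = ⊤) :
    ∃ c : 𝓞 K, c ≠ 0 ∧ c ∈ A ∧ c - 1 ∈ 𝔪 ∧ ∀ φ : K →+* ℝ, 0 < φ (c : K) := by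
  have key : ∃ c : 𝓞 K, c ≠ 0 ∧ c ∈ A ∧ c - 1 ∈ 𝔪 := by
    have h1 : (1 : 𝓞 K) ∈ A ⊔ 𝔪 := by rw [h]; trivial
    obtain ⟨c, hc, m, hm, hcm⟩ := Submodule.mem_sup.mp h1
    by_cases hc0 : c = 0
    · have hm1 : 𝔪 = ⊤ := by
        rw [Ideal.eq_top_iff_one]
        rw [hc0, zero_add] at hcm
        rwa [← hcm]
      obtain ⟨c', hc', hc0'⟩ := Submodule.exists_mem_ne_zero_of_ne_bot hA
      exact ⟨c', hc0', hc', by rw [hm1]; trivial⟩
    · refine ⟨c, hc0, hc, ?_⟩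
      have : c - 1 = -m := by rw [← hcm]; ring
      rw [this]
      exact 𝔪.neg_mem hm
  obtain ⟨c, hc0, hcA, hcm⟩ := key
  refine ⟨c * c, mul_ne_zero hc0 hc0, A.mul_mem_left _ hcA, ?_, fun φ ↦ ?_⟩
  · have : c * c - 1 = (c + 1) * (c - 1) := by ring
    rw [this]
    exact 𝔪.mul_mem_left _ hcm
  · have h2 : φ ((c * c : 𝓞 K) : K) = φ (c : K) * φ (c : K) := by simp
    rw [h2]
    have h3 : φ (c : K) ≠ 0 := by
      rw [Ne, map_eq_zero]
      exact fun h ↦ hc0 (RingOfIntegers.ext h)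
    exact mul_self_pos.mpr h3

theorem signPeriodic_fJ {𝔪 : Ideal (𝓞 K)} {ψ : Ideal (𝓞 K) → ℂ} (hψ : IsRayChar 𝔪 ψ)
    {J : Ideal (𝓞 K)} (hJ : J ≠ ⊥) {μ : 𝓞 K} (hμ : μ ∈ 𝔪 * J) : SignPeriodic (fJ ψ J) μ := by
  intro a ha haμ hsign
  have hμJ : μ ∈ J := Ideal.mul_le_right hμ
  by_cases haJ : a ∈ J
  swap
  · rw [fJ_of_notMem haJ, fJ_of_notMem]
    intro h
    apply haJ
    have := J.sub_mem h hμJ
    rwa [add_sub_cancel_right] at this
  have haμJ : a + μ ∈ J := J.add_mem haJ hμJ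
  obtain ⟨A, hA⟩ := dvd_span_iff.mpr haJ
  obtain ⟨A', hA'⟩ := dvd_span_iff.mpr haμJ
  rw [fJ_of_eq hJ hA, fJ_of_eq hJ hA']
  have hJ0 : J ≠ 0 := hJ
  -- comparison of the sups
  have hsup : A ⊔ 𝔪 = A' ⊔ 𝔪 := by
    apply mul_left_cancel₀ hJ0
    rw [Ideal.mul_sup, Ideal.mul_sup, ← hA, ← hA']
    have hμ' : μ ∈ J * 𝔪 := by rwa [mul_comm]
    apply le_antisymm
    · refine sup_le ?_ le_sup_right
      rw [Ideal.span_singleton_le_iff_mem]
      have e : (a + μ) + (-μ) ∈ Ideal.span {a + μ} ⊔ J * 𝔪 :=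
        Submodule.add_mem_sup (Ideal.mem_span_singleton_self _) (Ideal.neg_mem_iff _ |>.mpr hμ')
      rwa [add_neg_cancel_right] at e
    · refine sup_le ?_ le_sup_right
      rw [Ideal.span_singleton_le_iff_mem]
      exact Submodule.add_mem_sup (Ideal.mem_span_singleton_self _) hμ'
  by_cases hcop : A ⊔ 𝔪 = ⊤
  swap
  · rw [hψ.bad A hcop, hψ.bad A' (by rwa [← hsup])]
  have hA0 : A ≠ ⊥ := by
    rintro rfl
    rw [Ideal.mul_bot, Ideal.span_singleton_eq_bot] at hA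
    exact ha hA
  obtain ⟨c, hc0, hcA, hcm, hcpos⟩ := exists_good_elt hA0 hcop
  -- c μ = a m'
  have hcμ : c * μ ∈ Ideal.span {a} * 𝔪 := by
    rw [hA, mul_comm J A, mul_assoc]
    refine Ideal.mul_mem_mul hcA ?_
    rwa [mul_comm]
  obtain ⟨m', hm', hm'eq⟩ := Ideal.mem_span_singleton_mul.mp hcμ
  set b := c + m' with hb
  have hab : a * b = c * (a + μ) := by rw [hb, mul_add, hm'eq]; ring
  have hb0 : b ≠ 0 := by
    intro h
    rw [h, mul_zero] at hab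
    exact (mul_ne_zero hc0 haμ) hab.symm
  have hbm : b - 1 ∈ 𝔪 := by
    have : b - 1 = (c - 1) + m' := by rw [hb]; ring
    rw [this]
    exact 𝔪.add_mem hcm hm'
  have hbpos : ∀ φ : K →+* ℝ, 0 < φ (b : K) := by
    intro φ
    have h1 : φ (a : K) * φ (b : K) = φ (c : K) * φ ((a + μ : 𝓞 K) : K) := by
      have h5 : (a : K) * (b : K) = (c : K) * ((a + μ : 𝓞 K) : K) := by
        rw [← map_mul, ← map_mul, hab]
      rw [← map_mul φ, ← map_mul φ, h5]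
    have ha0 : φ (a : K) ≠ 0 := by
      rw [Ne, map_eq_zero]
      exact fun h ↦ ha (RingOfIntegers.ext h)
    have haμ0 : φ ((a + μ : 𝓞 K) : K) ≠ 0 := by
      rw [Ne, map_eq_zero]
      exact fun h ↦ haμ (RingOfIntegers.ext h)
    have hc := hcpos φ
    rcases lt_or_gt_of_ne ha0 with hlt | hgt
    · have h2 : φ ((a + μ : 𝓞 K) : K) < 0 := by
        rcases lt_or_gt_of_ne haμ0 with h | h
        · exact h
        · exact absurd ((hsign φ).mp h) (not_lt.mpr hlt.le)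
      by_contra hneg
      have h3 : 0 ≤ φ (a : K) * φ (b : K) := mul_nonneg_of_nonpos_of_nonpos hlt.le (not_lt.mp hneg)
      have h4 : φ (c : K) * φ ((a + μ : 𝓞 K) : K) < 0 := mul_neg_of_pos_of_neg hc h2
      linarith
    · have h2 : 0 < φ ((a + μ : 𝓞 K) : K) := (hsign φ).mpr hgt
      by_contra hneg
      have h3 : φ (a : K) * φ (b : K) ≤ 0 := mul_nonpos_of_nonneg_of_nonpos hgt.le (not_lt.mp hneg)
      have h4 : 0 < φ (c : K) * φ ((a + μ : 𝓞 K) : K) := mul_pos hc h2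
      linarith
  have h1 : A * Ideal.span {b} = Ideal.span {c} * A' := by
    apply mul_left_cancel₀ hJ0
    rw [← mul_assoc, ← hA, mul_left_comm, ← hA', Ideal.span_singleton_mul_span_singleton,
      Ideal.span_singleton_mul_span_singleton, hab]
  have h2 := congrArg ψ h1
  rw [hψ.mul, hψ.mul, hψ.prin b hb0 hbm hbpos, hψ.prin c hc0 hcm hcpos, mul_one, one_mul] at h2
  exact h2.symm

end

end Fermat.Agent.Density.RayClassL
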