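import Mathlib
import Fermat.Agent.FrobeniusDensity

/-!
# Frobenius density theorem: topological forms
-/

set_option autoImplicit false

namespace Fermat.Agent.Density.Topological

open Fermat.Agent.FrobDensity

local notation "ℚbar" => AlgebraicClosure ℚ
local notation "Γℚ" => AlgebraicClosure ℚ ≃ₐ[ℚ] AlgebraicClosure ℚ

/-- The powers of the Frobenius elements outside `S`. -/
def frobPowers (S : Finset ℕ) : Set Γℚ :=
  {g | ∃ ℓ : ℕ, ℓ.Prime ∧ ℓ ∉ S ∧ ∃ (A : ValuationSubring ℚbar) (σ : Γℚ),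
    A.LiesOverPrime ℓ ∧ A.IsFrobeniusAt σ ℓ ∧ ∃ k : ℕ, g = σ ^ k}

/-- The powers of Frobenius elements are dense in `Gal(ℚ̄/ℚ)`. -/
theorem dense_frobPowers (S : Finset ℕ) : Dense (frobPowers S) := by
  intro g
  rw [mem_closure_iff_nhds]
  intro U hU
  -- translate to a neighbourhood of `1`
  have hU' : (fun h : Γℚ ↦ g * h) ⁻¹' U ∈ nhds (1 : Γℚ) := by
    apply (continuous_const_mul g).continuousAt.preimage_mem_nhds
    rwa [mul_one]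
  obtain ⟨L, hL, hLU⟩ := (krullTopology_mem_nhds_one_iff ℚ ℚbar _).mp hU'
  obtain ⟨ℓ, hℓ, hℓS, A, σ, hA, hσ, ⟨k, hk⟩, -⟩ := frobenius_density L S g
  refine ⟨σ ^ k, ?_, ⟨ℓ, hℓ, hℓS, A, σ, hA, hσ, k, rfl⟩⟩
  have h1 : g⁻¹ * σ ^ k ∈ L.fixingSubgroup := by
    rw [IntermediateField.mem_fixingSubgroup_iff]
    intro x hx
    have h2 := hk x hx
    rw [AlgEquiv.mul_apply, ← h2]
    exact g.symm_apply_apply x
  have h3 := hLU h1
  simpa using h3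

/-- A closed set containing all powers of Frobenius elements outside a finite set is everything. -/
theorem eq_univ_of_isClosed {X : Set Γℚ} (hX : IsClosed X) (S : Finset ℕ)
    (h : ∀ ℓ : ℕ, ℓ.Prime → ℓ ∉ S → ∀ (A : ValuationSubring ℚbar) (σ : Γℚ),
      A.LiesOverPrime ℓ → A.IsFrobeniusAt σ ℓ → ∀ k : ℕ, σ ^ k ∈ X) : X = Set.univ := by
  have h1 : frobPowers S ⊆ X := by
    rintro g ⟨ℓ, hℓ, hℓS, A, σ, hA, hσ, k, rfl⟩
    exact h ℓ hℓ hℓS A σ hA hσ k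
  have h2 := (dense_frobPowers S).mono h1
  exact hX.closure_eq ▸ h2.closure_eq

/-- Induction principle: a power-stable closed predicate which holds at all Frobenius elements
outside a finite set holds everywhere. -/
theorem forall_of_frob {p : Γℚ → Prop} (hclosed : IsClosed {g | p g}) (hpow : ∀ g, p g → ∀ k : ℕ, p (g ^ k))
    (S : Finset ℕ)
    (h : ∀ ℓ : ℕ, ℓ.Prime → ℓ ∉ S → ∀ (A : ValuationSubring ℚbar) (σ : Γℚ),
      A.LiesOverPrime ℓ → A.IsFrobeniusAt σ ℓ → p σ) (g : Γℚ) : p g := by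
  have h1 := eq_univ_of_isClosed hclosed S (fun ℓ hℓ hℓS A σ hA hσ k ↦ hpow σ (h ℓ hℓ hℓS A σ hA hσ) k)
  have h2 : g ∈ {g | p g} := h1 ▸ Set.mem_univ g
  exact h2

/-- Open normal subgroup form: for every open subgroup `U` of `Gal(ℚ̄/ℚ)`, every `g` and every finite
set `S` there is a Frobenius `σ` outside `S` such that `g ∈ σ ^ k U` and `σ ∈ g ^ m U`. -/
theorem exists_frob_mem_coset (U : Subgroup Γℚ) (hU : IsOpen (U : Set Γℚ)) (S : Finset ℕ) (g : Γℚ) :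
    ∃ ℓ : ℕ, ℓ.Prime ∧ ℓ ∉ S ∧ ∃ (A : ValuationSubring ℚbar) (σ : Γℚ),
      A.LiesOverPrime ℓ ∧ A.IsFrobeniusAt σ ℓ ∧ (∃ k : ℕ, (σ ^ k)⁻¹ * g ∈ U) ∧ (∃ k : ℕ, (g ^ k)⁻¹ * σ ∈ U) := by
  have h1 : (U : Set Γℚ) ∈ nhds (1 : Γℚ) := hU.mem_nhds U.one_mem
  obtain ⟨L, hL, hLU⟩ := (krullTopology_mem_nhds_one_iff ℚ ℚbar _).mp h1
  obtain ⟨ℓ, hℓ, hℓS, A, σ, hA, hσ, ⟨k, hk⟩, ⟨m, hm⟩⟩ := frobenius_density L S g
  have key : ∀ a b : Γℚ, (∀ x ∈ L, a x = b x) → b⁻¹ * a ∈ U := by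
    intro a b hab
    apply hLU
    change _ ∈ L.fixingSubgroup
    rw [IntermediateField.mem_fixingSubgroup_iff]
    intro x hx
    rw [AlgEquiv.mul_apply, hab x hx]
    exact b.symm_apply_apply x
  exact ⟨ℓ, hℓ, hℓS, A, σ, hA, hσ, ⟨k, key _ _ hk⟩, ⟨m, key _ _ hm⟩⟩

/-- Form for homomorphisms of finite level: `f` trivial on the elements fixing a finite extension. -/
theorem exists_frob_pow_eq {M : Type*} [Monoid M] (f : Γℚ →* M) (L : IntermediateField ℚ ℚbar)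
    [FiniteDimensional ℚ L] (hf : ∀ σ : Γℚ, (∀ x ∈ L, σ x = x) → f σ = 1) (S : Finset ℕ) (g : Γℚ) :
    ∃ ℓ : ℕ, ℓ.Prime ∧ ℓ ∉ S ∧ ∃ (A : ValuationSubring ℚbar) (σ : Γℚ),
      A.LiesOverPrime ℓ ∧ A.IsFrobeniusAt σ ℓ ∧ (∃ k : ℕ, f g = f σ ^ k) ∧ (∃ k : ℕ, f σ = f g ^ k) := by
  obtain ⟨ℓ, hℓ, hℓS, A, σ, hA, hσ, ⟨k, hk⟩, ⟨m, hm⟩⟩ := frobenius_density L S g
  have key : ∀ a b : Γℚ, (∀ x ∈ L, a x = b x) → f a = f b := by
    intro a b hab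
    have h1 : f (b⁻¹ * a) = 1 := by
      apply hf
      intro x hx
      rw [AlgEquiv.mul_apply, hab x hx]
      exact b.symm_apply_apply x
    have h2 : a = b * (b⁻¹ * a) := by group
    rw [h2, map_mul, h1, mul_one]
  refine ⟨ℓ, hℓ, hℓS, A, σ, hA, hσ, ⟨k, ?_⟩, ⟨m, ?_⟩⟩
  · rw [← map_pow]; exact key _ _ hk
  · rw [← map_pow]; exact key _ _ hm

end Fermat.Agent.Density.Topological
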