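import Mathlib

/-!
Partition of unity on the mixed space of a number field with respect to the action of the units.
-/

set_option autoImplicit false

open NumberField NumberField.InfinitePlace NumberField.mixedEmbedding NumberField.Units
  NumberField.Units.dirichletUnitTheorem Module

namespace Fermat.Agent.Density.UnitWeight

noncomputable section

/-- The tent function. -/
def tent (t : ℝ) : ℝ := max 0 (1 - |t|)

theorem tent_nonneg (t : ℝ) : 0 ≤ tent t := le_max_left _ _

theorem tent_le_one (t : ℝ) : tent t ≤ 1 := by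
  unfold tent; exact max_le zero_le_one (by linarith [abs_nonneg t])

theorem tent_lipschitz (t t' : ℝ) : |tent t - tent t'| ≤ |t - t'| := by
  unfold tent
  refine (abs_max_sub_max_le_max _ _ _ _).trans ?_
  simp only [sub_self, abs_zero]
  refine max_le (abs_nonneg _) ?_
  have : (1 - |t|) - (1 - |t'|) = |t'| - |t| := by ring
  rw [this, abs_sub_comm t t']
  exact abs_abs_sub_abs_le_abs_sub _ _

theorem tent_eq_zero {t : ℝ} (h : 1 ≤ |t|) : tent t = 0 := by
  unfold tent; exact max_eq_left (by linarith)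

theorem tent_sum (t : ℝ) : tent (t + ((-⌊t⌋ : ℤ) : ℝ)) + tent (t + ((-⌊t⌋ - 1 : ℤ) : ℝ)) = 1 := by
  have h0 := Int.floor_le t
  have h1 := Int.lt_floor_add_one t
  unfold tent
  push_cast
  rw [abs_of_nonneg (by linarith : 0 ≤ t + -(⌊t⌋ : ℝ)),
    abs_of_nonpos (by linarith : t + (-(⌊t⌋ : ℝ) - 1) ≤ 0), max_eq_right (by linarith),
    max_eq_right (by linarith)]
  ring

theorem tent_eq_zero_of_ne {t : ℝ} {n : ℤ} (h1 : n ≠ -⌊t⌋) (h2 : n ≠ -⌊t⌋ - 1) :
    tent (t + n) = 0 := by
  apply tent_eq_zero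
  have h0 := Int.floor_le t
  have h3 := Int.lt_floor_add_one t
  rcases lt_or_gt_of_ne h1 with h | h
  · have h4 : n < -⌊t⌋ - 1 := lt_of_le_of_ne (by omega) h2
    have h5 : (n : ℝ) ≤ -⌊t⌋ - 2 := by
      have : n ≤ -⌊t⌋ - 2 := by omega
      exact_mod_cast this
    rw [abs_of_nonpos (by linarith)]
    linarith
  · have h5 : (-⌊t⌋ : ℝ) + 1 ≤ (n : ℝ) := by
      have : -⌊t⌋ + 1 ≤ n := by omega
      exact_mod_cast this
    rw [abs_of_nonneg (by linarith)]
    linarith

variable {ι : Type*} [Fintype ι]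

/-- product of tent functions -/
def phi (t : ι → ℝ) : ℝ := ∏ i, tent (t i)

theorem phi_nonneg (t : ι → ℝ) : 0 ≤ phi t := Finset.prod_nonneg fun _ _ ↦ tent_nonneg _

theorem phi_le_one (t : ι → ℝ) : phi t ≤ 1 :=
  Finset.prod_le_one (fun _ _ ↦ tent_nonneg _) fun _ _ ↦ tent_le_one _

theorem abs_lt_one_of_phi_ne_zero {t : ι → ℝ} (h : phi t ≠ 0) (i : ι) : |t i| < 1 := by
  by_contra hc
  exact h (Finset.prod_eq_zero (Finset.mem_univ i) (tent_eq_zero (not_lt.mp hc)))

open Classical in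
theorem hasSum_phi (t : ι → ℝ) : HasSum (fun n : ι → ℤ ↦ phi (fun i ↦ t i + n i)) 1 := by
  have key : ∑ n ∈ Fintype.piFinset (fun i ↦ ({-⌊t i⌋, -⌊t i⌋ - 1} : Finset ℤ)),
      phi (fun i ↦ t i + n i) = 1 := by
    unfold phi
    rw [← Finset.prod_univ_sum (fun i ↦ ({-⌊t i⌋, -⌊t i⌋ - 1} : Finset ℤ))
      (fun i n ↦ tent (t i + (n : ℝ)))]
    refine Finset.prod_eq_one fun i _ ↦ ?_
    rw [Finset.sum_pair (by omega)]
    exact tent_sum (t i)
  rw [← key]
  refine hasSum_sum_of_ne_finset_zero fun n hn ↦ ?_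
  rw [Fintype.mem_piFinset] at hn
  push Not at hn
  obtain ⟨i, hi⟩ := hn
  simp only [Finset.mem_insert, Finset.mem_singleton, not_or] at hi
  exact Finset.prod_eq_zero (Finset.mem_univ i) (tent_eq_zero_of_ne hi.1 hi.2)

theorem phi_lipschitz (t t' : ι → ℝ) (δ : ℝ) (h : ∀ i, |t i - t' i| ≤ δ) :
    |phi t - phi t'| ≤ Fintype.card ι * δ := by
  classical
  have key : ∀ s : Finset ι, |∏ i ∈ s, tent (t i) - ∏ i ∈ s, tent (t' i)| ≤ s.card * δ := by
    intro s
    induction s using Finset.induction_on with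
    | empty => simp
    | insert a s ha ih =>
      rw [Finset.prod_insert ha, Finset.prod_insert ha, Finset.card_insert_of_notMem ha]
      have e : tent (t a) * ∏ i ∈ s, tent (t i) - tent (t' a) * ∏ i ∈ s, tent (t' i) =
        (tent (t a) - tent (t' a)) * ∏ i ∈ s, tent (t i) +
          tent (t' a) * (∏ i ∈ s, tent (t i) - ∏ i ∈ s, tent (t' i)) := by ring
      rw [e]
      refine (abs_add_le _ _).trans ?_
      rw [abs_mul, abs_mul]
      have hp0 : 0 ≤ ∏ i ∈ s, tent (t i) := Finset.prod_nonneg fun _ _ ↦ tent_nonneg _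
      have hp1 : ∏ i ∈ s, tent (t i) ≤ 1 :=
        Finset.prod_le_one (fun _ _ ↦ tent_nonneg _) fun _ _ ↦ tent_le_one _
      have h1 : |tent (t a) - tent (t' a)| * |∏ i ∈ s, tent (t i)| ≤ δ * 1 := by
        gcongr
        · exact (abs_nonneg _).trans ((tent_lipschitz _ _).trans (h a))
        · exact (tent_lipschitz _ _).trans (h a)
        · rwa [abs_of_nonneg hp0]
      have h2 : |tent (t' a)| * |∏ i ∈ s, tent (t i) - ∏ i ∈ s, tent (t' i)| ≤ 1 * (s.card * δ) := by
        gcongr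
        rw [abs_of_nonneg (tent_nonneg _)]
        exact tent_le_one _
      push_cast
      linarith
  exact key Finset.univ

end

end Fermat.Agent.Density.UnitWeight
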