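import Fermat.Agent.Density.UnitWeight

/-!
The weight function on the mixed space.
-/

set_option autoImplicit false

open NumberField NumberField.InfinitePlace NumberField.mixedEmbedding NumberField.Units
  NumberField.Units.dirichletUnitTheorem Module

namespace Fermat.Agent.Density.UnitWeight

noncomputable section

variable (K : Type*) [Field K] [NumberField K]

open scoped Classical in
/-- real basis of the log space coming from fundamental units -/
def logBasis : Basis (Fin (rank K)) ℝ (logSpace K) :=
  (basisUnitLattice K).ofZLatticeBasis ℝ (unitLattice K)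

theorem logBasis_apply (i : Fin (rank K)) :
    logBasis K i = (basisUnitLattice K i : logSpace K) := by
  classical
  unfold logBasis
  rw [Basis.ofZLatticeBasis_apply]

variable {K}

/-- coordinates of `logMap x` on the basis of fundamental units -/
def coords (x : mixedSpace K) : Fin (rank K) → ℝ := fun i ↦ (logBasis K).repr (logMap x) i

open Classical in
/-- the weight function -/
def weight (x : mixedSpace K) : ℝ := if mixedEmbedding.norm x = 0 then 0 else phi (coords x)

theorem weight_nonneg (x : mixedSpace K) : 0 ≤ weight x := by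
  unfold weight
  split_ifs
  · exact le_rfl
  · exact phi_nonneg _

theorem weight_le_one (x : mixedSpace K) : weight x ≤ 1 := by
  unfold weight
  split_ifs
  · exact zero_le_one
  · exact phi_le_one _

theorem weight_of_norm_ne_zero {x : mixedSpace K} (hx : mixedEmbedding.norm x ≠ 0) :
    weight x = phi (coords x) := by
  unfold weight
  rw [if_neg hx]

theorem norm_ne_zero_of_weight_ne_zero {x : mixedSpace K} (hx : weight x ≠ 0) :
    mixedEmbedding.norm x ≠ 0 := by
  intro h
  apply hx
  unfold weight
  rw [if_pos h]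

variable (K) in
/-- units are torsion times powers of fundamental units -/
def unitsEquiv : (torsion K) × (Fin (rank K) → ℤ) ≃ (𝓞 K)ˣ :=
  Equiv.ofBijective (fun ζe ↦ (ζe.1 : (𝓞 K)ˣ) * ∏ i, (fundSystem K i) ^ (ζe.2 i)) (by
    constructor
    · intro a b hab
      obtain ⟨c, -, hc⟩ := exist_unique_eq_mul_prod K ((a.1 : (𝓞 K)ˣ) * ∏ i, (fundSystem K i) ^ (a.2 i))
      rw [hc a rfl, hc b hab]
    · intro u
      obtain ⟨c, hc, -⟩ := exist_unique_eq_mul_prod K u
      exact ⟨c, hc.symm⟩)

theorem unitsEquiv_apply (ζe : (torsion K) × (Fin (rank K) → ℤ)) :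
    unitsEquiv K ζe = (ζe.1 : (𝓞 K)ˣ) * ∏ i, (fundSystem K i) ^ (ζe.2 i) := rfl

theorem coords_unit_smul (ζe : (torsion K) × (Fin (rank K) → ℤ)) {x : mixedSpace K}
    (hx : mixedEmbedding.norm x ≠ 0) (i : Fin (rank K)) :
    coords (unitsEquiv K ζe • x) i = coords x i + ζe.2 i := by
  have h1 : logEmbedding K (Additive.ofMul (unitsEquiv K ζe)) =
      ∑ j, (ζe.2 j : ℝ) • logBasis K j := by
    rw [unitsEquiv_apply, ofMul_mul, map_add, logEmbedding_eq_zero_iff.mpr ζe.1.2, zero_add,
      ofMul_prod, map_sum]
    refine Finset.sum_congr rfl fun j _ ↦ ?_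
    rw [ofMul_zpow, map_zsmul, logEmbedding_fundSystem, logBasis_apply]
    exact (Int.cast_smul_eq_zsmul ℝ _ _).symm
  unfold coords
  rw [logMap_unit_smul _ hx, map_add, h1, map_sum]
  simp [Finsupp.single_apply, add_comm]

theorem norm_unit_smul_ne_zero (u : (𝓞 K)ˣ) {x : mixedSpace K}
    (hx : mixedEmbedding.norm x ≠ 0) : mixedEmbedding.norm (u • x) ≠ 0 := by
  rwa [norm_unit_smul]

theorem hasSum_weight {x : mixedSpace K} (hx : mixedEmbedding.norm x ≠ 0) :
    HasSum (fun u : (𝓞 K)ˣ ↦ weight (u • x)) (torsionOrder K : ℝ) := by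
  rw [← (unitsEquiv K).hasSum_iff]
  have h1 : ((fun u : (𝓞 K)ˣ ↦ weight (u • x)) ∘ (unitsEquiv K)) =
      fun ζe ↦ phi (fun i ↦ coords x i + ζe.2 i) := by
    funext ζe
    simp only [Function.comp_apply]
    rw [weight_of_norm_ne_zero (norm_unit_smul_ne_zero _ hx)]
    congr 1
    funext i
    exact coords_unit_smul ζe hx i
  rw [h1]
  have h2 := hasSum_phi (coords x)
  have h3 : HasSum (fun _ : torsion K ↦ (1 : ℝ)) (torsionOrder K : ℝ) := by
    classical
    have := Fintype.ofFinite (torsion K)
    have h := hasSum_fintype (fun _ : torsion K ↦ (1 : ℝ))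
    simpa [torsionOrder] using h
  have h5 := h3.summable.mul_of_nonneg h2.summable (fun _ ↦ zero_le_one) (fun _ ↦ phi_nonneg _)
  have h4 := h3.mul h2 h5
  simpa using h4

end

end Fermat.Agent.Density.UnitWeight
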